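import Fermat.Agent.RR.Main

/-!
Products of Riemann–Roch spaces: the base point free pencil trick.
-/

set_option autoImplicit false

noncomputable section

open AlgebraicCurve

namespace FLTAgent.Flat

variable {K F : Type*} [Field K] [Infinite K] [Field F] [Algebra K F]

omit [Infinite K] in
theorem mem_rr_mul {D E : Divisor K F} {f g : F} (hf : f ∈ riemannRochSpace D)
    (hg : g ∈ riemannRochSpace E) : f * g ∈ riemannRochSpace (D + E) := by
  rw [mem_riemannRochSpace_iff] at hf hg ⊢
  intro v
  rcases eq_or_ne f 0 with rfl | hf0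
  · exact Or.inl (zero_mul g)
  rcases eq_or_ne g 0 with rfl | hg0
  · exact Or.inl (mul_zero f)
  have h1 := (hf v).resolve_left hf0
  have h2 := (hg v).resolve_left hg0
  right
  rw [v.ord_mul hf0 hg0, Finsupp.add_apply]
  omega

theorem riemannRochSpace_le_span_mul (E1 E2 : Divisor K F)
    (hfin : ∀ f : F, f ≠ 0 → {v : Place K F | v.ord f ≠ 0}.Finite)
    (hfd : FiniteDimensional K (riemannRochSpace (E1 + E2)))
    (hfd1 : FiniteDimensional K (riemannRochSpace E1))
    (hfd2 : FiniteDimensional K (riemannRochSpace E2))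
    (hbpf : ∀ v, riemannRochSpace (E1 - Finsupp.single v 1) ≠ riemannRochSpace E1)
    (hdim : Module.finrank K (riemannRochSpace (E1 + E2)) +
      Module.finrank K (riemannRochSpace (E2 - E1)) ≤ 2 * Module.finrank K (riemannRochSpace E2)) :
    riemannRochSpace (E1 + E2) ≤ Submodule.span K
      {f : F | ∃ a ∈ riemannRochSpace E1, ∃ b ∈ riemannRochSpace E2, f = a * b} := by
  classical
  set L1 := riemannRochSpace E1 with hL1
  set L2 := riemannRochSpace E2 with hL2
  have hne : L1 ≠ ⊥ := by
    intro h
    rcases isEmpty_or_nonempty (Place K F) with he | ⟨⟨v⟩⟩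
    · have : (1 : F) ∈ L1 := mem_riemannRochSpace_iff.mpr fun v => isEmptyElim v
      rw [h, Submodule.mem_bot] at this
      exact one_ne_zero this
    · refine hbpf v (le_antisymm (fun f hf => ?_) (h ▸ bot_le))
      rw [mem_riemannRochSpace_iff] at hf ⊢
      exact fun w => (hf w).imp_right fun h' => by
        rw [Finsupp.sub_apply, Finsupp.single_apply] at h'
        split_ifs at h' <;> omega
  obtain ⟨s, hs, hs0⟩ := L1.exists_mem_ne_zero_of_ne_bot hne
  set Z : Set (Place K F) := {v | v.ord s ≠ 0} ∪ ↑E1.support with hZ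
  have hZf : Z.Finite := (hfin s hs0).union E1.support.finite_toSet
  have := hZf.to_subtype
  let p : Option Z → Submodule K L1 := fun o => o.elim ⊥
    fun v => (riemannRochSpace (E1 - Finsupp.single v.1 1)).comap L1.subtype
  obtain ⟨⟨t, ht⟩, htp⟩ := Submodule.exists_forall_notMem_of_forall_ne_top p fun o => by
    cases o with
    | none =>
      refine fun h => hs0 ?_
      have : (⟨s, hs⟩ : L1) ∈ p none := by rw [h]; exact Submodule.mem_top
      simpa [p] using this
    | some v =>
      refine fun h => hbpf v.1 (le_antisymm (fun f hf => ?_) fun f hf => ?_)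
      · rw [mem_riemannRochSpace_iff] at hf ⊢
        exact fun w => (hf w).imp_right fun h' => by
          rw [Finsupp.sub_apply, Finsupp.single_apply] at h'
          split_ifs at h' <;> omega
      · have : (⟨f, hf⟩ : L1) ∈ p (some v) := h ▸ Submodule.mem_top
        exact this
  have ht0 : t ≠ 0 := fun h => htp none (by simp [p, h])
  have hkey : ∀ v : Place K F, v.ord s = -E1 v ∨ v.ord t = -E1 v := by
    intro v
    by_cases hv : v ∈ Z
    · right
      have h := htp (some ⟨v, hv⟩)
      simp only [p, Option.elim, Submodule.mem_comap, Submodule.coe_subtype,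
        mem_riemannRochSpace_iff, not_forall, not_or, not_le] at h
      obtain ⟨w, -, hw⟩ := h
      have h1 := ((mem_riemannRochSpace_iff.mp ht) w).resolve_left ht0
      rw [Finsupp.sub_apply, Finsupp.single_apply] at hw
      split_ifs at hw with hvw
      · subst hvw; omega
      · omega
    · left
      simp only [hZ, Set.mem_union, Set.mem_ofPred_eq, Finset.mem_coe, Finsupp.mem_support_iff,
        not_or, not_not] at hv
      omega
  let φ : (L2 × L2) →ₗ[K] F :=
    LinearMap.coprod ((LinearMap.mulLeft K s).comp L2.subtype)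
      ((LinearMap.mulLeft K t).comp L2.subtype)
  have hrange : LinearMap.range φ ≤ riemannRochSpace (E1 + E2) := by
    rintro _ ⟨⟨a, b⟩, rfl⟩
    exact add_mem (mem_rr_mul hs a.2) (mem_rr_mul ht b.2)
  have h21 : FiniteDimensional K (riemannRochSpace (E2 - E1)) := by
    have hmem : ∀ y ∈ riemannRochSpace (E2 - E1), s * y ∈ L2 := fun y hy => by
      have := mem_rr_mul hs hy
      rwa [add_sub_cancel] at this
    exact Module.Finite.of_injective
      (((LinearMap.mulLeft K s).comp (riemannRochSpace (E2 - E1)).subtype).codRestrict L2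
        fun y => hmem y.1 y.2)
      fun a b h => Subtype.ext (mul_left_cancel₀ hs0 (congrArg Subtype.val h))
  have hker : Module.finrank K (LinearMap.ker φ) ≤ Module.finrank K (riemannRochSpace (E2 - E1)) := by
    have hy : ∀ x : LinearMap.ker φ, (x.1.1 : F) * t⁻¹ ∈ riemannRochSpace (E2 - E1) := by
      rintro ⟨⟨⟨a, ha⟩, ⟨b, hb⟩⟩, hab⟩
      have e : s * a + t * b = 0 := by simpa [φ] using hab
      rw [mem_riemannRochSpace_iff]
      intro v
      rcases eq_or_ne a 0 with rfl | ha0
      · exact Or.inl (zero_mul _)
      have hb0 : b ≠ 0 := fun h => by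
        rw [h, mul_zero, add_zero] at e
        exact mul_ne_zero hs0 ha0 e
      right
      have e2 : s * a = -1 * (t * b) := by linear_combination e
      have h3 : v.ord s + v.ord a = v.ord t + v.ord b := by
        have := congrArg v.ord e2
        rw [v.ord_mul hs0 ha0, v.ord_mul (by norm_num) (mul_ne_zero ht0 hb0),
          v.ord_mul ht0 hb0] at this
        have h1 : v.ord (-1 : F) = 0 := by
          rw [← map_one (algebraMap K F), ← map_neg]
          exact FLTAgent.RR.ord_algebraMap v _
        omega
      have h4 := ((mem_riemannRochSpace_iff.mp ha) v).resolve_left ha0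
      have h5 := ((mem_riemannRochSpace_iff.mp hb) v).resolve_left hb0
      rw [v.ord_mul ha0 (inv_ne_zero ht0), v.ord_inv, Finsupp.sub_apply]
      rcases hkey v with h | h <;> omega
    refine LinearMap.finrank_le_finrank_of_injective
      (f := ((LinearMap.mulRight K t⁻¹).comp (L2.subtype.comp
        ((LinearMap.fst K L2 L2).comp (LinearMap.ker φ).subtype))).codRestrict _ hy) ?_
    rintro ⟨⟨a, b⟩, hab⟩ ⟨⟨a', b'⟩, hab'⟩ h
    have ha : a = a' := Subtype.ext (mul_right_cancel₀ (inv_ne_zero ht0) (congrArg Subtype.val h))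
    subst ha
    have e1 : s * (a : F) + t * b = 0 := by simpa [φ] using hab
    have e2 : s * (a : F) + t * b' = 0 := by simpa [φ] using hab'
    have hb : b = b' := Subtype.ext (mul_left_cancel₀ ht0 (by linear_combination e1 - e2))
    subst hb
    rfl
  have h2 := LinearMap.finrank_range_add_finrank_ker φ
  rw [Module.finrank_prod] at h2
  rw [← Submodule.eq_of_le_of_finrank_le hrange (by omega)]
  rintro _ ⟨⟨a, b⟩, rfl⟩
  exact add_mem (Submodule.subset_span ⟨s, hs, a, a.2, rfl⟩)
    (Submodule.subset_span ⟨t, ht, b, b.2, rfl⟩)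

end FLTAgent.Flat
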