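import Fermat.Agent.Flat.Lattice
import Fermat.Agent.Flat.Product

/-!
Riemann–Roch spaces of high degree on the special fibre, and their bases.
-/

set_option autoImplicit false
set_option linter.unusedSectionVars false
set_option synthInstance.maxHeartbeats 400000

noncomputable section

open ModularCurve AlgebraicCurve IsLocalRing

namespace FLTAgent.Flat

open FLTAgent.Reduction
open FLTAgent.RR (Bd)

section General

variable (K F : Type*) [Field K] [Field F] [Algebra K F]

/-- residue fields are `K` and principal divisors have degree zero -/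
structure CurveLike : Prop where
  res : ∀ v : Place K F, RR.HasRes v
  div : ∀ f : F, f ≠ 0 → ∃ D : Divisor K F, (∀ v, D v = v.ord f) ∧ Divisor.degree D = 0
  ne : Nonempty (Place K F)

variable {K F}

theorem CurveLike.degree_single (h : CurveLike K F) (v : Place K F) (n : ℤ) :
    Divisor.degree (Finsupp.single v n) = n := by
  rw [Divisor.degree_single, (h.res v).deg_eq_one, Nat.cast_one, mul_one]

theorem CurveLike.degree_nonneg (h : CurveLike K F) {D : Divisor K F} (hD : 0 ≤ D) :
    0 ≤ Divisor.degree D := by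
  induction D using Finsupp.induction with
  | zero => simp
  | single_add v n D hv _ ih =>
    classical
    have h0 : ∀ w, 0 ≤ (Finsupp.single v n + D) w := fun w => hD w
    have hn : 0 ≤ n := by
      have := h0 v
      rwa [Finsupp.add_apply, Finsupp.single_eq_same, Finsupp.notMem_support_iff.mp hv,
        add_zero] at this
    have hD' : 0 ≤ D := fun w => by
      have := h0 w
      rw [Finsupp.add_apply] at this
      by_cases hw : w = v
      · subst hw; simp [Finsupp.notMem_support_iff.mp hv]
      · simpa [Finsupp.single_eq_of_ne hw] using this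
    rw [map_add, h.degree_single]
    have := ih hD'
    omega

theorem rr_mono {D E : Divisor K F} (hDE : D ≤ E) : riemannRochSpace D ≤ riemannRochSpace E := by
  intro f hf
  rw [mem_riemannRochSpace_iff] at hf ⊢
  exact fun v => (hf v).imp_right fun h => by have := hDE v; omega

theorem CurveLike.eq_bot (h : CurveLike K F) {D : Divisor K F} (hD : Divisor.degree D < 0) :
    riemannRochSpace D = ⊥ := by
  rw [eq_bot_iff]
  intro f hf
  rw [Submodule.mem_bot]
  by_contra hf0
  obtain ⟨E, hE, hdeg⟩ := h.div f hf0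
  have := h.degree_nonneg (D := D + E) fun v => by
    have := ((mem_riemannRochSpace_iff.mp hf) v).resolve_left hf0
    rw [Finsupp.zero_apply, Finsupp.add_apply, hE]
    omega
  rw [map_add, hdeg] at this
  omega

theorem CurveLike.exists_step (h : CurveLike K F) (D : Divisor K F) (v : Place K F) :
    ∃ u : F, riemannRochSpace (D + Finsupp.single v 1) ≤ riemannRochSpace D ⊔ K ∙ u := by
  classical
  by_cases hle : riemannRochSpace (D + Finsupp.single v 1) ≤ riemannRochSpace D
  · exact ⟨0, hle.trans le_sup_left⟩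
  obtain ⟨u, hu, hu'⟩ := SetLike.not_le_iff_exists.mp hle
  refine ⟨u, ?_⟩
  rw [RR.riemannRochSpace_eq_boundedOn, RR.riemannRochSpace_eq_boundedOn] at *
  exact (RR.boundedOn_step (h.res v) trivial (by simp) (fun w _ hw => by
    simp [Finsupp.single_eq_of_ne hw]) hu hu').le

theorem CurveLike.finite_finrank (h : CurveLike K F) (D : Divisor K F) :
    FiniteDimensional K (riemannRochSpace D) ∧
      (Module.finrank K (riemannRochSpace D) : ℤ) ≤ max 0 (Divisor.degree D + 1) := by
  suffices H : ∀ n : ℕ, ∀ D : Divisor K F, Divisor.degree D < n →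
      FiniteDimensional K (riemannRochSpace D) ∧
        (Module.finrank K (riemannRochSpace D) : ℤ) ≤ max 0 (Divisor.degree D + 1) from
    H ((Divisor.degree D).toNat + 1) D (by omega)
  intro n
  induction n with
  | zero =>
    intro D hD
    rw [h.eq_bot (by omega)]
    exact ⟨inferInstance, by simp⟩
  | succ n ih =>
    intro D hD
    rcases lt_or_ge (Divisor.degree D) 0 with hneg | hpos
    · rw [h.eq_bot hneg]
      exact ⟨inferInstance, by simp⟩
    obtain ⟨v⟩ := h.ne
    obtain ⟨u, hu⟩ := h.exists_step (D - Finsupp.single v 1) v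
    rw [sub_add_cancel] at hu
    have hdeg : Divisor.degree (D - Finsupp.single v 1) = Divisor.degree D - 1 := by
      rw [map_sub, h.degree_single]
    obtain ⟨hfd, hle⟩ := ih (D - Finsupp.single v 1) (by omega)
    refine ⟨Submodule.finiteDimensional_of_le hu, ?_⟩
    have h1 := Submodule.finrank_mono hu
    have h2 := Submodule.finrank_add_le_finrank_add_finrank
      (riemannRochSpace (D - Finsupp.single v 1)) (K ∙ u)
    have h3 : Module.finrank K (K ∙ u) ≤ 1 := by
      simpa using finrank_span_le_card (R := K) ({u} : Set F)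
    omega

theorem CurveLike.finrank_add_single (h : CurveLike K F) (D : Divisor K F) (v : Place K F) :
    Module.finrank K (riemannRochSpace (D + Finsupp.single v 1)) ≤
      Module.finrank K (riemannRochSpace D) + 1 := by
  obtain ⟨u, hu⟩ := h.exists_step D v
  have := (h.finite_finrank D).1
  have h1 := Submodule.finrank_mono hu
  have h2 := Submodule.finrank_add_le_finrank_add_finrank (riemannRochSpace D) (K ∙ u)
  have h3 : Module.finrank K (K ∙ u) ≤ 1 := by
    simpa using finrank_span_le_card (R := K) ({u} : Set F)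
  omega

theorem CurveLike.finrank_le_add_degree (h : CurveLike K F) {D E : Divisor K F} (hDE : D ≤ E) :
    (Module.finrank K (riemannRochSpace E) : ℤ) ≤
      Module.finrank K (riemannRochSpace D) + Divisor.degree (E - D) := by
  classical
  suffices H : ∀ n : ℕ, ∀ D E : Divisor K F, D ≤ E → Divisor.degree (E - D) ≤ n →
      (Module.finrank K (riemannRochSpace E) : ℤ) ≤
        Module.finrank K (riemannRochSpace D) + Divisor.degree (E - D) from
    H _ D E hDE (Int.self_le_toNat _)
  intro n
  induction n with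
  | zero =>
    intro D E hDE hn
    by_cases he : E = D
    · subst he; simp
    exfalso
    obtain ⟨v, hv⟩ := Finsupp.support_nonempty_iff.mpr (sub_ne_zero.mpr he)
    rw [Finsupp.mem_support_iff] at hv
    have hv1 : D v + 1 ≤ E v := by
      have := hDE v
      rw [Finsupp.sub_apply] at hv
      omega
    have h0 : (0 : Divisor K F) ≤ E - D - Finsupp.single v 1 := fun w => by
      have := hDE w
      rw [Finsupp.sub_apply, Finsupp.sub_apply, Finsupp.single_apply]
      split_ifs with hw
      · subst hw; simp; omega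
      · simp; omega
    have := h.degree_nonneg h0
    rw [map_sub, h.degree_single] at this
    omega
  | succ n ih =>
    intro D E hDE hn
    by_cases he : E = D
    · subst he; simp
    obtain ⟨v, hv⟩ := Finsupp.support_nonempty_iff.mpr (sub_ne_zero.mpr he)
    rw [Finsupp.mem_support_iff] at hv
    have hle : D ≤ E - Finsupp.single v 1 := fun w => by
      have := hDE w
      rw [Finsupp.sub_apply, Finsupp.single_apply]
      split_ifs with hw
      · subst hw; rw [Finsupp.sub_apply] at hv; omega
      · omega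
    have hd : Divisor.degree (E - Finsupp.single v 1 - D) = Divisor.degree (E - D) - 1 := by
      rw [map_sub, map_sub, h.degree_single, map_sub]; ring
    have h1 := ih D (E - Finsupp.single v 1) hle (by omega)
    have h2 := h.finrank_add_single (E - Finsupp.single v 1) v
    rw [sub_add_cancel] at h2
    omega

/-- a section of `E - D` bounds the dimension of `L(E)` by that of `L(D)` -/
theorem CurveLike.finrank_le_of_section (h : CurveLike K F) {D E : Divisor K F}
    (hne : riemannRochSpace (E - D) ≠ ⊥) :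
    (Module.finrank K (riemannRochSpace E) : ℤ) ≤
      Module.finrank K (riemannRochSpace D) + Divisor.degree (E - D) := by
  obtain ⟨f, hf, hf0⟩ := (riemannRochSpace (E - D)).exists_mem_ne_zero_of_ne_bot hne
  obtain ⟨X, hX, hX0⟩ := h.div f hf0
  have hDE : D ≤ E + X := fun v => by
    have := ((mem_riemannRochSpace_iff.mp hf) v).resolve_left hf0
    rw [Finsupp.sub_apply] at this
    rw [Finsupp.add_apply, hX]
    omega
  have hinv : f⁻¹ ∈ riemannRochSpace X := mem_riemannRochSpace_iff.mpr fun v => Or.inr (by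
    rw [v.ord_inv, hX])
  have := (h.finite_finrank (E + X)).1
  have h1 : Module.finrank K (riemannRochSpace E) ≤ Module.finrank K (riemannRochSpace (E + X)) :=
    LinearMap.finrank_le_finrank_of_injective
      (f := ((LinearMap.mulRight K f⁻¹).comp (riemannRochSpace E).subtype).codRestrict _
        fun x => mem_rr_mul x.2 hinv)
      fun a b e => Subtype.ext (mul_right_cancel₀ (inv_ne_zero hf0) (congrArg Subtype.val e))
  have h2 := h.finrank_le_add_degree hDE
  have e : Divisor.degree (E + X - D) = Divisor.degree (E - D) := by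
    rw [map_sub, map_add, hX0, map_sub, add_zero]
  omega

end General

variable {A : ValuationSubring Qb} {N : ℕ} [NeZero N] {ℓ : ℕ}

/-- reduction of divisors -/
abbrev rDiv (C : Ctx A N ℓ) (D : Divisor Qb (FB N)) : Divisor (kA A) (FS A N) :=
  Finsupp.mapDomain (rP C) D

/-- the pole divisor of `j` -/
def poleJ (N : ℕ) [NeZero N] : Divisor Qb (FB N) := (dv (ModFun.jBar N)⁻¹).mapRange (max 0) rfl

theorem poleJ_apply (v : PB N) : poleJ N v = max 0 (-v.ord (ModFun.jBar N)) := by
  rw [poleJ, Finsupp.mapRange_apply, dv_apply, v.ord_inv]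

theorem curveLike_B : CurveLike Qb (FB N) where
  res := RR.hasRes
  div f hf := by
    obtain ⟨D, hD⟩ := RR.exists_divisor (K := Qb) hf
    exact ⟨D, hD, RR.degree_divisor hf hD⟩
  ne := by
    have h1 := RR.sum_zeros (K := Qb) (transcendental_tB N false)
    have h2 := RR.ndeg_pos (K := Qb) (transcendental_tB N false)
    obtain ⟨v, -, -⟩ := Finset.exists_ne_zero_of_sum_ne_zero
      (s := RR.zeros (K := Qb) (tB N false)) (f := fun v => v.ord (tB N false))
      (by rw [h1]; omega)
    exact ⟨v⟩

theorem degree_poleJ : Divisor.degree (poleJ N) = dedekindPsi N := by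
  have e : poleJ N = RR.Pol (ModFun.jBar N) := Finsupp.ext fun v => by
    rw [poleJ_apply, RR.Pol_apply, max_comm]
  rw [e, ← ndeg_jBar_eq N]
  exact RR.degree_Pol (transcendental_tB N false)

theorem gal_poleJ (σ : AlgebraicClosure ℚ ≃ₐ[ℚ] AlgebraicClosure ℚ) :
    gal N σ • poleJ N = poleJ N := by
  refine Finsupp.ext fun v => ?_
  have hj : gal N σ • ModFun.jBar N = ModFun.jBar N := Subtype.ext (by
    show coeffMap (σ : Qb →+* Qb) (ModFun.jBar N : LaurentSeries Qb) = _
    rw [coe_jBar]
    show coeffMap _ (coeffMap _ jq) = coeffMap _ jq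
    rw [coeffMap_coeffMap]
    exact coeffMap_congr (RingHom.ext fun q => σ.commutes q) _)
  rw [SemilinearAut.divisor_smul_apply, poleJ_apply, poleJ_apply]
  congr 2
  have h := SemilinearAut.ord_smul (gal N σ) ((gal N σ)⁻¹ • v) (ModFun.jBar N)
  rw [smul_inv_smul, hj] at h
  exact h.symm

theorem mem_regOn_of_poleJ (m : ℕ) {y : FB N} (hy : y ∈ riemannRochSpace (m • poleJ N)) :
    y ∈ regOn Qb (tB N false) := by
  intro v hv
  rw [RR.bd_iff] at hv ⊢
  have hj : 0 ≤ v.ord (ModFun.jBar N) := by
    have h0 := tB_ne_zero N false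
    have := hv.resolve_left h0
    simp only [tB, neg_zero] at this ⊢
    exact this
  refine ((mem_riemannRochSpace_iff.mp hy) v).imp_right fun h => ?_
  rw [Finsupp.smul_apply, poleJ_apply, show max 0 (-v.ord (ModFun.jBar N)) = 0 by omega,
    smul_zero, neg_zero] at h
  omega

theorem series_mem_of_poleJ (C : Ctx A N ℓ) (m : ℕ) {y : FB N}
    (hy : y ∈ riemannRochSpace (m • poleJ N)) (h : y ∈ GR A N) (n : ℤ) :
    ((y : LaurentSeries Qb)).coeff n ∈ A :=
  series_of_regOn C (mem_regOn_of_poleJ m hy) h n

variable (C : Ctx A N ℓ)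
include C

theorem degree_rDiv (D : Divisor Qb (FB N)) : Divisor.degree (rDiv C D) = Divisor.degree D := by
  induction D using Finsupp.induction with
  | zero => simp [rDiv]
  | single_add v n D _ _ ih =>
    rw [rDiv, Finsupp.mapDomain_add, map_add, map_add, Finsupp.mapDomain_single,
      Divisor.degree_single, Divisor.degree_single, deg_rP C, ← rDiv, ih]

set_option maxHeartbeats 2000000 in
/-- the chart multiplier -/
theorem exists_BS_mul {x : FS A N} (hx : x ≠ 0) :
    ∃ u : FS A N, u ≠ 0 ∧ BS A N false u ∧ BS A N false (u * x) := by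
  classical
  set t := tS A N false
  set S := (finite_ord_S C false hx).toFinset
  have hS : ∀ Q ∈ S, ∃ c, Val Q t c := fun Q hQ =>
    val_exists_S C ((Set.Finite.mem_toFinset _).mp hQ).1
  choose! c hc using hS
  have hne : ∀ Q : PS A N, t - algebraMap (kA A) (FS A N) (c Q) ≠ 0 := fun Q =>
    ne_zero_of_transc (RR.transcendental_sub_const (transcendental_tS A N false) _)
  have hreg : ∀ Q : PS A N, t - algebraMap (kA A) (FS A N) (c Q) ∈ regOn (kA A) t := fun Q =>
    Subalgebra.sub_mem _ (self_mem_regOn t) (Subalgebra.algebraMap_mem _ _)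
  set u := ∏ Q ∈ S, (t - algebraMap (kA A) (FS A N) (c Q)) ^ (Q.ord x).natAbs
  have hu : u ≠ 0 := Finset.prod_ne_zero_iff.mpr fun Q _ => pow_ne_zero _ (hne Q)
  refine ⟨u, hu, (BS_iff C).mpr (Subalgebra.prod_mem _ fun Q _ => Subalgebra.pow_mem _ (hreg Q) _),
    (BS_iff C).mpr fun v hv => ?_⟩
  rw [RR.bd_iff_ord (mul_ne_zero hu hx), v.ord_mul hu hx,
    RR.ord_prod v _ _ fun Q _ => pow_ne_zero _ (hne Q)]
  simp only [RR.ord_pow]
  have hterm : ∀ Q ∈ S, 0 ≤ ((Q.ord x).natAbs : ℤ) * v.ord (t - algebraMap _ _ (c Q)) :=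
    fun Q _ => mul_nonneg (by positivity) (by
      have := (RR.bd_iff_ord (hne Q)).mp (hreg Q v hv)
      omega)
  have hnn := Finset.sum_nonneg hterm
  by_cases hx' : v.ord x = 0
  · omega
  · have hvS : v ∈ S := (Set.Finite.mem_toFinset _).mpr ⟨hv, hx'⟩
    have h2 := Finset.single_le_sum hterm hvS
    have h3 : 1 ≤ v.ord (t - algebraMap _ _ (c v)) := by
      refine Val.ord_pos ?_ (hne v)
      simpa using (hc v hvS).sub (Val.const (c v))
    have h4 : ((v.ord x).natAbs : ℤ) ≤
        ((v.ord x).natAbs : ℤ) * v.ord (t - algebraMap _ _ (c v)) :=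
      le_mul_of_one_le_right (by positivity) h3
    omega

theorem exists_UG_lift {x : FS A N} (hx : x ≠ 0) : ∃ y, UG A N y ∧ red A N y = x := by
  obtain ⟨u, hu, hu1, hu2⟩ := exists_BS_mul C hx
  obtain ⟨b, hb, hbr⟩ := exists_lift C hu2
  obtain ⟨b', hb', hbr'⟩ := exists_lift C hu1
  have hU : UG A N b := ⟨BT.mem_GR C hb, by rw [hbr]; exact mul_ne_zero hu hx⟩
  have hU' : UG A N b' := ⟨BT.mem_GR C hb', by rw [hbr']; exact hu⟩
  obtain ⟨hi, hir⟩ := hU'.inv C
  refine ⟨b * b'⁻¹, hU.mul C hi, ?_⟩
  rw [red_mul C hU.1 hi.1, hir, hbr, hbr', mul_comm u x, mul_assoc, mul_inv_cancel₀ hu, mul_one]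

theorem curveLike_S : CurveLike (kA A) (FS A N) where
  res := hasRes_S C
  div x hx := by
    obtain ⟨y, hy, rfl⟩ := exists_UG_lift C hx
    refine ⟨rDiv C (dv y), fun Q => ?_, ?_⟩
    · have := defect_eq_zero C hy Q
      rw [defect, sub_eq_zero] at this
      exact this
    · rw [degree_rDiv]
      exact RR.degree_divisor (hy.ne_zero C) (dv_apply y)
  ne := ⟨rP C (curveLike_B (N := N)).ne.some⟩

theorem finiteDimensional_S (E : Divisor (kA A) (FS A N)) :
    FiniteDimensional (kA A) (riemannRochSpace E) :=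
  ((curveLike_S C).finite_finrank E).1

theorem finite_ord_FS {x : FS A N} (hx : x ≠ 0) : {Q : PS A N | Q.ord x ≠ 0}.Finite := by
  obtain ⟨D, hD, -⟩ := (curveLike_S C).div x hx
  exact D.hasFiniteSupport.subset fun Q hQ => by simpa [← hD] using hQ

theorem rDiv_mono {D E : Divisor Qb (FB N)} (h : D ≤ E) : rDiv C D ≤ rDiv C E := by
  classical
  intro Q
  rw [rDiv, rDiv, mapDomain_apply_eq_sum (rP C) D Q (D.support ∪ E.support) Finset.subset_union_left,
    mapDomain_apply_eq_sum (rP C) E Q (D.support ∪ E.support) Finset.subset_union_right]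
  exact Finset.sum_le_sum fun P _ => h P

theorem red_mem_rr (D : Divisor Qb (FB N)) {y : FB N} (hy : y ∈ riemannRochSpace D)
    (h : y ∈ GR A N) : red A N y ∈ riemannRochSpace (rDiv C D) := by
  rw [mem_riemannRochSpace_iff]
  intro Q
  by_cases h0 : red A N y = 0
  · exact Or.inl h0
  have hU : UG A N y := ⟨h, h0⟩
  have hd := defect_eq_zero C hU Q
  rw [defect, sub_eq_zero] at hd
  have h2 := rDiv_mono C (D := -D) (E := dv y) fun v => by
    have := ((mem_riemannRochSpace_iff.mp hy) v).resolve_left (hU.ne_zero C)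
    rw [Finsupp.neg_apply, dv_apply]
    exact this
  have h3 := h2 Q
  rw [rDiv, rDiv, hd, show -D = (-1 : ℤ) • D by simp, Finsupp.mapDomain_smul] at h3
  right
  simpa using h3

theorem finrank_le_red (D : Divisor Qb (FB N)) :
    Module.finrank Qb (riemannRochSpace D) ≤
      Module.finrank (kA A) (riemannRochSpace (rDiv C D)) := by
  have := ((curveLike_B (N := N)).finite_finrank D).1
  have := finiteDimensional_S C (rDiv C D)
  obtain ⟨L⟩ := exists_latBasis C (riemannRochSpace D)
  let f : Fin (Module.finrank Qb (riemannRochSpace D)) → riemannRochSpace (rDiv C D) :=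
    fun i => ⟨red A N (L.b i), red_mem_rr C D (L.mem i) (L.int i)⟩
  have hf : LinearIndependent (kA A) f :=
    LinearIndependent.of_comp (riemannRochSpace (rDiv C D)).subtype L.indep
  simpa using hf.fintype_card_le_finrank

omit C in
theorem ell_ge (D : Divisor Qb (FB N)) :
    Divisor.degree D + 1 - genusFF Qb (FB N) ≤ Module.finrank Qb (riemannRochSpace D) := by
  have hx := transcendental_tB N false
  rw [RR.genusFF_eq hx, ← RR.rr hx D]
  show (RR.ell D : ℤ) - _ ≤ (RR.ell D : ℤ)
  omega

omit C in
theorem ell_eq_of_large (D : Divisor Qb (FB N))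
    (hD : 2 * (genusFF Qb (FB N) : ℤ) - 2 < Divisor.degree D) :
    (Module.finrank Qb (riemannRochSpace D) : ℤ) = Divisor.degree D + 1 - genusFF Qb (FB N) := by
  have hx := transcendental_tB N false
  rw [RR.genusFF_eq hx] at hD ⊢
  rw [← RR.rr hx D]
  have h0 : riemannRochSpace (RR.Kd hx - D) = ⊥ := curveLike_B.eq_bot (by
    rw [map_sub, RR.degree_Kd]; omega)
  show (RR.ell D : ℤ) = (RR.ell D : ℤ) - (RR.ell (RR.Kd hx - D) : ℤ)
  rw [RR.ell, RR.ell, h0, finrank_bot]
  simp

/-- the pole divisor of `j̄` -/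
theorem rDiv_poleJ_apply (Q : PS A N) :
    rDiv C (poleJ N) Q = max 0 (-Q.ord (tS A N false)) := by
  classical
  have hd := defect_tB C false Q
  rw [defect, red_tB C, sub_eq_zero] at hd
  set S := (dv (tB N false)).support ∪ (poleJ N).support
  rw [mapDomain_apply_eq_sum (rP C) _ Q S Finset.subset_union_left] at hd
  rw [rDiv, mapDomain_apply_eq_sum (rP C) _ Q S Finset.subset_union_right, ← hd]
  have htB : tB N false = ModFun.jBar N := rfl
  simp only [dv_apply, poleJ_apply, htB]
  by_cases hQ : Bd Q (tS A N false) 0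
  · have h1 : ∀ P ∈ S.filter (fun P => rP C P = Q), 0 ≤ P.ord (ModFun.jBar N) := fun P hP => by
      obtain ⟨d, -, hd'⟩ := (fin_rP_iff C).mp ((Finset.mem_filter.mp hP).2 ▸ hQ :
        Bd (rP C P) (tS A N false) 0)
      have := (RR.bd_iff_ord (tB_ne_zero N false)).mp hd'.bd
      rw [htB] at this
      omega
    have h2 := Finset.sum_nonneg h1
    rw [Finset.sum_eq_zero fun P hP => by have := h1 P hP; omega]
    omega
  · have h1 : ∀ P ∈ S.filter (fun P => rP C P = Q), P.ord (ModFun.jBar N) ≤ 0 := fun P hP => by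
      by_contra hlt
      have h0 : Val P (tB N false) 0 := val_zero_of_ord_pos (by rw [htB]; omega)
      exact hQ ((Finset.mem_filter.mp hP).2 ▸ (fin_rP_iff C).mpr ⟨0, A.zero_mem, h0⟩)
    have h2 := Finset.sum_nonpos h1
    rw [← Finset.sum_congr rfl fun P hP =>
      show -P.ord (ModFun.jBar N) = max 0 (-P.ord (ModFun.jBar N)) by have := h1 P hP; omega,
      Finset.sum_neg_distrib]
    omega

set_option maxHeartbeats 2000000 in
theorem mem_rr_pole_iff (n : ℕ) {x : FS A N} :
    x ∈ riemannRochSpace (n • rDiv C (poleJ N)) ↔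
      x ∈ regOn (kA A) (tS A N false) ∧
        tS A N true ^ n * x ∈ regOn (kA A) (tS A N true) := by
  have hne := tS_ne_zero A N false
  have hne' := tS_ne_zero A N true
  have ht : ∀ Q : PS A N, Q.ord (tS A N true) = -Q.ord (tS A N false) := fun Q => by
    rw [show true = !false from rfl, tS_not, Q.ord_inv]
  rw [mem_riemannRochSpace_iff]
  simp only [Finsupp.smul_apply, rDiv_poleJ_apply, nsmul_eq_mul]
  constructor
  · intro h
    refine ⟨fun Q hQ => RR.bd_iff.mpr ((h Q).imp_right fun h' => ?_), fun Q hQ => ?_⟩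
    · rw [RR.bd_iff_ord hne] at hQ
      rw [show max 0 (-Q.ord (tS A N false)) = 0 by omega, mul_zero] at h'
      omega
    · rcases h Q with rfl | h'
      · rw [mul_zero]; exact RR.Bd.zero
      · rcases eq_or_ne x 0 with rfl | hx
        · rw [mul_zero]; exact RR.Bd.zero
        rw [RR.bd_iff_ord hne', ht] at hQ
        rw [RR.bd_iff_ord (mul_ne_zero (pow_ne_zero _ hne') hx), Q.ord_mul (pow_ne_zero _ hne') hx,
          RR.ord_pow, ht]
        rw [show max 0 (-Q.ord (tS A N false)) = -Q.ord (tS A N false) ⊔ 0 from max_comm _ _] at h'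
        have : (n : ℤ) * (-Q.ord (tS A N false) ⊔ 0) =
            -((n : ℤ) * Q.ord (tS A N false)) ⊔ 0 := by
          rcases le_total 0 (-Q.ord (tS A N false)) with h1 | h1
          · rw [max_eq_left h1, max_eq_left (by nlinarith)]; ring
          · rw [max_eq_right h1, max_eq_right (by nlinarith)]; ring
        rw [this] at h'
        have h2 : 0 ≤ -((n : ℤ) * Q.ord (tS A N false)) := by nlinarith
        simp only [mul_neg]
        omega
  · rintro ⟨h1, h2⟩ Q
    rcases eq_or_ne x 0 with rfl | hx
    · exact Or.inl rfl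
    right
    by_cases hQ : Bd Q (tS A N false) 0
    · have := (RR.bd_iff_ord hx).mp (h1 Q hQ)
      rw [RR.bd_iff_ord hne] at hQ
      rw [show max 0 (-Q.ord (tS A N false)) = 0 by omega, mul_zero]
      omega
    · have hq := (RR.not_bd_iff.mp hQ).2
      have h3 := h2 Q (by rw [RR.bd_iff_ord hne', ht]; omega)
      rw [RR.bd_iff_ord (mul_ne_zero (pow_ne_zero _ hne') hx), Q.ord_mul (pow_ne_zero _ hne') hx,
        RR.ord_pow, ht, mul_neg] at h3
      rw [show max 0 (-Q.ord (tS A N false)) = -Q.ord (tS A N false) by omega, mul_neg]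
      omega

omit C in
/-- membership from the two charts -/
theorem mem_rr_of_charts {b : FB N} (a : ℕ) (h1 : b ∈ regOn Qb (tB N false))
    (h2 : tB N true ^ a * b ∈ regOn Qb (tB N true)) :
    b ∈ riemannRochSpace (a • poleJ N) := by
  rw [mem_riemannRochSpace_iff]
  intro v
  rcases eq_or_ne b 0 with rfl | hb
  · exact Or.inl rfl
  right
  have hne := tB_ne_zero N false
  have hne' := tB_ne_zero N true
  have ht : v.ord (tB N true) = -v.ord (tB N false) := by
    rw [show true = !false from rfl, tB_not, v.ord_inv]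
  rw [Finsupp.smul_apply, poleJ_apply, nsmul_eq_mul, show ModFun.jBar N = tB N false from rfl]
  by_cases hQ : Bd v (tB N false) 0
  · have := (RR.bd_iff_ord hb).mp (h1 v hQ)
    rw [RR.bd_iff_ord hne] at hQ
    rw [show max 0 (-v.ord (tB N false)) = 0 by omega, mul_zero]
    omega
  · have hq := (RR.not_bd_iff.mp hQ).2
    have h3 := h2 v (by rw [RR.bd_iff_ord hne', ht]; omega)
    rw [RR.bd_iff_ord (mul_ne_zero (pow_ne_zero _ hne') hb), v.ord_mul (pow_ne_zero _ hne') hb,
      RR.ord_pow, ht, mul_neg] at h3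
    rw [show max 0 (-v.ord (tB N false)) = -v.ord (tB N false) by omega, mul_neg]
    omega

omit C in
theorem tB_mem_poleJ : tB N false ∈ riemannRochSpace (poleJ N) := by
  rw [mem_riemannRochSpace_iff]
  intro v
  right
  rw [poleJ_apply, show ModFun.jBar N = tB N false from rfl]
  omega

omit C in
theorem mem_pow_mul {a : ℕ} {b : FB N} (hb : b ∈ riemannRochSpace (a • poleJ N)) :
    ∀ d : ℕ, tB N false ^ d * b ∈ riemannRochSpace ((a + d) • poleJ N)
  | 0 => by simpa using hb
  | d + 1 => by
    rw [pow_succ', mul_assoc]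
    have := mem_rr_mul tB_mem_poleJ (mem_pow_mul hb d)
    rwa [← succ_nsmul', add_assoc] at this

/-- reductions of integral elements of `L(m Π)` -/
def redSpan (A : ValuationSubring Qb) (N : ℕ) [NeZero N] (m : ℕ) :
    Submodule (kA A) (FS A N) :=
  Submodule.span (kA A) {x | ∃ y ∈ riemannRochSpace (m • poleJ N), y ∈ GR A N ∧ red A N y = x}

theorem finrank_redSpan (m : ℕ) : FiniteDimensional (kA A) (redSpan A N m) ∧
    Module.finrank (kA A) (redSpan A N m) ≤
      Module.finrank Qb (riemannRochSpace (m • poleJ N)) := by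
  classical
  have := ((curveLike_B (N := N)).finite_finrank (m • poleJ N)).1
  obtain ⟨L⟩ := exists_latBasis C (riemannRochSpace (m • poleJ N))
  have hle : redSpan A N m ≤ Submodule.span (kA A) (Set.range fun i => red A N (L.b i)) := by
    refine Submodule.span_le.mpr ?_
    rintro _ ⟨y, hy, hyG, rfl⟩
    obtain ⟨x, hx⟩ := Submodule.mem_span_range_iff_exists_fun Qb |>.mp (L.span hy)
    have hxA := L.coord_mem C x (by rw [hx]; exact hyG)
    rw [← hx, show ∑ i, x i • L.b i = ∑ i, ((⟨x i, hxA i⟩ : A) : Qb) • L.b i from rfl,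
      L.red_sum C]
    exact Submodule.sum_mem _ fun i _ => Submodule.smul_mem _ _ (Submodule.subset_span ⟨i, rfl⟩)
  have : FiniteDimensional (kA A)
      (Submodule.span (kA A) (Set.range fun i => red A N (L.b i))) :=
    FiniteDimensional.span_of_finite _ (Set.finite_range _)
  exact ⟨Submodule.finiteDimensional_of_le hle, (Submodule.finrank_mono hle).trans
    ((finrank_range_le_card _).trans (le_of_eq (Fintype.card_fin _)))⟩

set_option maxHeartbeats 2000000 in
/-- every section lifts after multiplication by small or large powers of `j̄` -/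
theorem exists_lifts (n : ℕ) {x : FS A N} (hx : x ∈ riemannRochSpace (n • rDiv C (poleJ N))) :
    ∃ e, ∀ a m : ℕ, a ≤ m → 2 * e ≤ m →
      tS A N false ^ a * x ∈ redSpan A N (n + m) := by
  obtain ⟨h1, h2⟩ := (mem_rr_pole_iff C n).mp hx
  obtain ⟨b, hb, hbr⟩ := exists_lift C ((BS_iff C).mpr h1)
  obtain ⟨a0, ha0⟩ := exists_pow_mul_BT C (s := true) (b := b) hb
  have hbL := mem_rr_of_charts a0 hb.mem_regOn ha0.mem_regOn
  obtain ⟨b', hb', hbr'⟩ := exists_lift C ((BS_iff C).mpr h2)
  obtain ⟨e', he'⟩ := exists_pow_mul_BT C (s := false) (b := b') hb'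
  refine ⟨a0 + e', fun a m ham hem => ?_⟩
  by_cases hea : e' ≤ a
  · refine Submodule.subset_span ⟨tB N false ^ (n + a) * b', ?_, ?_, ?_⟩
    · have hreg : tB N false ^ (n + a) * b' ∈ regOn Qb (tB N false) := by
        rw [show n + a = (n + a - e') + e' by omega, pow_add, mul_assoc]
        exact Subalgebra.mul_mem _ (Subalgebra.pow_mem _ (self_mem_regOn _) _) he'.mem_regOn
      refine rr_mono (nsmul_le_nsmul_left (fun v => by rw [poleJ_apply]; exact le_max_left _ _)
        (show n + a ≤ n + m by omega)) (mem_rr_of_charts (n + a) hreg ?_)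
      rw [← mul_assoc, ← mul_pow, show true = !false from rfl, tB_not,
        inv_mul_cancel₀ (tB_ne_zero N false), one_pow, one_mul]
      exact hb'.mem_regOn
    · exact mul_mem (pow_mem (tB_mem _) _) (BT.mem_GR C hb')
    · rw [red_mul C (pow_mem (tB_mem _) _) (BT.mem_GR C hb'), red_pow C (tB_mem _), red_tB C, hbr',
        pow_add, show tS A N true = (tS A N false)⁻¹ from tS_not A N false, inv_pow]
      have := pow_ne_zero n (tS_ne_zero A N false)
      field_simp
  · refine Submodule.subset_span ⟨tB N false ^ a * b, ?_, ?_, ?_⟩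
    · exact rr_mono (nsmul_le_nsmul_left (fun v => by rw [poleJ_apply]; exact le_max_left _ _)
        (show a0 + a ≤ n + m by omega)) (mem_pow_mul hbL a)
    · exact mul_mem (pow_mem (tB_mem _) _) (BT.mem_GR C hb)
    · rw [red_mul C (pow_mem (tB_mem _) _) (BT.mem_GR C hb), red_pow C (tB_mem _), red_tB C, hbr]

set_option maxHeartbeats 2000000 in
/-- the dimensions of `L(nΠ̄)` for large `n` -/
theorem exists_pole_dim : ∃ n2 : ℕ, ∀ n, n2 ≤ n →
    (Module.finrank (kA A) (riemannRochSpace (n • rDiv C (poleJ N))) : ℤ) ≤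
      n * dedekindPsi N + 1 - genusFF Qb (FB N) := by
  classical
  set P := rDiv C (poleJ N) with hP
  set ψ : ℤ := (dedekindPsi N : ℤ)
  set g : ℤ := (genusFF Qb (FB N) : ℤ)
  set h : ℕ → ℤ := fun n => Module.finrank (kA A) (riemannRochSpace (n • P))
  have hP0 : 0 ≤ P := fun Q => by rw [hP, rDiv_poleJ_apply]; exact le_max_left _ _
  have hdegP : Divisor.degree P = ψ := by rw [hP, degree_rDiv, degree_poleJ]
  have hstep : ∀ n, h (n + 1) ≤ h n + ψ := fun n => by
    have := (curveLike_S C).finrank_le_add_degree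
      (show n • P ≤ (n + 1) • P from nsmul_le_nsmul_left hP0 (Nat.le_succ n))
    rwa [succ_nsmul, add_sub_cancel_left, hdegP, ← succ_nsmul] at this
  have hsmul : ∀ n : ℕ, rDiv C (n • poleJ N) = n • P := fun n => by
    rw [hP, rDiv, rDiv, Finsupp.mapDomain_smul]
  have hlow : ∀ n : ℕ, n * ψ + 1 - g ≤ h n := fun n => by
    have h1 := ell_ge (n • poleJ N)
    rw [map_nsmul, degree_poleJ, nsmul_eq_mul] at h1
    have h2 := finrank_le_red C (n • poleJ N)
    rw [hsmul] at h2
    simp only [h, ψ, g] at *
    omega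
  set δ : ℕ → ℤ := fun n => h n - (n * ψ + 1 - g) with hδ
  have hmono : ∀ m n, δ (n + m) ≤ δ n := by
    intro m
    induction m with
    | zero => intro n; simp
    | succ m ih =>
      intro n
      have := hstep (n + m)
      have := ih n
      simp only [δ, ← add_assoc] at *
      push_cast at *
      rw [add_mul _ 1, one_mul] at *
      omega
  have hex : ∃ d : ℕ, ∃ n, δ n = d := ⟨(δ 0).toNat, 0, (Int.toNat_of_nonneg (by
    have := hlow 0; simp only [δ]; omega)).symm⟩
  obtain ⟨n1, hn1⟩ := Nat.find_spec hex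
  have hconst : ∀ n, n1 ≤ n → δ n = Nat.find hex := fun n hn => by
    have h1 := hmono (n - n1) n1
    rw [Nat.add_sub_cancel' hn] at h1
    have h2 : 0 ≤ δ n := by have := hlow n; simp only [δ]; omega
    have h3 := Nat.find_min' hex ⟨n, (Int.toNat_of_nonneg h2).symm⟩
    omega
  set n2 := n1 + 1 with hn2
  have hfd : ∀ n : ℕ, FiniteDimensional (kA A) (riemannRochSpace (n • P)) := fun n =>
    finiteDimensional_S C _
  set μ : FS A N →ₗ[kA A] FS A N := LinearMap.mulLeft (kA A) (tS A N false) with hμ
  have hμi : Function.Injective μ := mul_right_injective₀ (tS_ne_zero A N false)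
  have hμmem : ∀ n : ℕ, (riemannRochSpace (n • P)).map μ ≤ riemannRochSpace ((n + 1) • P) := by
    rintro n _ ⟨x, hx, rfl⟩
    rw [succ_nsmul']
    refine mem_rr_mul ?_ hx
    rw [mem_riemannRochSpace_iff]
    intro Q
    right
    rw [hP, rDiv_poleJ_apply]
    omega
  have hgen : ∀ n, n2 ≤ n → riemannRochSpace ((n + 1) • P) =
      riemannRochSpace (n • P) ⊔ (riemannRochSpace (n • P)).map μ := by
    intro n hn
    symm
    refine Submodule.eq_of_le_of_finrank_le
      (sup_le (rr_mono (nsmul_le_nsmul_left hP0 n.le_succ)) (hμmem n)) ?_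
    have hinf : riemannRochSpace (n • P) ⊓ (riemannRochSpace (n • P)).map μ ≤
        (riemannRochSpace ((n - 1) • P)).map μ := by
      rintro _ ⟨h1, x, hx, rfl⟩
      refine ⟨x, mem_riemannRochSpace_iff.mpr fun Q => ?_, rfl⟩
      rcases eq_or_ne x 0 with rfl | hx0
      · exact Or.inl rfl
      right
      have h2 := ((mem_riemannRochSpace_iff.mp h1) Q).resolve_left
        (mul_ne_zero (tS_ne_zero A N false) hx0)
      have h3 := ((mem_riemannRochSpace_iff.mp hx) Q).resolve_left hx0
      rw [show μ x = tS A N false * x from rfl, Q.ord_mul (tS_ne_zero A N false) hx0] at h2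
      simp only [Finsupp.smul_apply, hP, rDiv_poleJ_apply, nsmul_eq_mul] at h2 h3 ⊢
      rcases le_total 0 (Q.ord (tS A N false)) with hs | hs
      · rw [show max 0 (-Q.ord (tS A N false)) = 0 by omega, mul_zero] at h2 h3 ⊢
        omega
      · rw [show max 0 (-Q.ord (tS A N false)) = -Q.ord (tS A N false) by omega] at h2 h3 ⊢
        rw [show ((n - 1 : ℕ) : ℤ) = (n : ℤ) - 1 by omega, sub_mul, one_mul]
        omega
    have h1 := Submodule.finrank_sup_add_finrank_inf_eq (riemannRochSpace (n • P))
      ((riemannRochSpace (n • P)).map μ)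
    have h2 := Submodule.finrank_mono hinf
    rw [← LinearEquiv.finrank_eq (Submodule.equivMapOfInjective μ hμi _)] at h1
    rw [← LinearEquiv.finrank_eq (Submodule.equivMapOfInjective μ hμi _)] at h2
    have e1 := hconst (n + 1) (by omega)
    have e2 := hconst n (by omega)
    have e3 := hconst (n - 1) (by omega)
    simp only [δ, h, Nat.cast_add, Nat.cast_one, add_mul, one_mul,
      show ((n - 1 : ℕ) : ℤ) = (n : ℤ) - 1 by omega, sub_mul] at e1 e2 e3
    omega
  have hspan : ∀ m, riemannRochSpace ((n2 + m) • P) ≤ Submodule.span (kA A)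
      {z | ∃ a, a ≤ m ∧ ∃ x ∈ riemannRochSpace (n2 • P), z = tS A N false ^ a * x} := by
    intro m
    induction m with
    | zero => exact fun x hx => Submodule.subset_span ⟨0, le_rfl, x, hx, by simp⟩
    | succ m ih =>
      rw [← add_assoc, hgen _ (by omega)]
      refine sup_le (ih.trans (Submodule.span_mono ?_)) ((Submodule.map_mono ih).trans ?_)
      · rintro z ⟨a, ha, x, hx, rfl⟩
        exact ⟨a, by omega, x, hx, rfl⟩
      · rw [Submodule.map_span]
        refine Submodule.span_mono ?_
        rintro _ ⟨_, ⟨a, ha, x, hx, rfl⟩, rfl⟩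
        exact ⟨a + 1, by omega, x, hx, by
          rw [hμ, LinearMap.mulLeft_apply, pow_succ', mul_assoc]⟩
  haveI := hfd n2
  set hb := Module.finBasis (kA A) (riemannRochSpace (n2 • P))
  choose e he using fun i => exists_lifts C n2 (hb i).2
  set E := Finset.univ.sup e with hE
  refine ⟨n2 + 2 * E + 2 * genusFF Qb (FB N), fun n hn => ?_⟩
  obtain ⟨m, rfl⟩ : ∃ m, n = n2 + m := ⟨n - n2, by omega⟩
  have hle : riemannRochSpace ((n2 + m) • P) ≤ redSpan A N (n2 + m) := by
    refine (hspan m).trans (Submodule.span_le.mpr ?_)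
    rintro _ ⟨a, ha, x, hx, rfl⟩
    have hsum : x = ∑ i, hb.repr ⟨x, hx⟩ i • (hb i : FS A N) := by
      have := congrArg (riemannRochSpace (n2 • P)).subtype (hb.sum_repr ⟨x, hx⟩)
      rw [map_sum] at this
      exact this.symm
    rw [hsum, Finset.mul_sum]
    refine Submodule.sum_mem _ fun i _ => ?_
    rw [mul_smul_comm]
    refine Submodule.smul_mem _ _ (he i a m ha ?_)
    have := Finset.le_sup (f := e) (Finset.mem_univ i)
    omega
  obtain ⟨hfd', hr⟩ := finrank_redSpan C (n2 + m)
  have h1 := Submodule.finrank_mono hle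
  have hψ : (1 : ℤ) ≤ ψ := by have := dedekindPsi_pos C; simp only [ψ]; omega
  have hbig : 2 * g - 2 < ((n2 + m : ℕ) : ℤ) * ψ := by
    have : ((n2 + m : ℕ) : ℤ) ≤ ((n2 + m : ℕ) : ℤ) * ψ := le_mul_of_one_le_right (by positivity) hψ
    simp only [g] at *
    omega
  have h3 := ell_eq_of_large ((n2 + m) • poleJ N) (by
    rw [map_nsmul, degree_poleJ, nsmul_eq_mul]; exact hbig)
  rw [map_nsmul, degree_poleJ, nsmul_eq_mul] at h3
  simp only [ψ, g, h] at *
  omega

set_option maxHeartbeats 2000000 in
/-- in high degree the spaces of the special fibre are the reductions of those of the generic -/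
theorem exists_highDeg : ∃ d0 : ℕ, 2 * genusFF Qb (FB N) ≤ d0 ∧
    ∀ D : Divisor Qb (FB N), (d0 : ℤ) ≤ Divisor.degree D →
      (Module.finrank Qb (riemannRochSpace D) : ℤ) = Divisor.degree D + 1 - genusFF Qb (FB N) ∧
      (Module.finrank (kA A) (riemannRochSpace (rDiv C D)) : ℤ) =
        Divisor.degree D + 1 - genusFF Qb (FB N) ∧
      (∀ Q : PS A N, riemannRochSpace (rDiv C D - Finsupp.single Q 1) ≠
        riemannRochSpace (rDiv C D)) := by
  obtain ⟨n2, hn2⟩ := exists_pole_dim C
  set g := genusFF Qb (FB N)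
  refine ⟨n2 * dedekindPsi N + 2 * g + 1, by omega, fun D hD => ?_⟩
  push_cast at hD
  have hgen := ell_eq_of_large D (by
    have : 0 ≤ (n2 : ℤ) * dedekindPsi N := by positivity
    omega)
  set P := rDiv C (poleJ N)
  have hP : Divisor.degree (n2 • P) = n2 * dedekindPsi N := by
    rw [map_nsmul, degree_rDiv, degree_poleJ, nsmul_eq_mul]
  have hn := hn2 n2 le_rfl
  have hsub : rDiv C D - n2 • P = rDiv C (D - n2 • poleJ N) := by
    rw [sub_eq_add_neg, sub_eq_add_neg, rDiv, rDiv, Finsupp.mapDomain_add]
    congr 1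
    rw [show -(n2 • poleJ N) = (-(n2 : ℤ)) • poleJ N by rw [neg_smul, natCast_zsmul],
      Finsupp.mapDomain_smul, neg_smul, natCast_zsmul]
  have hlowY : (2 * g + 1 : ℤ) + 1 - g ≤
      Module.finrank (kA A) (riemannRochSpace (rDiv C D - n2 • P)) := by
    rw [hsub]
    have h1 := ell_ge (D - n2 • poleJ N)
    rw [map_sub, map_nsmul, degree_poleJ, nsmul_eq_mul] at h1
    have h2 := finrank_le_red C (D - n2 • poleJ N)
    omega
  have hdeg : Divisor.degree (rDiv C D - n2 • P) = Divisor.degree D - n2 * dedekindPsi N := by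
    rw [map_sub, hP, degree_rDiv]
  have hup : (Module.finrank (kA A) (riemannRochSpace (rDiv C D)) : ℤ) ≤
      Divisor.degree D + 1 - g := by
    have := (curveLike_S C).finrank_le_of_section (D := n2 • P) (E := rDiv C D) (fun h => by
      rw [h, finrank_bot] at hlowY; omega)
    rw [hdeg] at this
    omega
  have hlo := finrank_le_red C D
  have heq : (Module.finrank (kA A) (riemannRochSpace (rDiv C D)) : ℤ) =
      Divisor.degree D + 1 - g := by omega
  refine ⟨hgen, heq, fun Q hQ => ?_⟩
  have h1 := (curveLike_S C).finrank_add_single (rDiv C D - n2 • P - Finsupp.single Q 1) Q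
  rw [sub_add_cancel] at h1
  have := (curveLike_S C).finrank_le_of_section (D := n2 • P)
    (E := rDiv C D - Finsupp.single Q 1) (fun h => by
      rw [sub_right_comm] at h
      rw [h, finrank_bot] at h1
      omega)
  rw [hQ, map_sub, map_sub, hP, degree_rDiv, (curveLike_S C).degree_single] at this
  omega

end FLTAgent.Flat
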