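import Fermat.Agent.Flat.Kernel
import Fermat.Agent.Flat.Residual

/-!
Integral coordinates on the spaces `L(nΠ)`, their multiplication and their reduction.
-/

set_option autoImplicit false
set_option linter.unusedSectionVars false
set_option linter.style.haveILetI false
set_option synthInstance.maxHeartbeats 400000

noncomputable section

open ModularCurve AlgebraicCurve IsLocalRing

namespace FLTAgent.Flat

open FLTAgent.Reduction

section Mulv

variable {R : Type*} [CommSemiring R] {p q r : ℕ}

/-- a row of the matrix of multiplication by `y` -/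
def mulRow (c : Fin p → Fin q → Fin r → R) (y : Fin q → R) (k : Fin r) (a : Fin p) : R :=
  ∑ b, y b * c a b k

/-- multiplication given by structure constants -/
def mulv (c : Fin p → Fin q → Fin r → R) (x : Fin p → R) (y : Fin q → R) (k : Fin r) : R :=
  ∑ a, x a * mulRow c y k a

theorem mulv_single (c : Fin p → Fin q → Fin r → R) (x : Fin p → R) (v : Fin q) (k : Fin r) :
    mulv c x (Pi.single v 1) k = ∑ a, x a * c a v k := by
  classical
  refine Finset.sum_congr rfl fun a _ => ?_
  rw [mulRow, Finset.sum_eq_single v (fun b _ hb => by simp [Pi.single_eq_of_ne hb]) (by simp),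
    Pi.single_eq_same, one_mul]

theorem mulv_map {R' : Type*} [CommSemiring R'] (f : R →+* R') (c : Fin p → Fin q → Fin r → R)
    (x : Fin p → R) (y : Fin q → R) (k : Fin r) :
    f (mulv c x y k) = mulv (fun a b k => f (c a b k)) (fun a => f (x a)) (fun b => f (y b)) k := by
  simp only [mulv, mulRow, map_sum, map_mul]

theorem mulRow_map {R' : Type*} [CommSemiring R'] (f : R →+* R') (c : Fin p → Fin q → Fin r → R)
    (y : Fin q → R) (k : Fin r) (a : Fin p) :
    f (mulRow c y k a) = mulRow (fun a b k => f (c a b k)) (fun b => f (y b)) k a := by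
  simp only [mulRow, map_sum, map_mul]

theorem mul_sum_smul {R : Type*} [CommRing R] {B : Type*} [CommRing B] [Algebra R B]
    (c : Fin p → Fin q → Fin r → R) (u : Fin p → B) (v : Fin q → B) (w : Fin r → B)
    (h : ∀ a b, u a * v b = ∑ k, c a b k • w k) (x : Fin p → R) (y : Fin q → R) :
    (∑ a, x a • u a) * (∑ b, y b • v b) = ∑ k, mulv c x y k • w k := by
  simp only [mulv, mulRow, Finset.sum_smul, Finset.mul_sum, Finset.sum_mul, smul_mul_smul_comm, h,
    Finset.smul_sum, smul_smul, mul_assoc]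
  rw [Finset.sum_comm (s := (Finset.univ : Finset (Fin q)))]
  conv_rhs => rw [Finset.sum_comm]
  refine Finset.sum_congr rfl fun a _ => ?_
  rw [Finset.sum_comm]

end Mulv

section General

variable {K F : Type*} [Field K] [Field F] [Algebra K F]

/-- some element of a spanning set has exact order -/
theorem exists_exact {E : Divisor K F} {s : Set F} (hspan : riemannRochSpace E ≤ Submodule.span K s)
    (hs : s ⊆ riemannRochSpace E) (Q : Place K F)
    (hne : riemannRochSpace (E - Finsupp.single Q 1) ≠ riemannRochSpace E) :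
    ∃ a ∈ s, a ≠ 0 ∧ Q.ord a = -E Q := by
  classical
  by_contra h
  push Not at h
  refine hne (le_antisymm (rr_mono fun v => ?_) (hspan.trans (Submodule.span_le.mpr fun a ha => ?_)))
  · rw [Finsupp.sub_apply, Finsupp.single_apply]
    split_ifs <;> omega
  · rcases eq_or_ne a 0 with rfl | ha0
    · exact zero_mem _
    rw [SetLike.mem_coe, mem_riemannRochSpace_iff]
    intro v
    right
    have h1 := ((mem_riemannRochSpace_iff.mp (hs ha)) v).resolve_left ha0
    rw [Finsupp.sub_apply, Finsupp.single_apply]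
    split_ifs with hv
    · subst hv
      have := h a ha ha0
      omega
    · omega

theorem rr_single_le (E : Divisor K F) (Q : Place K F) :
    riemannRochSpace (E - Finsupp.single Q 1) ≤ riemannRochSpace E := rr_mono fun v => by
  classical
  rw [Finsupp.sub_apply, Finsupp.single_apply]
  split_ifs <;> omega

end General

variable {A : ValuationSubring Qb} {N : ℕ} [NeZero N] {ℓ : ℕ}

/-- shortcut -/
instance (priority := high) algebraFS : Algebra (kA A) (FS A N) :=
  inferInstance

/-- shortcut -/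
instance (priority := high) moduleFS : Module (kA A) (FS A N) := inferInstance

/-- shortcut -/
instance (priority := high) smulFS : SMul (kA A) (FS A N) := inferInstance

/-- shortcut -/
instance (priority := high) mulActionFS : MulAction (kA A) (FS A N) :=
  inferInstance

instance finiteDimensional_B (D : Divisor Qb (FB N)) :
    FiniteDimensional Qb (riemannRochSpace D) := RR.finiteDimensional_riemannRochSpace D

theorem rDiv_add (C : Ctx A N ℓ) (D E : Divisor Qb (FB N)) :
    rDiv C (D + E) = rDiv C D + rDiv C E := Finsupp.mapDomain_add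

theorem rDiv_sub (C : Ctx A N ℓ) (D E : Divisor Qb (FB N)) :
    rDiv C (D - E) = rDiv C D - rDiv C E :=
  map_sub (Finsupp.mapDomain.addMonoidHom (rP C)) D E

theorem rDiv_nsmul (C : Ctx A N ℓ) (n : ℕ) (D : Divisor Qb (FB N)) :
    rDiv C (n • D) = n • rDiv C D :=
  map_nsmul (Finsupp.mapDomain.addMonoidHom (rP C)) n D

theorem gal_mem_rr (σ : AlgebraicClosure ℚ ≃ₐ[ℚ] AlgebraicClosure ℚ) {D : Divisor Qb (FB N)}
    {y : FB N} (hy : y ∈ riemannRochSpace D) : gal N σ • y ∈ riemannRochSpace (gal N σ • D) := by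
  rw [mem_riemannRochSpace_iff] at hy ⊢
  intro v
  rcases hy ((gal N σ)⁻¹ • v) with h | h
  · exact Or.inl (by rw [h, smul_zero])
  · right
    rw [SemilinearAut.divisor_smul_apply]
    have h2 := SemilinearAut.ord_smul (gal N σ) ((gal N σ)⁻¹ • v) y
    rw [smul_inv_smul] at h2
    rw [h2]
    exact h

theorem inv_mem_rr {y : FB N} : y⁻¹ ∈ riemannRochSpace (dv y) :=
  mem_riemannRochSpace_iff.mpr fun v => Or.inr (by rw [v.ord_inv, dv_apply])

theorem rr_sub_single_ne (E : Divisor Qb (FB N)) (P : PB N)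
    (hE : 2 * (genusFF Qb (FB N) : ℤ) - 1 < Divisor.degree E) :
    riemannRochSpace (E - Finsupp.single P 1) ≠ riemannRochSpace E := by
  intro h
  have h1 := ell_eq_of_large E (by omega)
  have h2 := ell_eq_of_large (E - Finsupp.single P 1)
    (by rw [map_sub, curveLike_B.degree_single]; omega)
  rw [h, h1, map_sub, curveLike_B.degree_single] at h2
  omega

/-- `d0` is a bound for high degree -/
def HighDeg (C : Ctx A N ℓ) (d0 : ℕ) : Prop :=
  2 * genusFF Qb (FB N) ≤ d0 ∧
    ∀ D : Divisor Qb (FB N), (d0 : ℤ) ≤ Divisor.degree D →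
      (Module.finrank Qb (riemannRochSpace D) : ℤ) = Divisor.degree D + 1 - genusFF Qb (FB N) ∧
      (Module.finrank (kA A) (riemannRochSpace (rDiv C D)) : ℤ) =
        Divisor.degree D + 1 - genusFF Qb (FB N) ∧
      (∀ Q : PS A N, riemannRochSpace (rDiv C D - Finsupp.single Q 1) ≠
        riemannRochSpace (rDiv C D))

/-- `dim L(nΠ)` -/
abbrev dimL (N : ℕ) [NeZero N] (n : ℕ) : ℕ :=
  Module.finrank Qb (riemannRochSpace (n • poleJ N))

variable (C : Ctx A N ℓ)
include C

theorem exists_bL (n : ℕ) : ∃ L : LatBasis A N (riemannRochSpace (n • poleJ N)) (dimL N n),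
    ∀ σ i, gal N σ • L.b i = L.b i :=
  exists_latBasis_fixed C _
    (fun σ y hy => by
      have := gal_mem_rr σ hy
      rwa [show gal N σ • (n • poleJ N) = n • poleJ N by rw [smul_comm, gal_poleJ]] at this)
    (fun y hy h m => series_mem_of_poleJ C n hy h m)

/-- the basis of `L(nΠ)` -/
def bL (n : ℕ) : LatBasis A N (riemannRochSpace (n • poleJ N)) (dimL N n) := (exists_bL C n).choose

theorem bL_fixed (n : ℕ) (σ : AlgebraicClosure ℚ ≃ₐ[ℚ] AlgebraicClosure ℚ) (i : Fin (dimL N n)) :
    gal N σ • (bL C n).b i = (bL C n).b i :=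
  (exists_bL C n).choose_spec σ i

/-- the element with given coordinates -/
def lcB (n : ℕ) : (Fin (dimL N n) → Qb) →ₗ[Qb] FB N :=
  Fintype.linearCombination Qb (bL C n).b

/-- the element of the special fibre with given coordinates -/
def lcS (n : ℕ) : (Fin (dimL N n) → kA A) →ₗ[kA A] FS A N :=
  Fintype.linearCombination (kA A) fun i => red A N ((bL C n).b i)

theorem lcB_apply (n : ℕ) (x : Fin (dimL N n) → Qb) : lcB C n x = ∑ i, x i • (bL C n).b i :=
  Fintype.linearCombination_apply Qb (bL C n).b x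

theorem lcS_apply (n : ℕ) (x : Fin (dimL N n) → kA A) :
    lcS C n x = ∑ i, x i • red A N ((bL C n).b i) :=
  Fintype.linearCombination_apply (kA A) (fun i => red A N ((bL C n).b i)) x

theorem lcB_injective (n : ℕ) : Function.Injective (lcB C n) := by
  rw [← LinearMap.ker_eq_bot, LinearMap.ker_eq_bot']
  intro x hx
  rw [lcB_apply] at hx
  exact funext (Fintype.linearIndependent_iff.mp
    (indep_of_red C _ (bL C n).int (bL C n).indep) x hx)

theorem lcS_injective (n : ℕ) : Function.Injective (lcS C n) := by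
  rw [← LinearMap.ker_eq_bot, LinearMap.ker_eq_bot']
  intro x hx
  rw [lcS_apply] at hx
  exact funext (Fintype.linearIndependent_iff.mp (bL C n).indep x hx)

theorem lcB_mem (n : ℕ) (x : Fin (dimL N n) → Qb) :
    lcB C n x ∈ riemannRochSpace (n • poleJ N) := by
  rw [lcB_apply]
  exact Submodule.sum_mem _ fun i _ => Submodule.smul_mem _ _ ((bL C n).mem i)

theorem exists_lcB {n : ℕ} {y : FB N} (hy : y ∈ riemannRochSpace (n • poleJ N)) :
    ∃ x, lcB C n x = y := by
  obtain ⟨x, hx⟩ := Submodule.mem_span_range_iff_exists_fun Qb |>.mp ((bL C n).span hy)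
  exact ⟨x, by rw [lcB_apply]; exact hx⟩

theorem lcB_int (n : ℕ) {x : Fin (dimL N n) → Qb} (h : ∀ i, x i ∈ A) :
    lcB C n x ∈ GR A N ∧ red A N (lcB C n x) = lcS C n (fun i => resA A (x i)) := by
  have := red_comb C (bL C n).b (bL C n).int (fun i => ⟨x i, h i⟩)
  rw [lcB_apply, lcS_apply]
  refine ⟨this.1, this.2.trans (Finset.sum_congr rfl fun i _ => ?_)⟩
  rw [resA_of_mem (h i)]

theorem int_of_lcB (n : ℕ) {x : Fin (dimL N n) → Qb} (h : lcB C n x ∈ GR A N) (i) : x i ∈ A := by
  rw [lcB_apply] at h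
  exact (bL C n).coord_mem C x h i

theorem lcS_mem (n : ℕ) (x : Fin (dimL N n) → kA A) :
    lcS C n x ∈ riemannRochSpace (n • rDiv C (poleJ N)) := by
  rw [lcS_apply, ← rDiv_nsmul]
  exact Submodule.sum_mem _ fun i _ =>
    Submodule.smul_mem _ _ (red_mem_rr C _ ((bL C n).mem i) ((bL C n).int i))

theorem gal_lcB (σ : AlgebraicClosure ℚ ≃ₐ[ℚ] AlgebraicClosure ℚ) (n : ℕ)
    (x : Fin (dimL N n) → Qb) : gal N σ • lcB C n x = lcB C n fun i => σ (x i) := by
  rw [lcB_apply, lcB_apply, Finset.smul_sum]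
  refine Finset.sum_congr rfl fun i _ => ?_
  rw [Algebra.smul_def, smul_mul', bL_fixed, SemilinearAut.smul_algebraMap, Algebra.smul_def]
  rfl

/-- coordinates of a subspace -/
abbrev wB (n : ℕ) (D : Divisor Qb (FB N)) : Submodule Qb (Fin (dimL N n) → Qb) :=
  (riemannRochSpace D).comap (lcB C n)

/-- coordinates of a subspace, special fibre -/
abbrev wS (n : ℕ) (E : Divisor (kA A) (FS A N)) : Submodule (kA A) (Fin (dimL N n) → kA A) :=
  (riemannRochSpace E).comap (lcS C n)

theorem finrank_wB {n : ℕ} {D : Divisor Qb (FB N)} (h : D ≤ n • poleJ N) :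
    Module.finrank Qb (wB C n D) = Module.finrank Qb (riemannRochSpace D) := by
  refine (Submodule.comap_equiv_self_of_inj_of_le (lcB_injective C n) fun y hy => ?_).finrank_eq
  obtain ⟨x, hx⟩ := exists_lcB C (rr_mono h hy)
  exact ⟨x, hx⟩

theorem range_lcS {d0 n : ℕ} (hd : HighDeg C d0) (hn : d0 ≤ n * dedekindPsi N) :
    LinearMap.range (lcS C n) = riemannRochSpace (n • rDiv C (poleJ N)) := by
  haveI := finiteDimensional_S C (n • rDiv C (poleJ N))
  refine Submodule.eq_of_le_of_finrank_le (by rintro _ ⟨x, rfl⟩; exact lcS_mem C n x) ?_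
  rw [LinearMap.finrank_range_of_inj (lcS_injective C n), Module.finrank_fin_fun]
  have hdeg : Divisor.degree (n • poleJ N) = ((n * dedekindPsi N : ℕ) : ℤ) := by
    rw [map_nsmul, degree_poleJ, nsmul_eq_mul]; push_cast; rfl
  obtain ⟨h1, h2, -⟩ := hd.2 (n • poleJ N) (by rw [hdeg]; exact_mod_cast hn)
  rw [rDiv_nsmul] at h2
  simp only [dimL] at *
  omega

theorem finrank_wS {d0 n : ℕ} (hd : HighDeg C d0) (hn : d0 ≤ n * dedekindPsi N)
    {E : Divisor (kA A) (FS A N)} (h : E ≤ n • rDiv C (poleJ N)) :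
    Module.finrank (kA A) (wS C n E) = Module.finrank (kA A) (riemannRochSpace E) :=
  (Submodule.comap_equiv_self_of_inj_of_le (lcS_injective C n)
    (by rw [range_lcS C hd hn]; exact rr_mono h)).finrank_eq

theorem res_mem_rr {n : ℕ} {D : Divisor Qb (FB N)} {x : Fin (dimL N n) → Qb}
    (hx : lcB C n x ∈ riemannRochSpace D) (h : ∀ i, x i ∈ A) :
    lcS C n (fun i => resA A (x i)) ∈ riemannRochSpace (rDiv C D) := by
  obtain ⟨h1, h2⟩ := lcB_int C n h
  rw [← h2]
  exact red_mem_rr C D hx h1

theorem res_mem_wS {n : ℕ} {D : Divisor Qb (FB N)} {x : Fin (dimL N n) → Qb} (hx : x ∈ wB C n D)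
    (h : ∀ i, x i ∈ A) : (fun i => resA A (x i)) ∈ wS C n (rDiv C D) := by
  obtain ⟨h1, h2⟩ := lcB_int C n h
  show lcS C n (fun i => resA A (x i)) ∈ riemannRochSpace (rDiv C D)
  rw [← h2]
  exact red_mem_rr C D hx h1

/-- integral coordinates with independent reductions -/
theorem exists_int_family (n : ℕ) {D : Divisor Qb (FB N)} (h : D ≤ n • poleJ N) :
    ∃ q : Fin (Module.finrank Qb (riemannRochSpace D)) → Fin (dimL N n) → Qb,
      (∀ l, q l ∈ wB C n D) ∧ (∀ l i, q l i ∈ A) ∧
        LinearIndependent (kA A) fun l i => resA A (q l i) := by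
  obtain ⟨L⟩ := exists_latBasis C (riemannRochSpace D)
  choose q hq using fun l => exists_lcB C (rr_mono h (L.mem l))
  have hA : ∀ l i, q l i ∈ A := fun l => int_of_lcB C n (by rw [hq]; exact L.int l)
  refine ⟨q, fun l => by show lcB C n (q l) ∈ riemannRochSpace D; rw [hq]; exact L.mem l, hA,
    LinearIndependent.of_comp (lcS C n) ?_⟩
  rw [show (lcS C n ∘ fun l i => resA A (q l i)) = fun l => red A N (L.b l) from funext fun l => by
    rw [← hq l]; exact (lcB_int C n (hA l)).2.symm]
  exact L.indep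

theorem exists_cst (m n : ℕ) :
    ∃ c : Fin (dimL N m) → Fin (dimL N n) → Fin (dimL N (m + n)) → A,
      (∀ a b, (bL C m).b a * (bL C n).b b = ∑ k, (c a b k : Qb) • (bL C (m + n)).b k) ∧
      ∀ a b, red A N ((bL C m).b a) * red A N ((bL C n).b b) =
        ∑ k, residue A (c a b k) • red A N ((bL C (m + n)).b k) := by
  have key : ∀ a b, ∃ c : Fin (dimL N (m + n)) → A,
      (bL C m).b a * (bL C n).b b = ∑ k, (c k : Qb) • (bL C (m + n)).b k := by
    intro a b
    have hmem : (bL C m).b a * (bL C n).b b ∈ riemannRochSpace ((m + n) • poleJ N) := by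
      rw [add_nsmul]; exact mem_rr_mul ((bL C m).mem a) ((bL C n).mem b)
    obtain ⟨x, hx⟩ := exists_lcB C hmem
    have hA := int_of_lcB C (m + n) (by rw [hx]; exact mul_mem ((bL C m).int a) ((bL C n).int b))
    exact ⟨fun k => ⟨x k, hA k⟩, by rw [← hx, lcB_apply]⟩
  choose c hc using key
  refine ⟨c, hc, fun a b => ?_⟩
  rw [← red_mul C ((bL C m).int a) ((bL C n).int b), hc, (bL C (m + n)).red_sum C]

/-- structure constants -/
def cst (m n : ℕ) : Fin (dimL N m) → Fin (dimL N n) → Fin (dimL N (m + n)) → A :=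
  (exists_cst C m n).choose

theorem lcB_mulv (m n : ℕ) (x : Fin (dimL N m) → Qb) (y : Fin (dimL N n) → Qb) :
    lcB C m x * lcB C n y = lcB C (m + n) (mulv (fun a b k => (cst C m n a b k : Qb)) x y) := by
  rw [lcB_apply, lcB_apply, lcB_apply]
  exact mul_sum_smul _ _ _ _ (exists_cst C m n).choose_spec.1 x y

theorem lcS_mulv (m n : ℕ) (x : Fin (dimL N m) → kA A) (y : Fin (dimL N n) → kA A) :
    lcS C m x * lcS C n y =
      lcS C (m + n) (mulv (fun a b k => residue A (cst C m n a b k)) x y) := by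
  rw [lcS_apply, lcS_apply, lcS_apply]
  exact mul_sum_smul _ _ _ _ (exists_cst C m n).choose_spec.2 x y

end FLTAgent.Flat
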