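import Fermat.Agent.Flat.Defs
import Fermat.Agent.Common.InertiaConj

/-!
Arithmetic at one place `A` of `ℚ̄` above `ℓ` used by the descent: roots of unity of order prime
to `ℓ`, the decomposition group, approximate idempotents.
-/

set_option autoImplicit false
set_option linter.style.haveILetI false

noncomputable section

namespace FLTAgent.Flat

variable {ℓ : ℕ} {A : ValuationSubring Qb}

lemma gal_compactSpace : CompactSpace GalQ := by
  haveI := Common.isGalois_qbar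
  infer_instance

lemma integral_mem (A : ValuationSubring Qb) {b : Qb} (hb : IsIntegral ℤ b) : b ∈ A := by
  have h : b ∈ (integralClosure (Subring.closure (∅ : Set Qb)) Qb).toSubring :=
    (IsIntegral.tower_top hb : IsIntegral (Subring.closure (∅ : Set Qb)) b)
  rw [← iInf_valuationSubring_superset, Subring.mem_iInf] at h
  exact h ⟨A, Set.empty_subset _⟩

lemma isIntegral_gal (σ : GalQ) {b : Qb} (hb : IsIntegral ℤ b) : IsIntegral ℤ (σ b) :=
  hb.map (σ.toAlgHom.restrictScalars ℤ)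

lemma val_eq_one_of_notMem_nonunits {x : Qb} (hx : x ∈ A) (hx' : x ∉ A.nonunits) :
    A.valuation x = 1 :=
  le_antisymm ((A.valuation_le_one_iff x).mpr hx)
    (not_lt.mp fun h => hx' (A.mem_nonunits_iff.mpr h))

lemma notMem_nonunits_of_val_eq_one {x : Qb} (hx : A.valuation x = 1) : x ∉ A.nonunits := by
  rw [A.mem_nonunits_iff, hx]
  exact lt_irrefl _

lemma mem_of_mul_unit {x s : Qb} (hs : A.valuation s = 1) (h : x * s ∈ A) : x ∈ A := by
  rw [← A.valuation_le_one_iff] at h ⊢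
  rwa [map_mul, hs, mul_one] at h

lemma nonunits_sub_mem {x y : Qb} (hx : x ∈ A.nonunits) (hy : y ∈ A.nonunits) :
    x - y ∈ A.nonunits := by
  rw [A.mem_nonunits_iff] at *
  exact lt_of_le_of_lt (Valuation.map_sub _ _ _) (max_lt hx hy)

lemma nonunits_mul_mem {x y : Qb} (hx : x ∈ A) (hy : y ∈ A.nonunits) : x * y ∈ A.nonunits := by
  rw [A.mem_nonunits_iff] at *
  rw [map_mul]
  exact mul_lt_one_of_nonneg_of_lt_one_right ((A.valuation_le_one_iff x).mpr hx) zero_le hy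

lemma natCast_nonunit (hA : A.LiesOverPrime ℓ) {n : ℕ} (h : ℓ ∣ n) : (n : Qb) ∈ A.nonunits := by
  obtain ⟨k, rfl⟩ := h
  rw [Nat.cast_mul, mul_comm]
  exact nonunits_mul_mem (natCast_mem A k) hA

/-- powers of an algebraic integer become idempotent modulo `n` -/
lemma exists_pow_idem {b : Qb} (hb : IsIntegral ℤ b) {n : ℕ} (hn : 0 < n) :
    ∃ k, 0 < k ∧ ∃ c : Qb, IsIntegral ℤ c ∧ b ^ (k + k) - b ^ k = n * c := by
  obtain ⟨f, hf, hfb⟩ := hb
  rw [← Polynomial.aeval_def] at hfb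
  haveI : NeZero n := ⟨hn.ne'⟩
  let F : ℕ → Fin (f.natDegree + 1) → ZMod n := fun i m =>
    (((Polynomial.X : Polynomial ℤ) ^ i %ₘ f).coeff m : ZMod n)
  obtain ⟨i, j, hij, hF⟩ := Finite.exists_ne_map_eq_of_infinite F
  wlog hlt : i < j generalizing i j
  · exact this j i hij.symm hF.symm (by omega)
  have hdvd : Polynomial.C (n : ℤ) ∣
      (Polynomial.X ^ j %ₘ f - Polynomial.X ^ i %ₘ f : Polynomial ℤ) := by
    rw [Polynomial.C_dvd_iff_dvd_coeff]
    intro m
    rw [Polynomial.coeff_sub]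
    rcases lt_or_ge m (f.natDegree + 1) with hm | hm
    · exact (ZMod.intCast_eq_intCast_iff_dvd_sub _ _ _).mp (congrFun hF ⟨m, hm⟩)
    · have hz : ∀ p : Polynomial ℤ, (p %ₘ f).coeff m = 0 := fun p => by
        apply Polynomial.coeff_eq_zero_of_natDegree_lt
        have := Polynomial.natDegree_modByMonic_le p hf
        omega
      simp [hz]
  obtain ⟨g, hg⟩ := hdvd
  have key : b ^ j - b ^ i = n * Polynomial.aeval b g := by
    have h := congrArg (Polynomial.aeval b) hg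
    rw [map_sub, map_mul, Polynomial.aeval_modByMonic_eq_self_of_root hfb,
      Polynomial.aeval_modByMonic_eq_self_of_root hfb] at h
    simpa using h
  have hbi : IsIntegral ℤ b := ⟨f, hf, by rw [← Polynomial.aeval_def]; exact hfb⟩
  have hmem : Polynomial.aeval b g ∈ integralClosure ℤ Qb := by
    have h : Polynomial.aeval b g ∈ Algebra.adjoin ℤ ({b} : Set Qb) :=
      Algebra.adjoin_singleton_eq_range_aeval ℤ b ▸ ⟨g, rfl⟩
    refine (Algebra.adjoin_le ?_ : Algebra.adjoin ℤ ({b} : Set Qb) ≤ integralClosure ℤ Qb) h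
    simpa using! hbi
  obtain ⟨p, rfl⟩ : ∃ p, j = i + p := ⟨j - i, by omega⟩
  have hp : 0 < p := by omega
  have step : ∀ q t, i ≤ t → ∃ c : Qb, IsIntegral ℤ c ∧ b ^ (t + q * p) - b ^ t = n * c := by
    intro q
    induction q with
    | zero => exact fun t _ => ⟨0, isIntegral_zero, by simp⟩
    | succ q ih =>
      intro t ht
      obtain ⟨c, hc, e⟩ := ih t ht
      refine ⟨c + b ^ (t + q * p - i) * Polynomial.aeval b g,
        hc.add ((hbi.pow _).mul hmem), ?_⟩
      obtain ⟨r, hr⟩ : ∃ r, t + q * p = r + i := ⟨t + q * p - i, by omega⟩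
      have e' : b ^ (t + (q + 1) * p) = b ^ r * b ^ (i + p) := by
        rw [← pow_add]; congr 1; rw [add_mul, one_mul]; omega
      rw [show t + q * p - i = r by omega, mul_add, ← e, e', hr, pow_add b r i,
        mul_left_comm, ← key]
      ring
  refine ⟨p * (i + 1), by positivity, ?_⟩
  obtain ⟨c, hc, e⟩ := step (i + 1) (p * (i + 1)) (by nlinarith)
  refine ⟨c, hc, ?_⟩
  rw [← e]
  congr 2
  ring

lemma exists_pow_sub_one (hℓ : ℓ.Prime) (hA : A.LiesOverPrime ℓ) {b : Qb} (hb : IsIntegral ℤ b)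
    (hb' : b ∉ A.nonunits) : ∃ k, 0 < k ∧ b ^ k - 1 ∈ A.nonunits := by
  obtain ⟨k, hk, c, hc, e⟩ := exists_pow_idem hb hℓ.pos
  refine ⟨k, hk, ?_⟩
  have h : b ^ k * (b ^ k - 1) ∈ A.nonunits := by
    rw [mul_sub, mul_one, ← pow_add, e, mul_comm]
    exact nonunits_mul_mem (integral_mem A hc) hA
  rw [A.mem_nonunits_iff, map_mul, map_pow,
    val_eq_one_of_notMem_nonunits (integral_mem A hb) hb', one_pow, one_mul] at h
  exact A.mem_nonunits_iff.mpr h

/-- the decomposition group at `A` -/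
def decoGroup (A : ValuationSubring Qb) : Subgroup GalQ where
  carrier := {σ | ∀ x, σ x ∈ A ↔ x ∈ A}
  one_mem' _ := Iff.rfl
  mul_mem' {σ τ} hσ hτ x := (hσ (τ x)).trans (hτ x)
  inv_mem' {σ} hσ x := by
    have h := hσ (σ.symm x)
    rw [σ.apply_symm_apply] at h
    exact h.symm

lemma mem_decoGroup {σ : GalQ} : σ ∈ decoGroup A ↔ ∀ x, σ x ∈ A ↔ x ∈ A := Iff.rfl

lemma deco_nonunits {σ : GalQ} (hσ : σ ∈ decoGroup A) (x : Qb) :
    σ x ∈ A.nonunits ↔ x ∈ A.nonunits := by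
  rw [A.mem_nonunits_iff_or, A.mem_nonunits_iff_or, map_eq_zero, ← map_inv₀, hσ]

lemma isOpen_setOf_apply (p : Qb → Prop) (x : Qb) : IsOpen {σ : GalQ | p (σ x)} := by
  haveI := Common.isAlgebraic_qbar
  rw [isOpen_iff_forall_mem_open]
  intro σ hσ
  refine ⟨(σ⁻¹ * ·) ⁻¹' (MulAction.stabilizer GalQ x : Set GalQ), ?_,
    (stabilizer_isOpen_of_isIntegral x).preimage (continuous_const_mul σ⁻¹), ?_⟩
  · intro τ hτ
    have h : σ.symm (τ x) = x := hτ
    have h' : τ x = σ x := by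
      conv_rhs => rw [← h]
      rw [σ.apply_symm_apply]
    show p (τ x)
    rw [h']
    exact hσ
  · simp

lemma isOpen_compl_decoGroup : IsOpen ((decoGroup A : Set GalQ)ᶜ) := by
  have : (decoGroup A : Set GalQ)ᶜ = ⋃ x : Qb, {σ : GalQ | ¬(σ x ∈ A ↔ x ∈ A)} := by
    ext σ
    simp [mem_decoGroup]
  rw [this]
  exact isOpen_iUnion fun x => isOpen_setOf_apply (fun y => ¬(y ∈ A ↔ x ∈ A)) x

variable [hℓ : Fact ℓ.Prime]

lemma mem_of_forall_nonunits (hA : A.LiesOverPrime ℓ) {σ : GalQ}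
    (h : ∀ b : Qb, IsIntegral ℤ b → b ∉ A.nonunits → σ b ∉ A.nonunits) {x : Qb} (hx : x ∈ A) :
    σ x ∈ A := by
  obtain ⟨s, hs, hsx⟩ := Common.exists_unit_denominator A hx hℓ.out hA
  have h1 : A.valuation (σ (s : Qb)) = 1 :=
    val_eq_one_of_notMem_nonunits (integral_mem A (isIntegral_gal σ s.2)) (h _ s.2 hs)
  refine mem_of_mul_unit h1 ?_
  rw [mul_comm, ← map_mul]
  exact integral_mem A (isIntegral_gal σ hsx)

lemma exists_moved_unit (hA : A.LiesOverPrime ℓ) {σ : GalQ} (hσ : σ ∉ decoGroup A) :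
    ∃ b : Qb, IsIntegral ℤ b ∧ b ∉ A.nonunits ∧ σ b ∈ A.nonunits := by
  by_contra hcon
  push Not at hcon
  apply hσ
  have hrev : ∀ b : Qb, IsIntegral ℤ b → b ∉ A.nonunits → σ.symm b ∉ A.nonunits := by
    intro b hb hb' hc
    obtain ⟨k, hk, hk'⟩ := exists_pow_sub_one hℓ.out hA hb hb'
    set c := σ.symm b with hcdef
    have hci : IsIntegral ℤ c := isIntegral_gal σ.symm hb
    have hu : c ^ k - 1 ∉ A.nonunits := by
      intro h1
      have h2 : c ^ k ∈ A.nonunits := by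
        rw [show c ^ k = c ^ (k - 1) * c by rw [← pow_succ]; congr 1; omega]
        exact nonunits_mul_mem (pow_mem (integral_mem A hci) _) hc
      have h3 := nonunits_sub_mem h2 h1
      simp [ValuationSubring.mem_nonunits_iff] at h3
    have := hcon _ ((hci.pow k).sub isIntegral_one) hu
    rw [map_sub, map_pow, map_one, hcdef, σ.apply_symm_apply] at this
    exact this hk'
  intro x
  refine ⟨fun hx => ?_, fun hx => mem_of_forall_nonunits hA hcon hx⟩
  have := mem_of_forall_nonunits hA hrev hx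
  rwa [σ.symm_apply_apply] at this

variable (A) in
/-- congruence modulo `ℓ ^ m` in `A` -/
def Near (ℓ m : ℕ) (x y : Qb) : Prop := ((ℓ : Qb) ^ m)⁻¹ * (x - y) ∈ A

omit hℓ in
lemma Near.mul_one' {m : ℕ} {x y : Qb} (hxA : x ∈ A) (hx : Near A ℓ m x 1)
    (hy : Near A ℓ m y 1) : Near A ℓ m (x * y) 1 := by
  have e : ((ℓ : Qb) ^ m)⁻¹ * (x * y - 1) =
      x * (((ℓ : Qb) ^ m)⁻¹ * (y - 1)) + ((ℓ : Qb) ^ m)⁻¹ * (x - 1) := by ring
  unfold Near
  rw [e]
  exact add_mem (mul_mem hxA hy) hx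

/-- an element fixed by `U` which is close to `1` at `A` and to `0` at the other places -/
theorem exists_idempotent (hA : A.LiesOverPrime ℓ) (U : Subgroup GalQ)
    (hU : IsOpen (U : Set GalQ)) (hD : decoGroup A ≤ U) (m : ℕ) :
    ∃ e : Qb, (∀ σ ∈ U, σ e = e) ∧ Near A ℓ m e 1 ∧ ∀ σ, σ ∉ U → Near A ℓ m (σ e) 0 := by
  classical
  haveI := Common.isAlgebraic_qbar
  haveI := gal_compactSpace
  let ι := {b : Qb // IsIntegral ℤ b ∧ b ∉ A.nonunits}
  have hcpt : IsCompact ((U : Set GalQ)ᶜ) := hU.isClosed_compl.isCompact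
  obtain ⟨t, ht⟩ := hcpt.elim_finite_subcover (fun b : ι => {σ : GalQ | σ b.1 ∈ A.nonunits})
    (fun b => isOpen_setOf_apply (fun y => y ∈ A.nonunits) b.1) (fun σ hσ => by
      obtain ⟨b, h1, h2, h3⟩ := exists_moved_unit hA (fun h => hσ (hD h))
      exact Set.mem_iUnion.mpr ⟨⟨b, h1, h2⟩, h3⟩)
  set B : Qb := ∏ b ∈ t, b.1 with hBdef
  have hBi : IsIntegral ℤ B := IsIntegral.prod _ fun b _ => b.2.1
  have hB1 : A.valuation B = 1 := by
    rw [hBdef, map_prod]
    exact Finset.prod_eq_one fun b _ =>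
      val_eq_one_of_notMem_nonunits (integral_mem A b.2.1) b.2.2
  have hσB : ∀ σ : GalQ, σ ∉ U → σ B ∈ A.nonunits := by
    intro σ hσ
    obtain ⟨b, hb, hσb⟩ : ∃ b ∈ t, σ b.1 ∈ A.nonunits := by simpa using ht hσ
    rw [hBdef, map_prod, ← Finset.prod_erase_mul _ _ hb]
    exact nonunits_mul_mem (prod_mem fun c _ => integral_mem A (isIntegral_gal σ c.2.1)) hσb
  obtain ⟨k, hk, c, hc, hEc⟩ :=
    exists_pow_idem hBi (n := ℓ ^ m) (pow_pos hℓ.out.pos m)
  rw [pow_add, Nat.cast_pow] at hEc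
  set E := B ^ k with hEdef
  have hℓ0 : ((ℓ : Qb) ^ m) ≠ 0 := pow_ne_zero _ (Nat.cast_ne_zero.mpr hℓ.out.ne_zero)
  have hEi : IsIntegral ℤ E := hBi.pow k
  have hE1 : Near A ℓ m E 1 := by
    refine mem_of_mul_unit (s := E) (by rw [hEdef, map_pow, hB1, one_pow]) ?_
    rw [mul_assoc, sub_mul, one_mul, hEc, ← mul_assoc, inv_mul_cancel₀ hℓ0, one_mul]
    exact integral_mem A hc
  have hσE : ∀ σ : GalQ, σ ∉ U → Near A ℓ m (σ E) 0 := by
    intro σ hσ
    have hn : σ E ∈ A.nonunits := by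
      rw [hEdef, map_pow, show σ B ^ k = σ B ^ (k - 1) * σ B by
        rw [← pow_succ]; congr 1; omega]
      exact nonunits_mul_mem (pow_mem (integral_mem A (isIntegral_gal σ hBi)) _) (hσB σ hσ)
    have hu : A.valuation (σ E - 1) = 1 := by
      refine val_eq_one_of_notMem_nonunits
        (sub_mem (integral_mem A (isIntegral_gal σ hEi)) (one_mem A)) fun h => ?_
      have h3 := nonunits_sub_mem hn h
      simp [ValuationSubring.mem_nonunits_iff] at h3
    refine mem_of_mul_unit (s := σ E - 1) hu ?_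
    have e : σ E * σ E - σ E = (ℓ : Qb) ^ m * σ c := by
      simpa using congrArg σ hEc
    rw [sub_zero, mul_assoc, mul_sub, mul_one, e, ← mul_assoc, inv_mul_cancel₀ hℓ0, one_mul]
    exact integral_mem A (isIntegral_gal σ hc)
  let O : Finset Qb := ((minpoly ℚ E).rootSet Qb).toFinset.filter fun y => ∃ u ∈ U, u E = y
  have hmemO : ∀ y, y ∈ O ↔ ∃ u ∈ U, u E = y := by
    intro y
    refine ⟨fun h => (Finset.mem_filter.mp h).2, fun h => Finset.mem_filter.mpr ⟨?_, h⟩⟩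
    obtain ⟨u, -, rfl⟩ := h
    rw [Set.mem_toFinset, Polynomial.mem_rootSet]
    refine ⟨minpoly.ne_zero (Algebra.IsIntegral.isIntegral E), ?_⟩
    rw [Polynomial.aeval_algHom_apply, minpoly.aeval, map_zero]
  have hEO : E ∈ O := (hmemO E).mpr ⟨1, U.one_mem, rfl⟩
  have hOi : ∀ y ∈ O, IsIntegral ℤ y := fun y hy => by
    obtain ⟨u, -, rfl⟩ := (hmemO y).mp hy
    exact isIntegral_gal u hEi
  refine ⟨1 - ∏ y ∈ O, (1 - y), ?_, ?_, ?_⟩
  · intro σ hσ
    rw [map_sub, map_one, map_prod]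
    congr 1
    refine Finset.prod_nbij' (fun y => σ y) (fun y => σ.symm y) ?_ ?_ ?_ ?_ ?_
    · intro y hy
      obtain ⟨u, hu, rfl⟩ := (hmemO y).mp hy
      exact (hmemO _).mpr ⟨σ * u, U.mul_mem hσ hu, rfl⟩
    · intro y hy
      obtain ⟨u, hu, rfl⟩ := (hmemO y).mp hy
      exact (hmemO _).mpr ⟨σ⁻¹ * u, U.mul_mem (U.inv_mem hσ) hu, rfl⟩
    · intro y _; exact σ.symm_apply_apply y
    · intro y _; exact σ.apply_symm_apply y
    · intro y _; simp
  · show _ ∈ A
    rw [← Finset.mul_prod_erase _ _ hEO, sub_sub_cancel_left, mul_neg, ← mul_assoc]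
    refine neg_mem (mul_mem ?_ (prod_mem fun y hy => sub_mem (one_mem A)
      (integral_mem A (hOi y (Finset.mem_of_mem_erase hy)))))
    have h := neg_mem hE1
    rwa [← mul_neg, neg_sub] at h
  · intro σ hσ
    have key : ∀ y ∈ O, 1 - σ y ∈ A ∧ Near A ℓ m (1 - σ y) 1 := by
      intro y hy
      refine ⟨sub_mem (one_mem A) (integral_mem A (isIntegral_gal σ (hOi y hy))), ?_⟩
      obtain ⟨u, hu, rfl⟩ := (hmemO y).mp hy
      have h := hσE (σ * u) (fun h => hσ ((U.mul_mem_cancel_right hu).mp h))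
      rw [Near, sub_zero] at h
      rw [Near, sub_sub_cancel_left, mul_neg]
      exact neg_mem h
    have : (∏ y ∈ O, (1 - σ y)) ∈ A ∧ Near A ℓ m (∏ y ∈ O, (1 - σ y)) 1 :=
      Finset.prod_induction _ (fun z => z ∈ A ∧ Near A ℓ m z 1)
        (fun a b ha hb => ⟨mul_mem ha.1 hb.1, Near.mul_one' ha.1 ha.2 hb.2⟩)
        ⟨one_mem A, by simp [Near]⟩ key
    have h := neg_mem this.2
    rw [← mul_neg, neg_sub] at h
    rw [Near, map_sub, map_one, map_prod, sub_zero]
    simpa using h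

lemma mem_of_pow_eq_one {ζ : Qb} {d : ℕ} (hd : d ≠ 0) (h : ζ ^ d = 1) : A.valuation ζ = 1 := by
  have h' := congrArg A.valuation h
  rw [map_pow, map_one] at h'
  exact (pow_eq_one_iff_left hd).mp h'

/-- units of `A` are congruent to roots of unity of order prime to `ℓ` -/
theorem exists_root_congr (hA : A.LiesOverPrime ℓ) {b : Qb} (hb : IsIntegral ℤ b)
    (hb' : b ∉ A.nonunits) :
    ∃ ζ : Qb, ∃ d, ¬ ℓ ∣ d ∧ ζ ^ d = 1 ∧ b - ζ ∈ A.nonunits := by
  obtain ⟨k, hk, hk'⟩ := exists_pow_sub_one hℓ.out hA hb hb'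
  obtain ⟨e, d, hd, rfl⟩ := Nat.exists_eq_pow_mul_and_not_dvd hk.ne' ℓ hℓ.out.ne_one
  have hd0 : 0 < d := Nat.pos_of_ne_zero fun h => hd (h ▸ dvd_zero ℓ)
  haveI : CharP (IsLocalRing.ResidueField A) ℓ := (CharP.charP_iff_prime_eq_zero hℓ.out).2 (by
    rw [← map_natCast (IsLocalRing.residue A), IsLocalRing.residue_eq_zero_iff,
      ← ValuationSubring.coe_mem_nonunits_iff]
    simpa [ValuationSubring.LiesOverPrime] using hA)
  let b' : A := ⟨b, integral_mem A hb⟩
  have h1 : IsLocalRing.residue A (b' ^ d) ^ ℓ ^ e = 1 := by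
    rw [← map_pow, ← map_one (IsLocalRing.residue A), ← sub_eq_zero, ← map_sub,
      IsLocalRing.residue_eq_zero_iff, ← ValuationSubring.coe_mem_nonunits_iff, ← pow_mul,
      mul_comm]
    simpa [b'] using hk'
  have h2 : b ^ d - 1 ∈ A.nonunits := by
    have : (IsLocalRing.residue A (b' ^ d) - 1) ^ ℓ ^ e = 0 := by
      rw [sub_pow_char_pow, h1, one_pow, sub_self]
    have := pow_eq_zero_iff (pow_ne_zero e hℓ.out.ne_zero) |>.mp this
    rw [← map_one (IsLocalRing.residue A), ← map_sub, IsLocalRing.residue_eq_zero_iff,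
      ← ValuationSubring.coe_mem_nonunits_iff] at this
    simpa [b'] using this
  haveI : NeZero (d : Qb) := ⟨Nat.cast_ne_zero.mpr hd0.ne'⟩
  obtain ⟨ξ, hξ⟩ := HasEnoughRootsOfUnity.exists_primitiveRoot Qb d
  have hprod : b ^ d - 1 = ∏ z ∈ Polynomial.nthRootsFinset d (1 : Qb), (b - z) := by
    simpa [Polynomial.eval_prod] using
      congrArg (Polynomial.eval b) (Polynomial.X_pow_sub_one_eq_prod hd0 hξ)
  by_contra hcon
  push Not at hcon
  apply notMem_nonunits_of_val_eq_one ?_ h2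
  rw [hprod, map_prod]
  refine Finset.prod_eq_one fun z hz => ?_
  have hz1 : z ^ d = 1 := (Polynomial.mem_nthRootsFinset hd0 1).mp hz
  exact val_eq_one_of_notMem_nonunits (sub_mem (integral_mem A hb)
    ((A.valuation_le_one_iff z).mp (mem_of_pow_eq_one hd0.ne' hz1).le)) (hcon z d hd hz1)

/-- roots of unity of order prime to `ℓ` stay distinct modulo `A` -/
theorem root_sub_unit (hA : A.LiesOverPrime ℓ) {ζ ξ : Qb} {d : ℕ} (hd : ¬ ℓ ∣ d)
    (hζ : ζ ^ d = 1) (hξ : ξ ^ d = 1) (hne : ζ ≠ ξ) : A.valuation (ζ - ξ) = 1 := by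
  have hd0 : d ≠ 0 := fun h => hd (h ▸ dvd_zero ℓ)
  have hξ1 := mem_of_pow_eq_one (A := A) hd0 hξ
  have hξ0 : ξ ≠ 0 := fun h => by simp [h] at hξ1
  set r := ζ / ξ with hr
  have hr1 : r ^ d = 1 := by rw [hr, div_pow, hζ, hξ, div_one]
  have hrA : r ∈ A := (A.valuation_le_one_iff r).mp (mem_of_pow_eq_one hd0 hr1).le
  have hsum : (∑ i ∈ Finset.range d, r ^ i) = 0 := by
    have h := geom_sum_mul r d
    rw [hr1, sub_self] at h
    refine (mul_eq_zero.mp h).resolve_right fun h' => hne ?_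
    rw [sub_eq_zero] at h'
    exact (div_eq_one_iff_eq hξ0).mp h'
  have key : A.valuation (r - 1) = 1 := by
    refine val_eq_one_of_notMem_nonunits (sub_mem hrA (one_mem A)) fun hlt => ?_
    have h1 : ((d : A) : Qb) ∈ A.nonunits := by
      have e : (d : Qb) = - ∑ i ∈ Finset.range d, (r ^ i - 1) := by
        rw [Finset.sum_sub_distrib, hsum]; simp
      show (d : Qb) ∈ A.nonunits
      rw [e]
      have : ∀ s : Finset ℕ, ∑ i ∈ s, (r ^ i - 1) ∈ A.nonunits := fun s =>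
        Finset.sum_induction _ (· ∈ A.nonunits) (fun a b ha hb => by
          rw [A.mem_nonunits_iff] at *
          exact lt_of_le_of_lt (Valuation.map_add _ _ _) (max_lt ha hb))
          (by simp [ValuationSubring.mem_nonunits_iff]) fun i _ => by
            rw [← geom_sum_mul r i]
            exact nonunits_mul_mem (sum_mem fun j _ => pow_mem hrA j) hlt
      have h := this (Finset.range d)
      rw [A.mem_nonunits_iff] at h ⊢
      rwa [Valuation.map_neg]
    have h2 : (ℓ : Qb) ∈ A.nonunits := hA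
    obtain ⟨u, v, huv⟩ := Nat.Coprime.isCoprime ((hℓ.out.coprime_iff_not_dvd).mpr hd)
    have h3 : (u : Qb) * (ℓ : Qb) + (v : Qb) * (d : Qb) = 1 := by exact_mod_cast huv
    have h4 := nonunits_sub_mem (nonunits_mul_mem (intCast_mem A u) h2)
      (nonunits_mul_mem (intCast_mem A (-v)) h1)
    simp [h3, ValuationSubring.mem_nonunits_iff] at h4
  have e : ζ - ξ = ξ * (r - 1) := by rw [hr]; field_simp
  rw [e, map_mul, hξ1, key, one_mul]

/-- an element of the decomposition group fixing these roots of unity is in inertia -/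
theorem mem_inertia_of_fix_roots (hA : A.LiesOverPrime ℓ) {σ : GalQ} (hσ : σ ∈ decoGroup A)
    (h : ∀ (ζ : Qb) (d : ℕ), ¬ ℓ ∣ d → ζ ^ d = 1 → σ ζ = ζ) :
    σ ∈ A.inertiaSubgroupIn ℚ := by
  refine Common.mem_inertia_of_integral hℓ.out hA fun b => ?_
  by_cases hb : (b : Qb) ∈ A.nonunits
  · exact nonunits_sub_mem ((deco_nonunits hσ _).mpr hb) hb
  · obtain ⟨ζ, d, hd, hζ, hbz⟩ := exists_root_congr hA b.2 hb
    have h1 := (deco_nonunits hσ _).mpr hbz
    rw [map_sub, h ζ d hd hζ] at h1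
    have := nonunits_sub_mem h1 hbz
    rwa [sub_sub_sub_cancel_right] at this

omit hℓ in
lemma inertia_conj (hℓ' : ℓ.Prime) (hA : A.LiesOverPrime ℓ) {σ τ : GalQ}
    (hσ : σ ∈ decoGroup A) (hτ : τ ∈ A.inertiaSubgroupIn ℚ) :
    σ⁻¹ * τ * σ ∈ A.inertiaSubgroupIn ℚ := by
  refine Common.mem_inertia_of_integral hℓ' hA fun b => ?_
  refine (deco_nonunits hσ _).mp ?_
  have h : (σ⁻¹ * τ * σ) (b : Qb) = σ.symm (τ (σ b)) := rfl
  rw [h, map_sub, σ.apply_symm_apply]
  exact Common.inertia_apply_sub_mem hτ (integral_mem A (isIntegral_gal σ b.2))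

/-- an open set containing inertia contains what fixes finitely many roots of unity -/
theorem exists_finset_roots (hA : A.LiesOverPrime ℓ) {S : Set GalQ} (hS : IsOpen S)
    (hI : ∀ σ ∈ A.inertiaSubgroupIn ℚ, σ ∈ S) :
    ∃ Z : Finset Qb, (∀ z ∈ Z, ∃ d, ¬ ℓ ∣ d ∧ z ^ d = 1) ∧
      ∀ σ ∈ decoGroup A, (∀ z ∈ Z, σ z = z) → σ ∈ S := by
  classical
  haveI := gal_compactSpace
  let ι := {z : Qb // ∃ d, ¬ ℓ ∣ d ∧ z ^ d = 1}
  have hcpt : IsCompact ((decoGroup A : Set GalQ) ∩ Sᶜ) :=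
    ((isClosed_compl_iff.mpr isOpen_compl_decoGroup |> fun h => by simpa using h :
      IsClosed (decoGroup A : Set GalQ)).inter hS.isClosed_compl).isCompact
  obtain ⟨t, ht⟩ := hcpt.elim_finite_subcover (fun z : ι => {σ : GalQ | σ z.1 ≠ z.1})
    (fun z => isOpen_setOf_apply (fun y => y ≠ z.1) z.1) (fun σ hσ => by
      rw [Set.mem_iUnion]
      by_contra hcon
      push Not at hcon
      refine hσ.2 (hI σ (mem_inertia_of_fix_roots hA hσ.1 fun ζ d hd hζ => ?_))
      simpa using hcon ⟨ζ, d, hd, hζ⟩)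
  refine ⟨t.image Subtype.val, fun z hz => ?_, fun σ hσ hfix => ?_⟩
  · obtain ⟨z, -, rfl⟩ := Finset.mem_image.mp hz
    exact z.2
  · by_contra hcon
    obtain ⟨z, hz, hzσ⟩ : ∃ z ∈ t, σ z.1 ≠ z.1 := by simpa using ht ⟨hσ, hcon⟩
    exact hzσ (hfix _ (Finset.mem_image_of_mem _ hz))

/-- every element becomes integral at `A` after scaling by a power of `ℓ` -/
theorem exists_scale (hA : A.LiesOverPrime ℓ) (x : Qb) : ∃ b : ℕ, (ℓ : Qb) ^ b * x ∈ A := by
  haveI := Common.isAlgebraic_qbar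
  obtain ⟨r, hr, hrx⟩ :=
    ((IsFractionRing.isAlgebraic_iff ℤ ℚ Qb).mpr
      (Algebra.IsAlgebraic.isAlgebraic x)).exists_integral_multiple
  obtain ⟨b, r', hr', e⟩ := Nat.exists_eq_pow_mul_and_not_dvd
    (Int.natAbs_ne_zero.mpr hr) ℓ hℓ.out.ne_one
  refine ⟨b, mem_of_mul_unit (s := (r' : Qb)) ?_ ?_⟩
  · refine val_eq_one_of_notMem_nonunits (natCast_mem A r') fun h1 => ?_
    obtain ⟨u, v, huv⟩ := Nat.Coprime.isCoprime ((hℓ.out.coprime_iff_not_dvd).mpr hr')
    have h3 : (u : Qb) * (ℓ : Qb) + (v : Qb) * (r' : Qb) = 1 := by exact_mod_cast huv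
    have h4 := nonunits_sub_mem (nonunits_mul_mem (intCast_mem A u) hA)
      (nonunits_mul_mem (intCast_mem A (-v)) h1)
    simp [h3, ValuationSubring.mem_nonunits_iff] at h4
  · have h1 : (r : Qb) * x ∈ A := by simpa using integral_mem A hrx
    have e' : (r.natAbs : Qb) * x = (ℓ : Qb) ^ b * x * (r' : Qb) := by
      rw [e]; push_cast; ring
    rw [← e']
    rcases Int.natAbs_eq r with h | h <;> rw [h] at h1
    · simpa using h1
    · simpa using neg_mem h1

/-- rationals integral at `A` -/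
theorem den_coprime_of_mem (hA : A.LiesOverPrime ℓ) {q : ℚ} (h : (q : Qb) ∈ A) :
    q ∈ GaloisRep.ratLocalizedAt ℓ := by
  show q.den.Coprime ℓ
  rw [Nat.coprime_comm, hℓ.out.coprime_iff_not_dvd]
  intro hdvd
  have hnum : (q.num : Qb) ∈ A.nonunits := by
    have e : (q.num : Qb) = (q : Qb) * (q.den : Qb) := by
      exact_mod_cast congrArg (fun t : ℚ => (t : Qb)) (Rat.mul_den_eq_num q).symm
    rw [e]
    exact nonunits_mul_mem h (natCast_nonunit hA hdvd)
  obtain ⟨u, v, huv⟩ : IsCoprime (q.num) (q.den : ℤ) := by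
    rw [Int.isCoprime_iff_nat_coprime]; simpa using q.reduced
  have h3 : (u : Qb) * (q.num : Qb) + (v : Qb) * (q.den : Qb) = 1 := by exact_mod_cast huv
  have h4 := nonunits_sub_mem (nonunits_mul_mem (intCast_mem A u) hnum)
    (nonunits_mul_mem (intCast_mem A (-v)) (natCast_nonunit hA hdvd))
  simp [h3, ValuationSubring.mem_nonunits_iff] at h4

omit hℓ in
lemma ratLocalized_mem (hℓ' : ℓ.Prime) (hA : A.LiesOverPrime ℓ)
    (r : GaloisRep.ratLocalizedAt ℓ) : algebraMap (GaloisRep.ratLocalizedAt ℓ) Qb r ∈ A := by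
  have hden : A.valuation ((r.1.den : ℕ) : Qb) = 1 := by
    refine val_eq_one_of_notMem_nonunits (natCast_mem A _) fun h1 => ?_
    obtain ⟨u, v, huv⟩ := Nat.Coprime.isCoprime (show r.1.den.Coprime ℓ from r.2)
    have h3 : (u : Qb) * (r.1.den : Qb) + (v : Qb) * (ℓ : Qb) = 1 := by exact_mod_cast huv
    have h4 := nonunits_sub_mem (nonunits_mul_mem (intCast_mem A u) h1)
      (nonunits_mul_mem (intCast_mem A (-v)) hA)
    simp [h3, ValuationSubring.mem_nonunits_iff] at h4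
  show ((r.1 : ℚ) : Qb) ∈ A
  refine mem_of_mul_unit hden ?_
  have e : (r.1 : Qb) * (r.1.den : Qb) = (r.1.num : Qb) := by
    exact_mod_cast congrArg (fun t : ℚ => (t : Qb)) (Rat.mul_den_eq_num r.1)
  rw [e]
  exact intCast_mem A _

end FLTAgent.Flat
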