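import Fermat.Agent.Flat.Residual
import Fermat.Agent.Attach.Cyclotomic

/-!
Points fixed by inertia above almost every point of the special fibre.
-/

set_option autoImplicit false
set_option linter.unusedSectionVars false
set_option linter.style.haveILetI false
set_option synthInstance.maxHeartbeats 400000

noncomputable section

open ModularCurve AlgebraicCurve IsLocalRing

namespace FLTAgent.Flat

open FLTAgent.Reduction
open FLTAgent.RR (Bd KK)

section Branch

open Polynomial
open FLTAgent.RR.Chart (xv Fin' A_bd mem_A_of_bd bd_poly exists_ord_eq bA Idx)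
open scoped nonZeroDivisors

variable {K F : Type*} [Field K] [Field F] [Algebra K F] [Algebra K[X] F] [IsScalarTower K K[X] F]
  [Algebra (RatFunc K) F] [IsScalarTower K[X] (RatFunc K) F]
  [FiniteDimensional (RatFunc K) F] [Algebra.IsSeparable (RatFunc K) F] [IsAlgClosed K]

/-- away from the discriminant, fibres of a separable coordinate are reduced -/
theorem exists_branch_poly : ∃ G : K[X], G ≠ 0 ∧ ∀ (v : Place K F) (c : K),
    2 ≤ v.ord (xv K F - algebraMap K F c) → G.eval c = 0 := by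
  classical
  set B := bA K F
  haveI : IsLocalization (Algebra.algebraMapSubmonoid (RR.Chart.A K F) (K[X]⁰)) F :=
    IsIntegralClosure.isLocalization K[X] (RatFunc K) F (RR.Chart.A K F)
  refine ⟨Algebra.discr K[X] B, fun h => ?_, fun v c hv => ?_⟩
  · have h1 := Algebra.discr_not_zero_of_basis (RatFunc K)
      (B.localizationLocalization (RatFunc K) (K[X]⁰) F)
    rw [Algebra.discr_localizationLocalization, h, map_zero] at h1
    exact h1 rfl
  set y : K[X] := Polynomial.X - Polynomial.C c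
  have hy : algebraMap K[X] F y = xv K F - algebraMap K F c := by
    rw [map_sub, RR.Chart.algebraMap_C]
  set yv := xv K F - algebraMap K F c with hyv
  have hy0 : yv ≠ 0 := by
    rw [← hy]
    exact fun h => Polynomial.X_sub_C_ne_zero c
      (RR.Chart.algebraMap_injective (K := K) (F := F) (h.trans (map_zero _).symm))
  have hfin : Fin' v := by
    have h1 : Bd v yv 0 := RR.bd_iff.mpr (Or.inr (by omega))
    have := h1.add (RR.Bd.of_algebraMap (v := v) c)
    rwa [hyv, sub_add_cancel] at this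
  obtain ⟨f, hf0, hfv, hfw⟩ := exists_ord_eq hfin
    (fun w => if 0 < w.ord yv then -1 else 0)
    (Set.Finite.subset (RR.Chart.finite_ord (K := K) hy0) fun w hw => by
      obtain ⟨h1, h2⟩ := hw
      refine ⟨h1, ?_⟩
      by_contra h
      simp [h] at h2) 1
  have hfb : ∀ w : Place K F, Fin' w → Bd w f (if 0 < w.ord yv then -1 else 0) := fun w hw => by
    rcases eq_or_ne w v with rfl | hne
    · rw [RR.bd_iff_ord hf0, hfv]; split_ifs <;> omega
    · exact hfw w hw hne
  have hfA : IsIntegral K[X] f := mem_A_of_bd fun w hw => (hfb w hw).mono (by split_ifs <;> omega)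
  set a : RR.Chart.A K F := ⟨f, hfA⟩
  set ψ : RR.Chart.A K F →+* Matrix (Idx K F) (Idx K F) K :=
    (Polynomial.evalRingHom c).mapMatrix.comp (Algebra.leftMulMatrix B).toRingHom
  have hψy : ∀ b, ψ (algebraMap K[X] (RR.Chart.A K F) y * b) = 0 := by
    intro b
    have : ψ (algebraMap K[X] (RR.Chart.A K F) y) = 0 := by
      ext i j
      simp [ψ, y, Matrix.algebraMap_eq_diagonal, Matrix.diagonal_apply]
      split_ifs <;> simp
    rw [map_mul, this, zero_mul]
  obtain ⟨Z, hZ⟩ : ∃ Z : Finset (Place K F), ∀ w, Fin' w → w.ord yv ≠ 0 → w ∈ Z :=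
    ⟨(RR.Chart.finite_ord (K := K) hy0).toFinset, fun w h h' =>
      (Set.Finite.mem_toFinset _).mpr ⟨h, h'⟩⟩
  set M := ∑ w ∈ Z, (w.ord yv).toNat
  obtain ⟨b0, hb0⟩ : ∃ b, a ^ M = algebraMap K[X] (RR.Chart.A K F) y * b := by
    have hb : IsIntegral K[X] ((f ^ M) / yv) := mem_A_of_bd fun w hw => by
      rw [RR.bd_div_iff hy0]
      by_cases hz : 0 < w.ord yv
      · have h1 := (hfb w hw).pow M
        rw [if_pos hz] at h1
        refine h1.mono ?_
        have h2 : (w.ord yv).toNat ≤ M :=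
          Finset.single_le_sum (f := fun w => (w.ord yv).toNat) (fun i _ => Nat.zero_le _)
            (hZ w hw (by omega))
        omega
      · have h1 := (hfb w hw).pow M
        rw [if_neg hz] at h1
        have h2 : 0 ≤ w.ord yv := by
          have := ((bd_poly hw y : Bd w (algebraMap K[X] F y) 0))
          rw [hy, RR.bd_iff_ord hy0] at this
          omega
        exact h1.mono (by simp; omega)
    refine ⟨⟨_, hb⟩, Subtype.ext ?_⟩
    show f ^ M = algebraMap K[X] F y * (f ^ M / yv)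
    rw [hy, mul_div_cancel₀ _ hy0]
  have hnil : IsNilpotent (ψ a) := ⟨M, by rw [← map_pow, hb0, hψy]⟩
  have htr : ∀ j, (Algebra.trace K[X] (RR.Chart.A K F) (a * B j)).eval c = 0 := by
    intro j
    have h1 : IsNilpotent (ψ (a * B j)) := by
      obtain ⟨n, hn⟩ := hnil
      exact ⟨n, by rw [← map_pow, mul_pow, map_mul, map_pow, hn, zero_mul]⟩
    have h2 : (ψ (a * B j)).trace = 0 := (Matrix.isNilpotent_trace_of_isNilpotent h1).eq_zero
    rw [← h2, Algebra.trace_eq_matrix_trace B]
    simp [ψ, Matrix.trace, Polynomial.eval_finsetSum]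
  set cv : Idx K F → K := fun i => (B.repr a i).eval c
  have hcv : cv ≠ 0 := by
    intro h
    have hd : ∀ i, ∃ q, B.repr a i = y * q := fun i =>
      Polynomial.dvd_iff_isRoot.mpr (congrFun h i)
    choose q hq using hd
    have e : a = algebraMap K[X] (RR.Chart.A K F) y * ∑ i, q i • B i := by
      rw [← Algebra.smul_def, Finset.smul_sum]
      conv_lhs => rw [← B.sum_repr a]
      exact Finset.sum_congr rfl fun i _ => by rw [hq, mul_smul]
    have ha : (a : F) = yv * ((∑ i, q i • B i : RR.Chart.A K F) : F) := by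
      conv_lhs => rw [e]
      rw [MulMemClass.coe_mul, ← hy]
      rfl
    have h1 := ((RR.bd_self (v := v) (f := yv)).mul (A_bd hfin (∑ i, q i • B i))).mono
      (show -v.ord yv + 0 ≤ -2 by omega)
    rw [← ha, RR.bd_iff_ord (show (a : F) ≠ 0 from hf0)] at h1
    have : v.ord (a : F) = 1 := hfv
    omega
  rw [Algebra.discr_def, ← Polynomial.coe_evalRingHom, RingHom.map_det]
  refine Matrix.exists_vecMul_eq_zero_iff.mp ⟨cv, hcv, funext fun j => ?_⟩
  rw [Pi.zero_apply, ← htr j]
  conv_rhs => rw [← B.sum_repr a]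
  rw [Finset.sum_mul, map_sum, Polynomial.eval_finsetSum]
  simp only [Matrix.vecMul, dotProduct, RingHom.mapMatrix_apply, Matrix.map_apply,
    Algebra.traceMatrix_apply, Algebra.traceForm_apply, smul_mul_assoc, map_smul, smul_eq_mul,
    Polynomial.eval_mul, Polynomial.coe_evalRingHom, cv]

end Branch

theorem inertia_res {A : ValuationSubring Qb} {σ : AlgebraicClosure ℚ ≃ₐ[ℚ] AlgebraicClosure ℚ}
    (hσ : σ ∈ A.inertiaSubgroupIn ℚ) {a : Qb} (ha : a ∈ A) :
    ∃ h : σ a ∈ A, residue A ⟨σ a, h⟩ = residue A ⟨a, ha⟩ := by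
  obtain ⟨hd, hres⟩ := Attach.inertia_smul_residue hσ
  have h2 := hres (residue A ⟨a, ha⟩)
  rw [← IsLocalRing.ResidueField.residue_smul] at h2
  exact ⟨((⟨σ, hd⟩ : A.decompositionSubgroup ℚ) • (⟨a, ha⟩ : A)).2, h2⟩

/-- residues are roots of unity with fixed lifts, or zero -/
theorem exists_fixed_residue {A : ValuationSubring Qb} {ℓ : ℕ} (hℓ : ℓ.Prime)
    (hA : A.LiesOverPrime ℓ) (x : kA A) :
    ∃ z : A, residue A z = x ∧ ∀ σ ∈ A.inertiaSubgroupIn ℚ, σ (z : Qb) = z := by
  classical
  by_cases hx0 : x = 0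
  · exact ⟨0, by rw [hx0, map_zero], fun σ _ => map_zero σ⟩
  haveI : Fact ℓ.Prime := ⟨hℓ⟩
  haveI := charP_residue A hℓ hA
  letI : Algebra (ZMod ℓ) (kA A) := ZMod.algebra _ ℓ
  obtain ⟨a, ha⟩ := residue_surjective (R := A) x
  have halg : IsAlgebraic (ZMod ℓ) x := by
    obtain ⟨f, hf0, hfx⟩ : IsAlgebraic ℤ (a : Qb) := (IsFractionRing.isAlgebraic_iff ℤ ℚ Qb).mpr
      ((AlgebraicClosure.isAlgebraic ℚ).isAlgebraic _)
    have hprim : Polynomial.aeval a f.primPart = 0 := by
      rw [f.eq_C_content_mul_primPart, map_mul, Polynomial.aeval_C, mul_eq_zero] at hfx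
      rcases hfx with h | h
      · exact absurd (by simpa using h) (mt Polynomial.content_eq_zero_iff.mp hf0)
      · apply A.subtype_injective
        rw [map_zero, ← h, Polynomial.aeval_def, Polynomial.aeval_def, Polynomial.hom_eval₂]
        congr 1
    refine ⟨f.primPart.map (Int.castRingHom (ZMod ℓ)), fun e => ?_, ?_⟩
    · have hd : Polynomial.C (ℓ : ℤ) ∣ f.primPart := by
        rw [Polynomial.C_dvd_iff_dvd_coeff]
        intro i
        have h := congrArg (fun g : Polynomial (ZMod ℓ) => g.coeff i) e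
        simpa [Polynomial.coeff_map, ZMod.intCast_zmod_eq_zero_iff_dvd] using h
      have hu := f.isPrimitive_primPart (ℓ : ℤ) hd
      rw [Int.isUnit_iff_natAbs_eq, Int.natAbs_natCast] at hu
      exact hℓ.one_lt.ne' hu
    · rw [Polynomial.aeval_def, Polynomial.eval₂_map]
      have h := congrArg (residue A) hprim
      rw [map_zero, Polynomial.aeval_def, Polynomial.hom_eval₂, ha] at h
      rw [RingHom.ext_int ((algebraMap (ZMod ℓ) (kA A)).comp (Int.castRingHom (ZMod ℓ)))
        ((residue A).comp (algebraMap ℤ A))]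
      exact h
  -- the finite field generated by `x`
  set E := IntermediateField.adjoin (ZMod ℓ) ({x} : Set (kA A))
  haveI : FiniteDimensional (ZMod ℓ) E :=
    IntermediateField.adjoin.finiteDimensional halg.isIntegral
  haveI : Finite E := Module.finite_of_finite (ZMod ℓ)
  set q := Nat.card E
  haveI := Fintype.ofFinite E
  haveI : CharP E ℓ := charP_of_injective_algebraMap (algebraMap (ZMod ℓ) E).injective ℓ
  have hq : ℓ ∣ q := by
    obtain ⟨n, -, hn⟩ := FiniteField.card E ℓ
    rw [show q = ℓ ^ (n : ℕ) by rw [← hn, Fintype.card_eq_nat_card]]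
    exact dvd_pow_self ℓ n.2.ne'
  have hq1 : 1 < q := Finite.one_lt_card
  have hxq : x ^ (q - 1) = 1 := by
    have h1 := FiniteField.pow_card_sub_one_eq_one
      (⟨x, IntermediateField.subset_adjoin _ _ rfl⟩ : E) (fun h => hx0 (congrArg Subtype.val h))
    rw [Fintype.card_eq_nat_card] at h1
    exact congrArg Subtype.val h1
  set n := q - 1
  have hn0 : 0 < n := by omega
  have hℓn : ¬ ℓ ∣ n := fun h => by
    have h1 : ℓ ∣ q - n := Nat.dvd_sub hq h
    rw [show q - n = 1 by omega] at h1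
    exact hℓ.one_lt.ne' (Nat.dvd_one.mp h1)
  obtain ⟨ζ, hζ⟩ : ∃ ζ : Qb, IsPrimitiveRoot ζ n := by
    haveI : NeZero (n : Qb) := ⟨Nat.cast_ne_zero.mpr hn0.ne'⟩
    exact HasEnoughRootsOfUnity.exists_primitiveRoot Qb n
  set ζA : A := ⟨ζ, Attach.root_mem hn0 hζ.pow_eq_one⟩
  set z := residue A ζA
  have hz : IsPrimitiveRoot z n := by
    refine IsPrimitiveRoot.mk_of_lt z hn0 ?_ fun l hl hln e => ?_
    · rw [← map_pow, show ζA ^ n = 1 from Subtype.ext (by simpa using hζ.pow_eq_one), map_one]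
    · have h1 : ζA ^ l = 1 := Attach.residue_injective_of_pow hn0 hℓ hℓn hA
        (by rw [SubmonoidClass.coe_pow, ← pow_mul, mul_comm, pow_mul]
            show (ζ ^ n) ^ l = 1
            rw [hζ.pow_eq_one, one_pow])
        (by simp) (by rw [map_pow, e, map_one])
      exact hζ.pow_ne_one_of_pos_of_lt hl.ne' hln (by simpa using congrArg Subtype.val h1)
  haveI : NeZero n := ⟨hn0.ne'⟩
  obtain ⟨i, -, hi⟩ := hz.eq_pow_of_pow_eq_one hxq
  refine ⟨ζA ^ i, by rw [map_pow]; exact hi, fun σ hσ => ?_⟩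
  obtain ⟨h1, h2⟩ := inertia_res hσ ζA.2
  have h3 : σ ζ = ζ := congrArg Subtype.val (Attach.residue_injective_of_pow hn0 hℓ hℓn hA
    (z := (⟨σ ζ, h1⟩ : A)) (w := ζA)
    (by show σ ζ ^ n = 1; rw [← map_pow, hζ.pow_eq_one, map_one]) hζ.pow_eq_one h2)
  rw [SubmonoidClass.coe_pow, map_pow]
  exact congrArg (· ^ i) h3

variable {A : ValuationSubring Qb} {N : ℕ} [NeZero N] {ℓ : ℕ}

/-- transport of values by Galois -/
theorem val_gal (σ : AlgebraicClosure ℚ ≃ₐ[ℚ] AlgebraicClosure ℚ) {P : PB N} {y : FB N} {c : Qb}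
    (h : Val P y c) : Val (gal N σ • P) (gal N σ • y) (σ c) := by
  have e : gal N σ • y - algebraMap Qb (FB N) (σ c) = gal N σ • (y - algebraMap Qb (FB N) c) := by
    rw [smul_sub, SemilinearAut.smul_algebraMap]
    rfl
  unfold Val at h ⊢
  rw [e]
  rw [RR.bd_iff] at h ⊢
  rcases h with h | h
  · exact Or.inl (by rw [h, smul_zero])
  · exact Or.inr (by rw [SemilinearAut.ord_smul]; exact h)

theorem gal_tB (σ : AlgebraicClosure ℚ ≃ₐ[ℚ] AlgebraicClosure ℚ) (s : Bool) :
    gal N σ • tB N s = tB N s := by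
  have h : gal N σ • ModFun.jBar N = ModFun.jBar N := Subtype.ext (by
    show coeffMap (σ : Qb →+* Qb) (ModFun.jBar N : LaurentSeries Qb) = _
    rw [coe_jBar]
    show coeffMap _ (coeffMap _ jq) = coeffMap _ jq
    rw [coeffMap_coeffMap]
    exact coeffMap_congr (RingHom.ext fun q => σ.commutes q) _)
  cases s
  · exact h
  · show gal N σ • (ModFun.jBar N)⁻¹ = (ModFun.jBar N)⁻¹
    rw [smul_inv'', h]

variable (C : Ctx A N ℓ)
include C

/-- inertia preserves the chart and the reductions -/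
theorem BT_gal {σ : AlgebraicClosure ℚ ≃ₐ[ℚ] AlgebraicClosure ℚ}
    (hσ : σ ∈ A.inertiaSubgroupIn ℚ) {s : Bool} {b : FB N} (hb : BT A N s b) :
    BT A N s (gal N σ • b) ∧ red A N (gal N σ • b) = red A N b := by
  constructor
  · obtain ⟨p, hp, hpb⟩ := hb
    let σA : A →+* A :=
      { toFun := fun a => ⟨σ a, (inertia_res hσ a.2).1⟩
        map_one' := Subtype.ext (map_one σ)
        map_mul' := fun x y => Subtype.ext (map_mul σ _ _)
        map_zero' := Subtype.ext (map_zero σ)
        map_add' := fun x y => Subtype.ext (map_add σ _ _) }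
    let τ : FB N →+* FB N := MulSemiringAction.toRingHom _ (FB N) (gal N σ)
    have hc : (phiA A N s).comp (Polynomial.mapRingHom σA) = τ.comp (phiA A N s) := by
      refine Polynomial.ringHom_ext (fun a => ?_) ?_
      · simp only [RingHom.comp_apply, Polynomial.coe_mapRingHom, Polynomial.map_C, phiA,
          Polynomial.coe_eval₂RingHom, Polynomial.eval₂_C]
        exact (SemilinearAut.smul_algebraMap (gal N σ) (a : Qb)).symm
      · simp only [RingHom.comp_apply, Polynomial.coe_mapRingHom, Polynomial.map_X, phiA,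
          Polynomial.coe_eval₂RingHom, Polynomial.eval₂_X]
        exact (gal_tB σ s).symm
    refine ⟨p.map (Polynomial.mapRingHom σA), hp.map _, ?_⟩
    rw [Polynomial.eval₂_map, hc]
    show Polynomial.eval₂ (τ.comp (phiA A N s)) (τ b) p = 0
    rw [← Polynomial.hom_eval₂, hpb, map_zero]
  · obtain ⟨G, -, hG, -, -⟩ := exists_series_BT C s hb
    have h1 : ∀ n, cf N n b ∈ A := fun n => by rw [cf_apply, ← hG]; exact (G.coeff n).2
    have h2 : ∀ n, cf N n (gal N σ • b) ∈ A := fun n => by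
      rw [cf_gal]; exact (inertia_res hσ (h1 n)).1
    refine Subtype.ext (HahnSeries.ext (funext fun n => ?_))
    rw [cf_red C h2, cf_red C h1, ← (inertia_res hσ (h1 n)).2]
    rfl

set_option maxHeartbeats 1000000 in
theorem rP_inertia {σ : AlgebraicClosure ℚ ≃ₐ[ℚ] AlgebraicClosure ℚ}
    (hσ : σ ∈ A.inertiaSubgroupIn ℚ) (P : PB N) : rP C (gal N σ • P) = rP C P := by
  obtain ⟨s, d, hdA, hd⟩ : ∃ s d, d ∈ A ∧ Val P (tB N s) d := by
    rcases exists_chart (A := A) P false with ⟨d, hdA, hd⟩ | ⟨d, hd1, hd, -⟩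
    · exact ⟨false, d, hdA, hd⟩
    · exact ⟨true, d, (A.valuation_le_one_iff d).mp hd1.le, hd⟩
  have hd' : Val (gal N σ • P) (tB N s) (σ d) := by
    have := val_gal σ hd
    rwa [gal_tB] at this
  have hdA' := (inertia_res hσ hdA).1
  have hQ : Bd (rP C P) (tS A N s) 0 := (fin_rP_iff C).mpr ⟨d, hdA, hd⟩
  have hQ' : Bd (rP C (gal N σ • P)) (tS A N s) 0 := (fin_rP_iff C).mpr ⟨σ d, hdA', hd'⟩
  by_contra hne
  haveI := finite_tS C s
  haveI := separable_tS C s
  obtain ⟨g, hg, hg1, hg0, hg2⟩ :=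
    exists_separate (transcendental_tS A N s) hQ hQ' (Ne.symm hne)
  obtain ⟨b, hb, hbg⟩ := exists_lift C ((BS_iff C).mpr hg)
  obtain ⟨c, hc⟩ := val_exists_B (hb.mem_regOn P hd.bd)
  obtain ⟨hcA, hv⟩ := val_rP C hb hd hdA hc
  rw [hbg] at hv
  have hz : residue A ⟨c, hcA⟩ = 0 := hv.unique (by rwa [Val, map_zero, sub_zero])
  obtain ⟨hb', hr'⟩ := BT_gal C hσ hb
  obtain ⟨hcA', hv'⟩ := val_rP C hb' hd' hdA' (val_gal σ hc)
  rw [hr', hbg] at hv'
  have := (inertia_res hσ hcA).2
  rw [hz] at this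
  rw [this] at hv'
  have := hv'.ord_pos hg0
  omega

theorem exists_value_place (b : kA A) :
    ∃ Q : PS A N, 0 < Q.ord (tS A N false - algebraMap (kA A) (FS A N) b) := by
  obtain ⟨sS, hsS, hsum⟩ := exists_zeros_S C false b
  obtain ⟨Q, hQ, -⟩ := Finset.exists_ne_zero_of_sum_ne_zero
    (s := sS) (f := fun v => v.ord (tS A N false - algebraMap (kA A) (FS A N) b))
    (by rw [hsum]; have := dedekindPsi_pos C; omega)
  exact ⟨Q, (hsS Q).mp hQ⟩

theorem infinite_PS : Infinite (PS A N) := by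
  haveI : Infinite (kA A) := IsAlgClosed.instInfinite
  choose Q hQ using exists_value_place C
  refine Infinite.of_injective Q fun b b' h => ?_
  have h1 := val_zero_of_ord_pos (hQ b)
  have h2 := val_zero_of_ord_pos (hQ b')
  rw [← h] at h2
  have h3 := h1.add (Val.const (v := Q b) b)
  have h4 := h2.add (Val.const (v := Q b) b')
  rw [sub_add_cancel, zero_add] at h3 h4
  exact h3.unique h4

set_option maxHeartbeats 1000000 in
theorem exists_bad : ∃ bad : Finset (PS A N), ∀ Q, Q ∉ bad → ∃ b : kA A,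
    ∀ Q' : PS A N, 0 < Q'.ord (tS A N false - algebraMap (kA A) (FS A N) b) →
      Q'.ord (tS A N false - algebraMap (kA A) (FS A N) b) = 1 ∧
      0 < Q.ord (tS A N false - algebraMap (kA A) (FS A N) b) := by
  classical
  obtain ⟨G, hG, hbr⟩ : ∃ G : Polynomial (kA A), G ≠ 0 ∧ ∀ (v : PS A N) (c : kA A),
      2 ≤ v.ord (tS A N false - algebraMap (kA A) (FS A N) c) → G.eval c = 0 := by
    haveI := finite_tS C false
    haveI := separable_tS C false
    refine with_sepChart (transcendental_tS A N false) ?_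
    intro _ _ _ _ _ _ hp hxv _
    obtain ⟨G, hG, h⟩ := exists_branch_poly (K := kA A) (F := FS A N)
    exact ⟨G, hG, fun v c hv => h v c (by rw [hxv]; exact hv)⟩
  choose Z hZ _ using fun b => exists_zeros_S C false b
  refine ⟨(finite_ord_FS C (tS_ne_zero A N false)).toFinset ∪ G.roots.toFinset.biUnion Z,
    fun Q hQ => ?_⟩
  simp only [Finset.mem_union, Finset.mem_biUnion, Multiset.mem_toFinset, Set.Finite.mem_toFinset,
    not_or, not_exists, not_and] at hQ
  have hbd : Bd Q (tS A N false) 0 := RR.bd_iff.mpr (Or.inr (by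
    have : Q.ord (tS A N false) = 0 := by simpa using hQ.1
    omega))
  obtain ⟨b, hb⟩ := val_exists_S C hbd
  have hb0 : 0 < Q.ord (tS A N false - algebraMap (kA A) (FS A N) b) := by
    have h1 := hb.sub (Val.const (v := Q) b)
    rw [sub_self] at h1
    have := h1.ord_pos (ne_zero_of_transc
      (RR.transcendental_sub_const (transcendental_tS A N false) b))
    omega
  have hGb : G.eval b ≠ 0 := fun h =>
    hQ.2 b (by rw [Polynomial.mem_roots hG]; exact h) ((hZ b Q).mpr hb0)
  exact ⟨b, fun Q' hQ' => ⟨by have := mt (hbr Q' b) hGb; omega, hb0⟩⟩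

set_option maxHeartbeats 1000000 in
theorem exists_fixed_lift : ∃ bad : Finset (PS A N), ∀ Q, Q ∉ bad → ∃ P : PB N, rP C P = Q ∧
    ∀ σ ∈ A.inertiaSubgroupIn ℚ, gal N σ • P = P := by
  classical
  obtain ⟨bad, hbad⟩ := exists_bad C
  refine ⟨bad, fun Q hQ => ?_⟩
  obtain ⟨b, hb⟩ := hbad Q hQ
  obtain ⟨z, hzb, hzfix⟩ := exists_fixed_residue C.prime C.lies b
  set y := tB N false - cB N (z : Qb)
  set y' := tS A N false - algebraMap (kA A) (FS A N) b
  obtain ⟨hU, hr⟩ : UG A N y ∧ red A N y = y' := by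
    have h := UG_sub_const C false z.2
    rw [show (⟨(z : Qb), z.2⟩ : A) = z from rfl, hzb] at h
    exact h
  have hQ0 : 0 < Q.ord y' := by
    obtain ⟨Q', hQ'⟩ := exists_value_place C b
    exact (hb Q' hQ').2
  have hnn : ∀ P : PB N, 0 < P.ord y → Bd (rP C P) (tS A N false) 0 ∧ 0 < (rP C P).ord y' := by
    intro P hP
    have h1 : Val P (tB N false) (z : Qb) := by
      have := (val_zero_of_ord_pos hP).add (Val.const (v := P) (z : Qb))
      rwa [sub_add_cancel, zero_add] at this
    obtain ⟨h, h2⟩ := val_rP C (BT_tB false) h1 z.2 h1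
    rw [red_tB C] at h2
    refine ⟨h2.bd, ?_⟩
    have h3 := h2.sub (Val.const (v := rP C P) b)
    rw [show residue A ⟨(z : Qb), h⟩ = b from hzb, sub_self] at h3
    have h4 : 1 ≤ (rP C P).ord y' := h3.ord_pos (show y' ≠ 0 from hr ▸ hU.2)
    omega
  have hd := defect_eq_zero C hU Q
  rw [defect, hr, sub_eq_zero, mapDomain_apply_eq_sum (rP C) (dv y) Q (dv y).support subset_rfl]
    at hd
  simp only [dv_apply] at hd
  have hQfin : Bd Q (tS A N false) 0 := by
    have h2 := (val_zero_of_ord_pos hQ0).add (Val.const (v := Q) b)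
    rw [sub_add_cancel] at h2
    exact h2.bd
  set S := (dv y).support.filter (fun P => rP C P = Q)
  have hSnn : ∀ P ∈ S, 1 ≤ P.ord y := by
    intro P hP
    obtain ⟨h1, h2⟩ := Finset.mem_filter.mp hP
    rw [Finsupp.mem_support_iff, dv_apply] at h1
    obtain ⟨d, -, hd'⟩ := (fin_rP_iff C).mp (h2 ▸ hQfin : Bd (rP C P) (tS A N false) 0)
    have h3 := (hd'.sub (Val.const (v := P) (z : Qb))).bd
    rw [RR.bd_iff_ord (hU.ne_zero C)] at h3
    omega
  have hone : Q.ord y' = 1 := (hb Q hQ0).1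
  obtain ⟨P, hP⟩ : S.Nonempty := by
    by_contra h
    rw [Finset.not_nonempty_iff_eq_empty] at h
    rw [h, Finset.sum_empty] at hd
    omega
  refine ⟨P, (Finset.mem_filter.mp hP).2, fun σ hσ => ?_⟩
  have hyfix : gal N σ • y = y := by
    rw [smul_sub, gal_tB, SemilinearAut.smul_algebraMap]
    show _ - algebraMap Qb (FB N) (σ (z : Qb)) = _
    rw [hzfix σ hσ]
  by_contra hne
  have hP' : gal N σ • P ∈ S := by
    refine Finset.mem_filter.mpr ⟨Finsupp.mem_support_iff.mpr ?_, ?_⟩
    · have h1 := SemilinearAut.ord_smul (gal N σ) P y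
      rw [hyfix] at h1
      rw [dv_apply, h1]
      have := hSnn P hP
      omega
    · rw [rP_inertia C hσ]; exact (Finset.mem_filter.mp hP).2
  have h2 : ∑ x ∈ ({P, gal N σ • P} : Finset (PB N)), x.ord y ≤ ∑ x ∈ S, x.ord y := by
    refine Finset.sum_le_sum_of_subset_of_nonneg ?_ fun x hx _ => by have := hSnn x hx; omega
    intro x hx
    simp only [Finset.mem_insert, Finset.mem_singleton] at hx
    rcases hx with rfl | rfl <;> assumption
  rw [Finset.sum_pair (Ne.symm hne)] at h2
  have := hSnn P hP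
  have := hSnn _ hP'
  omega

end FLTAgent.Flat
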