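import Fermat.Agent.Flat.Coord

/-!
The coordinates of `L(MΠ - D(c₁ + c₂))` are in the algebra of those of `L(MΠ - Dcᵢ)`.

With `n₃ = 3M + m + d₀`, `n' = 3M + d₀` and `D₁ + D₂ + R - mΠ = D₃ + div h`: products give the space
`L(n₃Π - D₁ - D₂ - R)`; the line of proportional tuples in `L(n'Π)` gives `L(n'Π - D₃)`; its
annihilator cuts out `L(MΠ - D₃)`.
-/

set_option autoImplicit false
set_option linter.unusedSectionVars false
set_option linter.style.haveILetI false
set_option synthInstance.maxHeartbeats 400000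

noncomputable section

open ModularCurve AlgebraicCurve IsLocalRing Matrix
open scoped Pointwise

namespace FLTAgent.Flat

open FLTAgent.Reduction

section Tools

theorem le_span_of_indep {R V : Type*} [Field R] [AddCommGroup V] [Module R V] {ι : Type*}
    [Fintype ι] {W : Submodule R V} [FiniteDimensional R W] {v : ι → V} (hv : ∀ i, v i ∈ W)
    (hi : LinearIndependent R v) (hd : Module.finrank R W ≤ Fintype.card ι) :
    W ≤ Submodule.span R (Set.range v) :=
  (Submodule.eq_of_le_of_finrank_le (Submodule.span_le.mpr (Set.range_subset_iff.mpr hv))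
    (by rw [finrank_span_eq_card hi]; exact hd)).ge

theorem finrank_ker_add_span {R : Type*} [Field R] {κ ι : Type*} [Fintype κ] [Fintype ι]
    (M : Matrix κ ι R) :
    Module.finrank R (LinearMap.ker M.mulVecLin) +
      Module.finrank R (Submodule.span R (Set.range fun r => M r)) = Fintype.card ι := by
  have h1 : M.rank = Module.finrank R (Submodule.span R (Set.range fun r => M r)) :=
    Matrix.rank_eq_finrank_span_row M
  rw [← h1, Matrix.rank, add_comm, LinearMap.finrank_range_add_finrank_ker,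
    Module.finrank_fintype_fun_eq_card]

theorem dotProduct_eq_zero_of_mem_span {R : Type*} [Field R] {κ ι : Type*} [Fintype ι]
    {w : ι → R} {s : κ → ι → R} (h : ∀ r, s r ⬝ᵥ w = 0) {v : ι → R}
    (hv : v ∈ Submodule.span R (Set.range s)) : v ⬝ᵥ w = 0 := by
  induction hv using Submodule.span_induction with
  | mem x hx => obtain ⟨r, rfl⟩ := hx; exact h r
  | zero => exact zero_dotProduct w
  | add x y _ _ hx hy => rw [add_dotProduct, hx, hy, add_zero]
  | smul a x _ hx => rw [smul_dotProduct, hx, smul_zero]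

variable {R : Type*} [CommRing R] {p q r : ℕ} {ι : Type*} [Fintype ι] [DecidableEq ι]

/-- proportionality to a family -/
def Zmat (c : Fin p → Fin q → Fin r → R) (P : ι → Fin q → R) :
    Matrix (ι × ι × Fin r) (ι × Fin p) R :=
  Matrix.of fun e f => (if f.1 = e.1 then mulRow c (P e.2.1) e.2.2 f.2 else 0) -
    (if f.1 = e.2.1 then mulRow c (P e.1) e.2.2 f.2 else 0)

theorem Zmat_mulVec (c : Fin p → Fin q → Fin r → R) (P : ι → Fin q → R) (f : ι × Fin p → R)
    (i j : ι) (k : Fin r) : (Zmat c P *ᵥ f) (i, j, k) =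
      mulv c (fun a => f (i, a)) (P j) k - mulv c (fun a => f (j, a)) (P i) k := by
  simp only [Zmat, mulVec, dotProduct, Matrix.of_apply, sub_mul, ite_mul, zero_mul,
    Finset.sum_sub_distrib, Fintype.sum_prod_type, mulv, mul_comm (f _)]
  rw [Finset.sum_eq_single i (fun i' _ h => by simp [h]) (by simp),
    Finset.sum_eq_single j (fun i' _ h => by simp [h]) (by simp)]
  simp

theorem Zmat_map {R' : Type*} [CommRing R'] (φ : R →+* R') (c : Fin p → Fin q → Fin r → R)
    (P : ι → Fin q → R) : (Zmat c P).map φ =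
      Zmat (fun a b k => φ (c a b k)) (fun j b => φ (P j b)) := by
  ext ⟨i, j, k⟩ ⟨i', a⟩
  simp only [Zmat, Matrix.map_apply, Matrix.of_apply, map_sub, apply_ite φ, map_zero, mulRow_map]

end Tools

variable {A : ValuationSubring Qb} {X : Type*}

/-- evaluation, integrally -/
def evA (S : Subalgebra A (X → Qb)) (hS : ∀ f ∈ S, ∀ x, f x ∈ A) (x : X) : S →+* A where
  toFun f := ⟨(f : X → Qb) x, hS _ f.2 x⟩
  map_one' := rfl
  map_mul' _ _ := rfl
  map_zero' := rfl
  map_add' _ _ := rfl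

/-- evaluation -/
abbrev evK (S : Subalgebra A (X → Qb)) (hS : ∀ f ∈ S, ∀ x, f x ∈ A) (x : X) : S →+* Qb :=
  A.subtype.comp (evA S hS x)

/-- evaluation in the residue field -/
abbrev evR (S : Subalgebra A (X → Qb)) (hS : ∀ f ∈ S, ∀ x, f x ∈ A) (x : X) : S →+* kA A :=
  (residue A).comp (evA S hS x)

theorem resA_evK (S : Subalgebra A (X → Qb)) (hS : ∀ f ∈ S, ∀ x, f x ∈ A) (x : X) (f : S) :
    resA A (evK S hS x f) = evR S hS x f := resA_coe _

variable {N : ℕ} [NeZero N] {ℓ : ℕ} (C : Ctx A N ℓ)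

/-- structure constants in the algebra -/
abbrev cS (S : Subalgebra A (X → Qb)) (m n : ℕ) :
    Fin (dimL N m) → Fin (dimL N n) → Fin (dimL N (m + n)) → S :=
  fun a b k => algebraMap A S (cst C m n a b k)

/-- the divisors of the problem -/
structure AddData (X : Type*) (N : ℕ) [NeZero N] where
  /-- multiples of `Π` -/
  M : ℕ
  /-- multiples of `Π` -/
  m : ℕ
  /-- the bound -/
  d0 : ℕ
  /-- auxiliary -/
  R : Divisor Qb (FB N)
  /-- the divisors -/
  D1 : X → Divisor Qb (FB N)
  /-- the divisors -/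
  D2 : X → Divisor Qb (FB N)
  /-- the divisors -/
  D3 : X → Divisor Qb (FB N)

/-- the hypotheses -/
structure AddHyp (δ : AddData X N) : Prop where
  hd : HighDeg C δ.d0
  hM : δ.d0 + genusFF Qb (FB N) + 1 ≤ δ.M
  R_nonneg : 0 ≤ δ.R
  deg_R : Divisor.degree δ.R + genusFF Qb (FB N) = δ.m * dedekindPsi N
  D1_nonneg : ∀ x, 0 ≤ δ.D1 x
  D2_nonneg : ∀ x, 0 ≤ δ.D2 x
  D3_nonneg : ∀ x, 0 ≤ δ.D3 x
  deg1 : ∀ x, Divisor.degree (δ.D1 x) = genusFF Qb (FB N)
  deg2 : ∀ x, Divisor.degree (δ.D2 x) = genusFF Qb (FB N)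
  deg3 : ∀ x, Divisor.degree (δ.D3 x) = genusFF Qb (FB N)
  h0 : ∀ x, Module.finrank (kA A) (riemannRochSpace (rDiv C (δ.D3 x))) = 1
  rel : ∀ x, ∃ h : FB N, h ≠ 0 ∧ dv h = δ.D1 x + δ.D2 x + δ.R - δ.m • poleJ N - δ.D3 x

namespace AddData

variable (δ : AddData X N)

/-- the multiple for `R` -/
abbrev nR : ℕ := δ.M + δ.m + δ.d0

/-- the multiple for products -/
abbrev n3 : ℕ := δ.M + (δ.M + δ.nR)

/-- the auxiliary multiple -/
abbrev np : ℕ := δ.M + δ.M + δ.d0

/-- the multiple for quotients -/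
abbrev nT : ℕ := δ.M + δ.np

/-- the divisor of the products -/
abbrev E12 (x : X) : Divisor Qb (FB N) :=
  (δ.M • poleJ N - δ.D1 x) + ((δ.M • poleJ N - δ.D2 x) + (δ.nR • poleJ N - δ.R))

/-- the divisor of the quotients -/
abbrev E3 (x : X) : Divisor Qb (FB N) := δ.nT • poleJ N - δ.D3 x

theorem E12_add {x : X} {h : FB N}
    (hh : dv h = δ.D1 x + δ.D2 x + δ.R - δ.m • poleJ N - δ.D3 x) :
    δ.E12 x + dv h = δ.E3 x := by
  rw [hh]
  simp only [E12, E3, nT, np, nR, add_nsmul]
  abel

end AddData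

variable {C} {δ : AddData X N} (H : AddHyp C δ)
include H

theorem AddHyp.psi_le (k : ℕ) : (k : ℤ) ≤ (k : ℤ) * dedekindPsi N :=
  le_mul_of_one_le_right (by positivity) (by exact_mod_cast dedekindPsi_pos C)

theorem AddHyp.deg_E3 (x : X) : Divisor.degree (δ.E3 x) =
    (δ.nT : ℤ) * dedekindPsi N - genusFF Qb (FB N) := by
  rw [map_sub, map_nsmul, degree_poleJ, H.deg3, nsmul_eq_mul]

theorem AddHyp.deg_E12 (x : X) : Divisor.degree (δ.E12 x) =
    (δ.nT : ℤ) * dedekindPsi N - genusFF Qb (FB N) := by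
  simp only [AddData.E12, AddData.nT, AddData.np, AddData.nR, map_add, map_sub, map_nsmul,
    degree_poleJ, H.deg1, H.deg2, nsmul_eq_mul]
  have := H.deg_R
  push_cast
  linarith

theorem AddHyp.high_E (x : X) : (δ.d0 : ℤ) ≤ (δ.nT : ℤ) * dedekindPsi N - genusFF Qb (FB N) := by
  have h1 := H.psi_le δ.nT
  have h2 := H.hM
  simp only [AddData.nT, AddData.np] at *
  push_cast at *
  omega

set_option maxHeartbeats 1000000 in
theorem rr_mul_le {D E : Divisor Qb (FB N)} (h1 : (δ.d0 : ℤ) ≤ Divisor.degree D)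
    (h2 : Divisor.degree D + δ.d0 ≤ Divisor.degree E) :
    riemannRochSpace (rDiv C (D + E)) ≤
      riemannRochSpace (rDiv C D) * riemannRochSpace (rDiv C E) := by
  haveI : Infinite (kA A) := IsAlgClosed.instInfinite
  haveI := finiteDimensional_S C (rDiv C D + rDiv C E)
  haveI := finiteDimensional_S C (rDiv C D)
  haveI := finiteDimensional_S C (rDiv C E)
  rw [rDiv_add]
  refine (riemannRochSpace_le_span_mul (rDiv C D) (rDiv C E) (fun f hf => finite_ord_FS C hf)
    inferInstance inferInstance inferInstance (H.hd.2 D h1).2.2 ?_).trans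
      (Submodule.span_le.mpr ?_)
  · have e1 := (H.hd.2 (D + E) (by rw [map_add]; omega)).2.1
    have e2 := (H.hd.2 (E - D) (by rw [map_sub]; omega)).2.1
    have e3 := (H.hd.2 E (by omega)).2.1
    rw [rDiv_add, map_add] at e1
    rw [rDiv_sub, map_sub] at e2
    omega
  · rintro _ ⟨a, ha, b, hb, rfl⟩
    exact Submodule.mul_mem_mul ha hb

omit H in
theorem le_poleJ {n : ℕ} {D : Divisor Qb (FB N)} (hD : 0 ≤ D) :
    n • poleJ N - D ≤ n • poleJ N :=
  sub_le_self _ hD

variable (S : Subalgebra A (X → Qb)) (hS : ∀ f ∈ S, ∀ x, f x ∈ A)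

set_option maxHeartbeats 1000000 in
/-- the products -/
theorem exists_products {u : ℕ}
    (hu : (u : ℤ) = (δ.M : ℤ) * dedekindPsi N + 1 - 2 * genusFF Qb (FB N))
    (q1 q2 : Fin u → Fin (dimL N δ.M) → S)
    (hq1 : ∀ x l, (fun i => evK S hS x (q1 l i)) ∈ wB C δ.M (δ.M • poleJ N - δ.D1 x))
    (hq2 : ∀ x l, (fun i => evK S hS x (q2 l i)) ∈ wB C δ.M (δ.M • poleJ N - δ.D2 x))
    (hi1 : ∀ x, LinearIndependent (kA A) fun l i => evR S hS x (q1 l i))
    (hi2 : ∀ x, LinearIndependent (kA A) fun l i => evR S hS x (q2 l i)) :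
    ∃ (ι : Type) (_ : Fintype ι) (P : ι → Fin (dimL N δ.n3) → S),
      (∀ x j, (fun i => evK S hS x (P j i)) ∈ wB C δ.n3 (δ.E12 x)) ∧
      ∀ x, riemannRochSpace (rDiv C (δ.E12 x)) ≤
        Submodule.span (kA A) (Set.range fun j => lcS C δ.n3 fun i => evR S hS x (P j i)) := by
  classical
  have hM0 : (δ.d0 : ℤ) + genusFF Qb (FB N) ≤ (δ.M : ℤ) * dedekindPsi N := by
    have := H.psi_le δ.M
    have := H.hM
    omega
  have hR0 : (δ.d0 : ℤ) + ((δ.M : ℤ) * dedekindPsi N - genusFF Qb (FB N)) ≤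
      Divisor.degree (δ.nR • poleJ N - δ.R) := by
    rw [map_sub, map_nsmul, degree_poleJ, nsmul_eq_mul]
    have h1 := H.deg_R
    have h2 := H.psi_le δ.d0
    simp only [AddData.nR]
    push_cast
    rw [add_mul, add_mul]
    omega
  obtain ⟨r, hrW, hrA, hri⟩ :=
    exists_int_family C δ.nR (D := δ.nR • poleJ N - δ.R) (le_poleJ H.R_nonneg)
  let rS : Fin _ → Fin (dimL N δ.nR) → S := fun k i => algebraMap A S ⟨r k i, hrA k i⟩
  have hrK : ∀ x k, (fun i => evK S hS x (rS k i)) = r k := fun x k => rfl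
  let P2 : Fin u × Fin (Module.finrank Qb (riemannRochSpace (δ.nR • poleJ N - δ.R))) →
      Fin (dimL N (δ.M + δ.nR)) → S := fun j => mulv (cS C S δ.M δ.nR) (q2 j.1) (rS j.2)
  let P : Fin u × (Fin u × Fin (Module.finrank Qb (riemannRochSpace (δ.nR • poleJ N - δ.R)))) →
      Fin (dimL N δ.n3) → S := fun j => mulv (cS C S δ.M (δ.M + δ.nR)) (q1 j.1) (P2 j.2)
  have hK : ∀ x j, lcB C δ.n3 (fun i => evK S hS x (P j i)) =
      lcB C δ.M (fun i => evK S hS x (q1 j.1 i)) *
        (lcB C δ.M (fun i => evK S hS x (q2 j.2.1 i)) * lcB C δ.nR (r j.2.2)) := by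
    intro x j
    rw [← hrK x j.2.2, lcB_mulv, lcB_mulv]
    congr 1
    funext k
    show evK S hS x (mulv _ _ _ k) = _
    rw [mulv_map]
    refine congrArg (fun f => mulv _ _ f k) (funext fun b => ?_)
    exact mulv_map (evK S hS x) _ _ _ b
  have hRS : ∀ x j, lcS C δ.n3 (fun i => evR S hS x (P j i)) =
      lcS C δ.M (fun i => evR S hS x (q1 j.1 i)) *
        (lcS C δ.M (fun i => evR S hS x (q2 j.2.1 i)) *
          lcS C δ.nR (fun i => resA A (r j.2.2 i))) := by
    intro x j
    rw [show (fun i => resA A (r j.2.2 i)) = fun i => evR S hS x (rS j.2.2 i) from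
      funext fun i => resA_coe ⟨_, hrA j.2.2 i⟩, lcS_mulv, lcS_mulv]
    congr 1
    funext k
    show evR S hS x (mulv _ _ _ k) = _
    rw [mulv_map]
    refine congrArg (fun f => mulv _ _ f k) (funext fun b => ?_)
    exact mulv_map (evR S hS x) _ _ _ b
  refine ⟨_, inferInstance, P, fun x j => ?_, fun x => ?_⟩
  · show lcB C δ.n3 _ ∈ riemannRochSpace _
    rw [hK]
    exact mem_rr_mul (hq1 x j.1) (mem_rr_mul (hq2 x j.2.1) (hrW j.2.2))
  have hd1 : Divisor.degree (δ.M • poleJ N - δ.D1 x) = (δ.M : ℤ) * dedekindPsi N - genusFF Qb (FB N) := by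
    rw [map_sub, map_nsmul, degree_poleJ, H.deg1, nsmul_eq_mul]
  have hd2 : Divisor.degree (δ.M • poleJ N - δ.D2 x) = (δ.M : ℤ) * dedekindPsi N - genusFF Qb (FB N) := by
    rw [map_sub, map_nsmul, degree_poleJ, H.deg2, nsmul_eq_mul]
  have hspan : ∀ (E : Divisor Qb (FB N)) (q : Fin u → Fin (dimL N δ.M) → S), 0 ≤ E →
      Divisor.degree E = genusFF Qb (FB N) →
      (∀ l, (fun i => evK S hS x (q l i)) ∈ wB C δ.M (δ.M • poleJ N - E)) →
      LinearIndependent (kA A) (fun l i => evR S hS x (q l i)) →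
      riemannRochSpace (rDiv C (δ.M • poleJ N - E)) ≤
        Submodule.span (kA A) (Set.range fun l => lcS C δ.M fun i => evR S hS x (q l i)) := by
    intro E q hE hEd hq hi
    haveI := finiteDimensional_S C (rDiv C (δ.M • poleJ N - E))
    refine le_span_of_indep (v := fun l => lcS C δ.M fun i => evR S hS x (q l i)) (fun l => ?_)
      (hi.map' _ (LinearMap.ker_eq_bot.mpr (lcS_injective C δ.M))) ?_
    · have := res_mem_wS C (hq l) fun i => (evA S hS x (q l i)).2
      simp only [resA_evK] at this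
      exact Submodule.mem_comap.mp this
    · have := (H.hd.2 (δ.M • poleJ N - E) (by
        rw [map_sub, map_nsmul, degree_poleJ, hEd, nsmul_eq_mul]; omega)).2.1
      rw [map_sub, map_nsmul, degree_poleJ, hEd, nsmul_eq_mul] at this
      rw [Fintype.card_fin]
      omega
  have hspanR : riemannRochSpace (rDiv C (δ.nR • poleJ N - δ.R)) ≤
      Submodule.span (kA A) (Set.range fun k => lcS C δ.nR fun i => resA A (r k i)) := by
    haveI := finiteDimensional_S C (rDiv C (δ.nR • poleJ N - δ.R))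
    refine le_span_of_indep (v := fun k => lcS C δ.nR fun i => resA A (r k i)) (fun k => ?_)
      (hri.map' _ (LinearMap.ker_eq_bot.mpr (lcS_injective C δ.nR))) ?_
    · have h1 : lcB C δ.nR (r k) ∈ riemannRochSpace (δ.nR • poleJ N - δ.R) := hrW k
      have h2 := res_mem_rr C (n := δ.nR) (x := r k) (D := (δ.nR • poleJ N - δ.R)) h1 (hrA k)
      exact h2
    obtain ⟨e1, e2, -⟩ := H.hd.2 (δ.nR • poleJ N - δ.R) (by omega)
    rw [Fintype.card_fin]
    omega
  have h2 := rr_mul_le H (D := δ.M • poleJ N - δ.D2 x) (E := δ.nR • poleJ N - δ.R) (by omega) (by omega)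
  have h1 := rr_mul_le H (D := δ.M • poleJ N - δ.D1 x) (E := (δ.M • poleJ N - δ.D2 x) + (δ.nR • poleJ N - δ.R)) (by omega) (by rw [map_add]; omega)
  refine (h1.trans (mul_le_mul' (hspan _ q1 (H.D1_nonneg x) (H.deg1 x) (hq1 x) (hi1 x))
    (h2.trans (mul_le_mul' (hspan _ q2 (H.D2_nonneg x) (H.deg2 x) (hq2 x) (hi2 x)) hspanR)))).trans ?_
  rw [Submodule.span_mul_span, Submodule.span_mul_span]
  refine Submodule.span_mono ?_
  rintro _ ⟨_, ⟨l1, rfl⟩, _, ⟨_, ⟨l2, rfl⟩, _, ⟨k, rfl⟩, rfl⟩, rfl⟩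
  exact ⟨(l1, l2, k), hRS x _⟩

variable [Finite X] [Infinite (kA A)] {ι : Type} [Fintype ι] (P : ι → Fin (dimL N δ.n3) → S)

set_option maxHeartbeats 1000000 in
/-- the proportional tuples -/
theorem exists_quotients (hP : ∀ x j, (fun i => evK S hS x (P j i)) ∈ wB C δ.n3 (δ.E12 x))
    (hspan : ∀ x, riemannRochSpace (rDiv C (δ.E12 x)) ≤
      Submodule.span (kA A) (Set.range fun j => lcS C δ.n3 fun i => evR S hS x (P j i))) :
    ∃ z : ι → Fin (dimL N δ.nT) → S,
      (∀ x j, (fun a => evK S hS x (z j a)) ∈ wB C δ.nT (δ.E3 x)) ∧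
      ∀ x, wS C δ.nT (rDiv C (δ.E3 x)) ≤
        Submodule.span (kA A) (Set.range fun j a => evR S hS x (z j a)) := by
  classical
  set ZS := Zmat (cS C S δ.nT δ.n3) P
  let Pk : X → ι → Fin (dimL N δ.n3) → Qb := fun x j i => evK S hS x (P j i)
  let Pb : X → ι → Fin (dimL N δ.n3) → kA A := fun x j i => evR S hS x (P j i)
  have hZk : ∀ x, (Matrix.of fun r i => (ZS r i : X → Qb) x) =
      Zmat (fun a b k => (cst C δ.nT δ.n3 a b k : Qb)) (Pk x) := fun x => by
    rw [show (Matrix.of fun r i => (ZS r i : X → Qb) x) = ZS.map (evK S hS x) from rfl, Zmat_map]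
    rfl
  have hZb : ∀ x, rmat A (Matrix.of fun r i => (ZS r i : X → Qb) x) =
      Zmat (fun a b k => residue A (cst C δ.nT δ.n3 a b k)) (Pb x) := fun x => by
    rw [show rmat A (Matrix.of fun r i => (ZS r i : X → Qb) x) = ZS.map (evR S hS x) from
      Matrix.ext fun r i => resA_evK S hS x (ZS r i), Zmat_map]
    rfl
  have hPb : ∀ x j, lcS C δ.n3 (Pb x j) ∈ riemannRochSpace (rDiv C (δ.E12 x)) := fun x j => by
    have := res_mem_wS C (hP x j) fun i => (evA S hS x (P j i)).2
    simp only [resA_evK] at this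
    exact this
  have hdeg : ∀ x, (δ.d0 : ℤ) ≤ Divisor.degree (δ.E12 x) := fun x => by
    rw [H.deg_E12]; exact H.high_E x
  have hex : ∀ x (Q : PS A N), ∃ j, lcS C δ.n3 (Pb x j) ≠ 0 ∧
      Q.ord (lcS C δ.n3 (Pb x j)) = -rDiv C (δ.E12 x) Q := by
    intro x Q
    obtain ⟨_, ⟨j, rfl⟩, h1, h2⟩ := exists_exact (hspan x) (Set.range_subset_iff.mpr (hPb x)) Q
      ((H.hd.2 _ (hdeg x)).2.2 Q)
    exact ⟨j, h1, h2⟩
  have hne : ∀ x, ∃ j, lcS C δ.n3 (Pb x j) ≠ 0 := fun x => by
    obtain ⟨j, hj, -⟩ := hex x (curveLike_S C).ne.some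
    exact ⟨j, hj⟩
  have hU : ∀ x, ∃ h : FB N, UG A N h ∧
      dv h = δ.D1 x + δ.D2 x + δ.R - δ.m • poleJ N - δ.D3 x := by
    intro x
    obtain ⟨h, h0, hh⟩ := H.rel x
    obtain ⟨c, w, hc, hw, rfl⟩ := exists_scale_UG C h0
    refine ⟨w, hw, hh ▸ ?_⟩
    ext v
    rw [dv_apply, dv_apply, v.ord_mul ((_root_.map_ne_zero _).mpr hc) (hw.ne_zero C),
      RR.ord_algebraMap, zero_add]
  choose h hh hdv using hU
  have hwit : ∀ x, ∃ w : ι × Fin (dimL N δ.nT) → Qb, w ≠ 0 ∧
      Zmat (fun a b k => (cst C δ.nT δ.n3 a b k : Qb)) (Pk x) *ᵥ w = 0 ∧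
      ∀ j, (fun a => w (j, a)) ∈ wB C δ.nT (δ.E3 x) := by
    intro x
    have hm : ∀ j, lcB C δ.n3 (Pk x j) * (h x)⁻¹ ∈ riemannRochSpace (δ.E3 x) := fun j => by
      rw [← δ.E12_add (hdv x)]
      exact mem_rr_mul (hP x j) inv_mem_rr
    choose w hw using fun j => exists_lcB C (rr_mono (le_poleJ (H.D3_nonneg x)) (hm j))
    refine ⟨fun ja => w ja.1 ja.2, fun h0 => ?_, funext fun ⟨i, j, k⟩ => ?_, fun j => ?_⟩
    · obtain ⟨j, hj⟩ := hne x
      have h1 : lcB C δ.nT (w j) = 0 := by
        rw [show w j = 0 from funext fun a => congrFun h0 (j, a), map_zero]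
      rw [hw, mul_eq_zero] at h1
      have h2 : Pk x j = 0 := lcB_injective C _ (by
        rw [map_zero]; exact h1.resolve_right (inv_ne_zero ((hh x).ne_zero C)))
      refine hj ?_
      rw [show Pb x j = 0 from funext fun i => by
        show evR S hS x (P j i) = 0
        rw [← resA_evK]
        show resA A (Pk x j i) = 0
        rw [h2]
        exact resA_zero, map_zero]
    · rw [Zmat_mulVec, Pi.zero_apply, sub_eq_zero]
      refine congrFun (lcB_injective C _ ?_) k
      rw [← lcB_mulv, ← lcB_mulv, hw, hw]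
      ring
    · show lcB C δ.nT (w j) ∈ riemannRochSpace _
      rw [hw]
      exact hm j
  have hres : ∀ x, Module.finrank (kA A) (LinearMap.ker
      (Zmat (fun a b k => residue A (cst C δ.nT δ.n3 a b k)) (Pb x)).mulVecLin) ≤ 1 ∧
      ∀ f, Zmat (fun a b k => residue A (cst C δ.nT δ.n3 a b k)) (Pb x) *ᵥ f = 0 →
        ∀ i j, lcS C δ.nT (fun a => f (i, a)) * lcS C δ.n3 (Pb x j) =
          lcS C δ.nT (fun a => f (j, a)) * lcS C δ.n3 (Pb x i) := by
    intro x
    have hprop : ∀ f, Zmat (fun a b k => residue A (cst C δ.nT δ.n3 a b k)) (Pb x) *ᵥ f = 0 →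
        ∀ i j, lcS C δ.nT (fun a => f (i, a)) * lcS C δ.n3 (Pb x j) =
          lcS C δ.nT (fun a => f (j, a)) * lcS C δ.n3 (Pb x i) := fun f hf i j => by
      rw [lcS_mulv, lcS_mulv]
      congr 1
      funext k
      have := congrFun hf (i, j, k)
      rwa [Zmat_mulVec, Pi.zero_apply, sub_eq_zero] at this
    refine ⟨?_, hprop⟩
    obtain ⟨j0, hj0⟩ := hne x
    set Ey := rDiv C (δ.D1 x + δ.D2 x + δ.R - δ.m • poleJ N)
    haveI := finiteDimensional_S C Ey
    have hy : ∀ f ∈ LinearMap.ker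
        (Zmat (fun a b k => residue A (cst C δ.nT δ.n3 a b k)) (Pb x)).mulVecLin,
        lcS C δ.nT (fun a => f (j0, a)) * (lcS C δ.n3 (Pb x j0))⁻¹ ∈ riemannRochSpace Ey := by
      intro f hf
      rw [mem_riemannRochSpace_iff]
      intro Q
      rcases eq_or_ne (lcS C δ.nT (fun a => f (j0, a))) 0 with h0 | h0
      · exact Or.inl (by rw [h0, zero_mul])
      right
      obtain ⟨j, hj, hjQ⟩ := hex x Q
      have he := hprop f hf j0 j
      have hfj : lcS C δ.nT (fun a => f (j, a)) ≠ 0 := fun hz => by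
        rw [hz, zero_mul] at he
        exact mul_ne_zero h0 hj he
      have h1 := ((mem_riemannRochSpace_iff.mp (lcS_mem C δ.nT fun a => f (j, a))) Q).resolve_left hfj
      have h2 := congrArg Q.ord he
      rw [Q.ord_mul h0 hj, Q.ord_mul hfj hj0] at h2
      rw [Q.ord_mul h0 (inv_ne_zero hj0), Q.ord_inv]
      have hdiv : Ey + rDiv C (δ.E12 x) = δ.nT • rDiv C (poleJ N) := by
        rw [← rDiv_add, ← rDiv_nsmul]
        congr 1
        simp only [AddData.E12, AddData.nT, AddData.np, AddData.nR, add_nsmul]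
        abel
      have h3 := congrArg (fun D : Divisor (kA A) (FS A N) => D Q) hdiv
      simp only [Finsupp.add_apply] at h3
      omega
    let L : LinearMap.ker (Zmat (fun a b k => residue A (cst C δ.nT δ.n3 a b k)) (Pb x)).mulVecLin
        →ₗ[kA A] riemannRochSpace Ey :=
      (((LinearMap.mulRight (kA A) (lcS C δ.n3 (Pb x j0))⁻¹).comp ((lcS C δ.nT).comp
        (LinearMap.funLeft (kA A) (kA A) fun a => (j0, a)))).comp
          (Submodule.subtype _)).codRestrict _ fun f => hy f.1 f.2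
    refine (LinearMap.finrank_le_finrank_of_injective (f := L) ?_).trans ?_
    · rw [← LinearMap.ker_eq_bot, LinearMap.ker_eq_bot']
      rintro ⟨f, hf⟩ hz
      have hz' : lcS C δ.nT (fun a => f (j0, a)) = 0 :=
        (mul_eq_zero.mp (congrArg Subtype.val hz)).resolve_right (inv_ne_zero hj0)
      refine Subtype.ext (funext fun ⟨i, a⟩ => ?_)
      have he := hprop f hf i j0
      rw [hz', zero_mul, mul_eq_zero] at he
      exact congrFun (lcS_injective C _ ((he.resolve_right hj0).trans (map_zero _).symm)) a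
    · haveI := finiteDimensional_S C (rDiv C (δ.D3 x))
      rw [← H.h0 x]
      have hmul : ∀ y ∈ riemannRochSpace Ey, y * red A N (h x) ∈ riemannRochSpace (rDiv C (δ.D3 x)) := by
        intro y hy
        have hr : red A N (h x) ∈ riemannRochSpace (-rDiv C (dv (h x))) := by
          rw [mem_riemannRochSpace_iff]
          intro Q
          right
          have hd := defect_eq_zero C (hh x) Q
          rw [defect] at hd
          simp only [rDiv] at hd ⊢
          rw [Finsupp.neg_apply, neg_neg]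
          omega
        have hm := mem_rr_mul hy hr
        have hE : Ey + -rDiv C (dv (h x)) = rDiv C (δ.D3 x) := by
          rw [← sub_eq_add_neg, ← rDiv_sub, hdv]
          congr 1
          abel
        rwa [hE] at hm
      refine LinearMap.finrank_le_finrank_of_injective
        (f := ((LinearMap.mulRight (kA A) (red A N (h x))).comp
          (riemannRochSpace Ey).subtype).codRestrict _ fun y => hmul y.1 y.2) ?_
      exact fun a b e => Subtype.ext (mul_right_cancel₀ (hh x).2 (congrArg Subtype.val e))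
  obtain ⟨q, hqS, hq0, hqi, hqg⟩ := exists_kernel_basis' S hS (fun r i => (ZS r i : X → Qb))
    (fun r i => (ZS r i).2) 1
    (fun x => by
      obtain ⟨w, hw, hw0, -⟩ := hwit x
      rw [hZk x]
      exact Submodule.one_le_finrank_iff.mpr fun hb => hw
        ((Submodule.eq_bot_iff _).mp hb w hw0))
    (fun x => by rw [hZb x]; exact (hres x).1)
  refine ⟨fun j a => ⟨q 0 (j, a), hqS 0 (j, a)⟩, fun x j => ?_, fun x => ?_⟩
  · obtain ⟨w, hw, hw0, hwm⟩ := hwit x
    have hspanq := hqg x w (by rw [hZk x]; exact hw0)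
    rw [Set.range_unique, Submodule.mem_span_singleton] at hspanq
    obtain ⟨a, ha⟩ := hspanq
    have ha0 : a ≠ 0 := fun h0 => hw (by rw [← ha, h0, zero_smul])
    show (fun b => q 0 (j, b) x) ∈ wB C δ.nT (δ.E3 x)
    rw [← (wB C δ.nT (δ.E3 x)).smul_mem_iff ha0]
    convert hwm j using 1
    rw [← ha]
    rfl
  set zb : ι → Fin (dimL N δ.nT) → kA A := fun j a => resA A (q 0 (j, a) x)
  have hzb : (fun j a => evR S hS x (⟨q 0 (j, a), hqS 0 (j, a)⟩ : S)) = zb :=
    funext fun j => funext fun a => (resA_evK S hS x ⟨q 0 (j, a), hqS 0 (j, a)⟩).symm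
  rw [hzb]
  have hker : Zmat (fun a b k => residue A (cst C δ.nT δ.n3 a b k)) (Pb x) *ᵥ
      (fun ja => zb ja.1 ja.2) = 0 := by
    funext r
    rw [← hZb x, ← rmat_mulVec (M := Matrix.of fun r i => (ZS r i : X → Qb) x)
      (fun r i => hS _ (ZS r i).2 x) (fun i => hS _ (hqS 0 i) x) r, hq0 x 0, Pi.zero_apply,
      resA_zero, Pi.zero_apply]
  have hprop := (hres x).2 _ hker
  obtain ⟨j0, hj0⟩ := hne x
  set y := lcS C δ.nT (zb j0) * (lcS C δ.n3 (Pb x j0))⁻¹
  have hzy : ∀ j, lcS C δ.nT (zb j) = y * lcS C δ.n3 (Pb x j) := fun j => by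
    have := hprop j j0
    simp only [] at this
    simp only [y]
    field_simp
    linear_combination this
  have hy0 : y ≠ 0 := fun h0 => by
    refine (hqi x).ne_zero 0 (funext fun ⟨j, a⟩ => ?_)
    have := hzy j
    rw [h0, zero_mul] at this
    exact congrFun (lcS_injective C _ (this.trans (map_zero _).symm)) a
  have hmem : ∀ j, lcS C δ.nT (zb j) ∈ riemannRochSpace (rDiv C (δ.E3 x)) := fun j => by
    refine res_mem_wS C (D := δ.E3 x) (x := fun a => q 0 (j, a) x) ?_ fun a => hS _ (hqS 0 (j, a)) x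
    obtain ⟨w, hw, hw0, hwm⟩ := hwit x
    have hspanq := hqg x w (by rw [hZk x]; exact hw0)
    rw [Set.range_unique, Submodule.mem_span_singleton] at hspanq
    obtain ⟨a, ha⟩ := hspanq
    have ha0 : a ≠ 0 := fun h0 => hw (by rw [← ha, h0, zero_smul])
    rw [← (wB C δ.nT (δ.E3 x)).smul_mem_iff ha0]
    convert hwm j using 1
    rw [← ha]
    rfl
  haveI := finiteDimensional_S C (rDiv C (δ.E3 x))
  have heq : Submodule.span (kA A) (Set.range fun j => lcS C δ.nT (zb j)) =
      riemannRochSpace (rDiv C (δ.E3 x)) := by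
    refine Submodule.eq_of_le_of_finrank_le (Submodule.span_le.mpr (Set.range_subset_iff.mpr hmem)) ?_
    have e1 := (H.hd.2 _ (hdeg x)).2.1
    have e2 := (H.hd.2 (δ.E3 x) (by rw [H.deg_E3]; exact H.high_E x)).2.1
    rw [H.deg_E12] at e1
    rw [H.deg_E3] at e2
    have himg : Set.range (fun j => lcS C δ.nT (zb j)) =
        (LinearMap.mulLeft (kA A) y) '' Set.range (fun j => lcS C δ.n3 (Pb x j)) := by
      rw [← Set.range_comp]
      exact congrArg Set.range (funext hzy)
    have hinj : Function.Injective (LinearMap.mulLeft (kA A) y) :=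
      fun a b h => mul_left_cancel₀ hy0 h
    rw [himg, ← Submodule.map_span,
      ← (Submodule.equivMapOfInjective (LinearMap.mulLeft (kA A) y) hinj _).finrank_eq]
    have h3 : Submodule.span (kA A) (Set.range fun j => lcS C δ.n3 (Pb x j)) =
        riemannRochSpace (rDiv C (δ.E12 x)) :=
      le_antisymm (Submodule.span_le.mpr (Set.range_subset_iff.mpr (hPb x))) (hspan x)
    rw [h3]
    omega
  intro v hv
  have hv' : lcS C δ.nT v ∈ Submodule.span (kA A) (Set.range fun j => lcS C δ.nT (zb j)) := by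
    rw [heq]; exact hv
  rw [show (fun j => lcS C δ.nT (zb j)) = lcS C δ.nT ∘ zb from rfl, Set.range_comp,
    ← Submodule.map_span] at hv'
  obtain ⟨v', hv'1, hv'2⟩ := hv'
  rwa [← lcS_injective C _ hv'2]

set_option maxHeartbeats 1000000 in
/-- the annihilator -/
theorem exists_annihilator (z : ι → Fin (dimL N δ.nT) → S)
    (hz : ∀ x j, (fun a => evK S hS x (z j a)) ∈ wB C δ.nT (δ.E3 x))
    (hzspan : ∀ x, wS C δ.nT (rDiv C (δ.E3 x)) ≤
      Submodule.span (kA A) (Set.range fun j a => evR S hS x (z j a))) :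
    ∃ (g' : ℕ) (φ : Fin g' → Fin (dimL N δ.nT) → S),
      (∀ x l, ∀ v ∈ wB C δ.nT (δ.E3 x), v ⬝ᵥ (fun a => evK S hS x (φ l a)) = 0) ∧
      ∀ x v, (∀ l, v ⬝ᵥ (fun a => evR S hS x (φ l a)) = 0) → v ∈ wS C δ.nT (rDiv C (δ.E3 x)) := by
  classical
  rcases isEmpty_or_nonempty X with hX | hX
  · exact ⟨0, Fin.elim0, fun x => isEmptyElim x, fun x => isEmptyElim x⟩
  obtain ⟨x0⟩ := hX
  set w := Module.finrank (kA A) (wS C δ.nT (rDiv C (δ.E3 x0)))
  have hnT : δ.d0 ≤ δ.nT * dedekindPsi N := by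
    have h1 := H.high_E x0
    exact_mod_cast (show (δ.d0 : ℤ) ≤ (δ.nT : ℤ) * dedekindPsi N by omega)
  have hle : ∀ x, rDiv C (δ.E3 x) ≤ δ.nT • rDiv C (poleJ N) := fun x => by
    rw [← rDiv_nsmul]; exact rDiv_mono C (le_poleJ (H.D3_nonneg x))
  have hw : ∀ x, Module.finrank (kA A) (wS C δ.nT (rDiv C (δ.E3 x))) = w ∧
      Module.finrank Qb (wB C δ.nT (δ.E3 x)) = w := by
    intro x
    have e0 := (H.hd.2 (δ.E3 x0) (by rw [H.deg_E3]; exact H.high_E x0)).2.1
    obtain ⟨e1, e2, -⟩ := H.hd.2 (δ.E3 x) (by rw [H.deg_E3]; exact H.high_E x)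
    rw [H.deg_E3] at e0 e1 e2
    constructor
    · simp only [w]
      rw [finrank_wS C H.hd hnT (hle x), finrank_wS C H.hd hnT (hle x0)]
      omega
    · simp only [w]
      rw [finrank_wB C (D := δ.E3 x) (le_poleJ (H.D3_nonneg x)), finrank_wS C H.hd hnT (hle x0)]
      omega
  have hzb : ∀ x, Submodule.span (kA A) (Set.range fun j a => evR S hS x (z j a)) =
      wS C δ.nT (rDiv C (δ.E3 x)) := fun x =>
    le_antisymm (Submodule.span_le.mpr (Set.range_subset_iff.mpr fun j => by
      have := res_mem_wS C (hz x j) fun a => (evA S hS x (z j a)).2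
      simp only [resA_evK] at this
      exact this)) (hzspan x)
  have hrm : ∀ x, rmat A (Matrix.of fun j a => (z j a : X → Qb) x) =
      Matrix.of fun j a => evR S hS x (z j a) := fun x =>
    Matrix.ext fun j a => resA_evK S hS x (z j a)
  set g' := dimL N δ.nT - w
  obtain ⟨q, hqS, hq0, hqi, -⟩ := exists_kernel_basis S hS (fun j a => (z j a : X → Qb))
    (fun j a => (z j a).2) g'
    (fun x => by
      have h1 := finrank_ker_add_span (Matrix.of fun j a => (z j a : X → Qb) x)
      have h2 : Submodule.span Qb (Set.range fun j => (Matrix.of fun j a => (z j a : X → Qb) x) j)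
          ≤ wB C δ.nT (δ.E3 x) :=
        Submodule.span_le.mpr (Set.range_subset_iff.mpr fun j => hz x j)
      have h3 := Submodule.finrank_mono h2
      rw [(hw x).2] at h3
      rw [Fintype.card_fin] at h1
      omega)
    (fun x => by
      have h1 := finrank_ker_add_span (Matrix.of fun j a => evR S hS x (z j a))
      have h2 : Module.finrank (kA A) (Submodule.span (kA A)
          (Set.range fun j => (Matrix.of fun j a => evR S hS x (z j a)) j)) = w := by
        rw [show (fun j => (Matrix.of fun j a => evR S hS x (z j a)) j) =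
          fun j a => evR S hS x (z j a) from rfl, hzb x, (hw x).1]
      rw [hrm x]
      rw [Fintype.card_fin] at h1
      simp only [kA] at *
      omega)
  refine ⟨g', fun l a => ⟨q l a, hqS l a⟩, fun x l v hv => ?_, fun x v hv => ?_⟩
  · refine dotProduct_eq_zero_of_mem_span (s := fun j a => (z j a : X → Qb) x)
      (fun j => congrFun (hq0 x l) j) ?_
    suffices hle : wB C δ.nT (δ.E3 x) ≤
        Submodule.span Qb (Set.range fun j a => (z j a : X → Qb) x) from hle hv
    refine (Submodule.eq_of_le_of_finrank_le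
      (Submodule.span_le.mpr (Set.range_subset_iff.mpr fun j => hz x j)) ?_).ge
    rw [(hw x).2]
    have h1 := finrank_ker_add_span (Matrix.of fun j a => (z j a : X → Qb) x)
    have h1' := finrank_ker_add_span (Matrix.of fun j a => evR S hS x (z j a))
    have h2 := finrank_ker_le (A := A) (M := Matrix.of fun j a => (z j a : X → Qb) x)
      fun j a => hS _ (z j a).2 x
    rw [hrm x] at h2
    have h3 : Module.finrank (kA A) (Submodule.span (kA A)
        (Set.range fun j => (Matrix.of fun j a => evR S hS x (z j a)) j)) = w := by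
      rw [show (fun j => (Matrix.of fun j a => evR S hS x (z j a)) j) =
        fun j a => evR S hS x (z j a) from rfl, hzb x, (hw x).1]
    have h4 : (fun j => (Matrix.of fun j a => (z j a : X → Qb) x) j) =
        fun j a => evK S hS x (z j a) := rfl
    rw [h4] at h1
    have h5 : (fun j a => (z j a : X → Qb) x) = fun j a => evK S hS x (z j a) := rfl
    simp only [kA, h5] at *
    omega
  · set Q : Matrix (Fin g') (Fin (dimL N δ.nT)) (kA A) := fun l a => resA A (q l a x)
    have hmem : v ∈ LinearMap.ker Q.mulVecLin := by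
      rw [LinearMap.mem_ker, Matrix.mulVecLin_apply]
      funext l
      rw [Pi.zero_apply, ← hv l, Matrix.mulVec, dotProduct_comm]
      exact congrArg (v ⬝ᵥ ·) (funext fun a => resA_evK S hS x ⟨q l a, hqS l a⟩)
    suffices heq : wS C δ.nT (rDiv C (δ.E3 x)) = LinearMap.ker Q.mulVecLin by rwa [heq]
    refine Submodule.eq_of_le_of_finrank_le ?_ ?_
    · rw [← hzb x]
      refine Submodule.span_le.mpr (Set.range_subset_iff.mpr fun j => ?_)
      rw [SetLike.mem_coe, LinearMap.mem_ker, Matrix.mulVecLin_apply]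
      funext l
      have h := congrArg (resA A) (congrFun (hq0 x l) j)
      rw [rmat_mulVec (M := Matrix.of fun j a => (z j a : X → Qb) x)
        (fun j a => hS _ (z j a).2 x) (fun a => hS _ (hqS l a) x), hrm x, Pi.zero_apply,
        resA_zero] at h
      rw [Pi.zero_apply, Matrix.mulVec, dotProduct_comm, ← h]
      rfl
    · have h1 := finrank_ker_add_span Q
      rw [Fintype.card_fin, finrank_span_eq_card (show LinearIndependent (kA A) fun l => Q l from hqi x),
        Fintype.card_fin] at h1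
      rw [(hw x).1]
      have : w ≤ dimL N δ.nT := by
        rw [← (hw x).2]
        exact (Submodule.finrank_le _).trans (le_of_eq (Module.finrank_fin_fun Qb))
      omega

set_option maxHeartbeats 1000000 in
/-- the coordinates of the sum lie in the algebra -/
theorem add_mem_algebra {u : ℕ}
    (hu : (u : ℤ) = (δ.M : ℤ) * dedekindPsi N + 1 - 2 * genusFF Qb (FB N))
    (q1 q2 : Fin u → Fin (dimL N δ.M) → S)
    (hq1 : ∀ x l, (fun i => evK S hS x (q1 l i)) ∈ wB C δ.M (δ.M • poleJ N - δ.D1 x))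
    (hq2 : ∀ x l, (fun i => evK S hS x (q2 l i)) ∈ wB C δ.M (δ.M • poleJ N - δ.D2 x))
    (hi1 : ∀ x, LinearIndependent (kA A) fun l i => evR S hS x (q1 l i))
    (hi2 : ∀ x, LinearIndependent (kA A) fun l i => evR S hS x (q2 l i))
    (T : Matrix (Fin u) (Fin (dimL N δ.M)) A)
    (hT : ∀ x, ∀ v ∈ wS C δ.M (rDiv C (δ.M • poleJ N - δ.D3 x)),
      T.map (residue A) *ᵥ v = 0 → v = 0)
    (q3 : Fin u → Fin (dimL N δ.M) → X → Qb)
    (hq3 : ∀ x l, (fun i => q3 l i x) ∈ wB C δ.M (δ.M • poleJ N - δ.D3 x))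
    (hq3T : ∀ x l, T.map A.subtype *ᵥ (fun i => q3 l i x) = Pi.single l 1) (l : Fin u)
    (i : Fin (dimL N δ.M)) : q3 l i ∈ S := by
  classical
  obtain ⟨J, hJ, P, hP, hPs⟩ := exists_products H S hS hu q1 q2 hq1 hq2 hi1 hi2
  obtain ⟨z, hz, hzs⟩ := exists_quotients H S hS P hP hPs
  obtain ⟨g', φ, hφ, hφs⟩ := exists_annihilator H S hS z hz hzs
  let MS : (Fin g' × Fin (dimL N δ.np)) ⊕ Fin u → Fin (dimL N δ.M) → S :=
    Sum.elim (fun lv a => ∑ k, cS C S δ.M δ.np a lv.2 k * φ lv.1 k)
      fun l a => algebraMap A S (T l a)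
  have hadd : ∀ x, δ.M • poleJ N - δ.D3 x + δ.np • poleJ N = δ.E3 x := fun x => by
    simp only [AddData.E3, AddData.nT, add_nsmul]
    abel
  refine mem_of_residually_injective S hS (fun r a => (MS r a : X → Qb)) (fun r a => (MS r a).2)
    (Sum.elim (fun _ => 0) fun l' _ => (Pi.single l 1 : Fin u → Qb) l') ?_ ?_
    (fun a => q3 l a) ?_ i
  · rintro (r | l')
    · exact S.zero_mem
    · rcases eq_or_ne l' l with rfl | h
      · simp only [Sum.elim_inr, Pi.single_eq_same]
        exact S.one_mem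
      · simp only [Sum.elim_inr, Pi.single_eq_of_ne h]
        exact S.zero_mem
  · intro x v hv
    have hv' : ∀ r, ∑ a, evR S hS x (MS r a) * v a = 0 := hv
    refine hT x v ?_ (funext fun l' => hv' (Sum.inr l'))
    show lcS C δ.M v ∈ riemannRochSpace _
    have hprod : ∀ b, lcS C δ.M v * red A N ((bL C δ.np).b b) ∈
        riemannRochSpace (rDiv C (δ.E3 x)) := fun b => by
      have hb : lcS C δ.np (Pi.single b 1) = red A N ((bL C δ.np).b b) := by
        rw [lcS_apply, Finset.sum_eq_single b (fun c _ hc => by simp [Pi.single_eq_of_ne hc])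
          (by simp), Pi.single_eq_same, one_smul]
      rw [← hb, lcS_mulv]
      refine hφs x _ fun lφ => ?_
      rw [← hv' (Sum.inl (lφ, b))]
      simp only [MS, Sum.elim_inl, map_sum, map_mul, dotProduct, mulv_single, Finset.sum_mul]
      rw [Finset.sum_comm]
      refine Finset.sum_congr rfl fun a _ => Finset.sum_congr rfl fun k _ => ?_
      rw [show evR S hS x (cS C S δ.M δ.np a b k) = residue A (cst C δ.M δ.np a b k) from rfl]
      ring
    rw [mem_riemannRochSpace_iff]
    intro Q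
    rcases eq_or_ne (lcS C δ.M v) 0 with h0 | h0
    · exact Or.inl h0
    right
    have hnp : (δ.d0 : ℤ) ≤ Divisor.degree (δ.np • poleJ N) := by
      rw [map_nsmul, degree_poleJ, nsmul_eq_mul]
      have := H.psi_le δ.np
      simp only [AddData.np] at *
      omega
    have hspanp : riemannRochSpace (rDiv C (δ.np • poleJ N)) ≤
        Submodule.span (kA A) (Set.range fun b => red A N ((bL C δ.np).b b)) := by
      rw [rDiv_nsmul, ← range_lcS C H.hd (by
        rw [map_nsmul, degree_poleJ, nsmul_eq_mul] at hnp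
        exact_mod_cast hnp)]
      rintro _ ⟨w, rfl⟩
      rw [lcS_apply]
      exact Submodule.sum_mem _ fun b _ => Submodule.smul_mem _ _ (Submodule.subset_span ⟨b, rfl⟩)
    obtain ⟨_, ⟨b, rfl⟩, hb0, hbQ⟩ := exists_exact hspanp
      (Set.range_subset_iff.mpr fun b => red_mem_rr C _ ((bL C δ.np).mem b) ((bL C δ.np).int b)) Q
      ((H.hd.2 _ hnp).2.2 Q)
    have h1 := ((mem_riemannRochSpace_iff.mp (hprod b)) Q).resolve_left (mul_ne_zero h0 hb0)
    rw [Q.ord_mul h0 hb0, hbQ, ← hadd x, rDiv_add, Finsupp.add_apply] at h1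
    omega
  · rintro (⟨lφ, b⟩ | l') x
    · have hm : (fun k => mulv (fun a c k => (cst C δ.M δ.np a c k : Qb))
          (fun a => q3 l a x) (Pi.single b 1) k) ∈ wB C δ.nT (δ.E3 x) := by
        show lcB C δ.nT _ ∈ riemannRochSpace _
        rw [← lcB_mulv, ← hadd x]
        exact mem_rr_mul (hq3 x l) (lcB_mem C δ.np _)
      have h := hφ x lφ _ hm
      rw [show Sum.elim (fun _ => (0 : X → Qb)) (fun l' _ => (Pi.single l 1 : Fin u → Qb) l')
        (Sum.inl (lφ, b)) x = 0 from rfl, ← h]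
      show ∑ a, evK S hS x (MS (Sum.inl (lφ, b)) a) * q3 l a x = _
      simp only [MS, Sum.elim_inl, map_sum, map_mul, dotProduct, mulv_single, Finset.sum_mul]
      rw [Finset.sum_comm]
      refine Finset.sum_congr rfl fun k _ => Finset.sum_congr rfl fun a _ => ?_
      rw [show evK S hS x (cS C S δ.M δ.np a b k) = (cst C δ.M δ.np a b k : Qb) from rfl]
      ring
    · exact congrFun (hq3T x l) l'

end FLTAgent.Flat
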