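import Fermat.Agent.Flat.Points

/-!
The auxiliary divisor: each class has a unique effective representative, also after reduction.
-/

set_option autoImplicit false
set_option synthInstance.maxHeartbeats 400000
set_option linter.unusedSectionVars false
set_option linter.style.haveILetI false

noncomputable section

open ModularCurve AlgebraicCurve IsLocalRing

namespace FLTAgent.Flat

open FLTAgent.Reduction

variable {A : ValuationSubring Qb} {N : ℕ} [NeZero N] {ℓ : ℕ}

/-- effective representatives of the classes in `Φ`, shifted by `m Π - R` -/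
structure Rep (C : Ctx A N ℓ) (Φ : Finset (JZero N)) where
  /-- the multiple of the pole divisor -/
  m : ℕ
  /-- the auxiliary divisor -/
  R : Divisor Qb (FB N)
  R_nonneg : 0 ≤ R
  deg_R : Divisor.degree R + genusFF Qb (FB N) = m * dedekindPsi N
  R_fixed : ∀ σ ∈ A.inertiaSubgroupIn ℚ, gal N σ • R = R
  /-- the representative -/
  D : JZero N → Divisor Qb (FB N)
  D_nonneg : ∀ c ∈ Φ, 0 ≤ D c
  D_class : ∀ c ∈ Φ, ∃ E : Divisor.degZero (K := Qb) (F := FB N), Pic0.mk E = c ∧
    (E : Divisor Qb (FB N)) = D c + R - m • poleJ N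
  h0_red : ∀ c ∈ Φ, Module.finrank (kA A) (riemannRochSpace (rDiv C (D c))) = 1

theorem Rep.degree_D {C : Ctx A N ℓ} {Φ : Finset (JZero N)} (r : Rep C Φ) {c : JZero N}
    (hc : c ∈ Φ) : Divisor.degree (r.D c) = genusFF Qb (FB N) := by
  obtain ⟨E, -, hE⟩ := r.D_class c hc
  have h := Divisor.mem_degZero.mp E.2
  rw [hE, map_sub, map_add, map_nsmul, degree_poleJ, nsmul_eq_mul] at h
  have := r.deg_R
  omega

theorem Rep.eq_of_class {C : Ctx A N ℓ} {Φ : Finset (JZero N)} (r : Rep C Φ) {c : JZero N}
    (hc : c ∈ Φ) {D' : Divisor Qb (FB N)} (h0 : 0 ≤ D')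
    (hD' : ∃ E : Divisor.degZero (K := Qb) (F := FB N), Pic0.mk E = c ∧
      (E : Divisor Qb (FB N)) = D' + r.R - r.m • poleJ N) : D' = r.D c := by
  obtain ⟨E, hE, hEe⟩ := r.D_class c hc
  obtain ⟨E', hE', hEe'⟩ := hD'
  have h : -E + E' ∈ (Divisor.principal (K := Qb) (F := FB N)).addSubgroupOf _ :=
    QuotientAddGroup.eq.mp (hE.trans hE'.symm)
  rw [AddSubgroup.mem_addSubgroupOf, AddSubgroup.coe_add, AddSubgroup.coe_neg, hEe, hEe'] at h
  obtain ⟨f, hf, hfd⟩ := h
  have hval : ∀ v : PB N, v.ord f = D' v - r.D c v := fun v => by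
    rw [← hfd v]
    simp only [Finsupp.add_apply, Finsupp.sub_apply, Finsupp.neg_apply]
    ring
  have hfm : f ∈ riemannRochSpace (r.D c) := mem_riemannRochSpace_iff.mpr fun v => Or.inr (by
    have h1 : (0 : ℤ) ≤ D' v := h0 v
    rw [hval v]
    omega)
  have h1 : (1 : FB N) ∈ riemannRochSpace (r.D c) := mem_riemannRochSpace_iff.mpr fun v =>
    Or.inr (by
      have h1 : (0 : ℤ) ≤ r.D c v := r.D_nonneg c hc v
      rw [v.ord_one]
      omega)
  have := ((curveLike_B (N := N)).finite_finrank (r.D c)).1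
  have hle := finrank_le_red C (r.D c)
  rw [r.h0_red c hc] at hle
  obtain ⟨w, hw⟩ := finrank_le_one_iff.mp hle
  obtain ⟨a, ha⟩ := hw ⟨f, hfm⟩
  obtain ⟨b, hb⟩ := hw ⟨1, h1⟩
  have ha' : a • (w : FB N) = f := congrArg Subtype.val ha
  have hb' : b • (w : FB N) = 1 := congrArg Subtype.val hb
  have hb0 : b ≠ 0 := by
    rintro rfl
    rw [zero_smul] at hb'
    exact zero_ne_one hb'
  have hf' : f = algebraMap Qb (FB N) (a / b) := by
    rw [← ha', Algebra.algebraMap_eq_smul_one, ← hb', smul_smul, div_mul_cancel₀ a hb0]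
  refine Finsupp.ext fun v => ?_
  have := hval v
  rw [hf', RR.ord_algebraMap] at this
  omega

theorem CurveLike.finrank_drop {K F : Type*} [Field K] [Field F] [Algebra K F]
    (h : CurveLike K F) {D : Divisor K F} (hne : riemannRochSpace D ≠ ⊥) :
    ∃ bad : Finset (Place K F), ∀ Q, Q ∉ bad →
      Module.finrank K (riemannRochSpace (D - Finsupp.single Q 1)) + 1 =
        Module.finrank K (riemannRochSpace D) := by
  classical
  obtain ⟨f, hf, hf0⟩ := (riemannRochSpace D).exists_mem_ne_zero_of_ne_bot hne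
  obtain ⟨X, hX, -⟩ := h.div f hf0
  refine ⟨X.support ∪ D.support, fun Q hQ => ?_⟩
  rw [Finset.mem_union, not_or, Finsupp.notMem_support_iff, Finsupp.notMem_support_iff] at hQ
  have := (h.finite_finrank D).1
  have hlt : riemannRochSpace (D - Finsupp.single Q 1) < riemannRochSpace D := by
    refine lt_of_le_of_ne (rr_mono fun v => ?_) fun e => ?_
    · rw [Finsupp.sub_apply, Finsupp.single_apply]
      split_ifs <;> omega
    · have := ((mem_riemannRochSpace_iff.mp (e ▸ hf :
          f ∈ riemannRochSpace (D - Finsupp.single Q 1))) Q).resolve_left hf0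
      rw [Finsupp.sub_apply, Finsupp.single_eq_same, hQ.2, ← hX, hQ.1] at this
      omega
  have h1 := Submodule.finrank_lt_finrank_of_lt hlt
  have h2 := h.finrank_add_single (D - Finsupp.single Q 1) Q
  rw [sub_add_cancel] at h2
  omega

set_option maxHeartbeats 800000 in
theorem exists_cut (C : Ctx A N ℓ) {ι : Type*} (Φ : Finset ι) (Y : ι → Divisor (kA A) (FS A N))
    (s : ℕ) (hY : ∀ c ∈ Φ, s + 1 ≤ Module.finrank (kA A) (riemannRochSpace (Y c))) :
    ∃ R : Divisor Qb (FB N), 0 ≤ R ∧ Divisor.degree R = s ∧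
      (∀ σ ∈ A.inertiaSubgroupIn ℚ, gal N σ • R = R) ∧
      ∀ c ∈ Φ, Module.finrank (kA A) (riemannRochSpace (Y c - rDiv C R)) + s =
        Module.finrank (kA A) (riemannRochSpace (Y c)) := by
  classical
  induction s with
  | zero => exact ⟨0, le_rfl, by simp, fun σ _ => smul_zero _, fun c _ => by
      rw [show rDiv C (0 : Divisor Qb (FB N)) = 0 from Finsupp.mapDomain_zero, sub_zero, add_zero]⟩
  | succ s ih =>
    obtain ⟨R, hR0, hRd, hRf, hR⟩ := ih fun c hc => by have := hY c hc; omega
    have hne : ∀ c ∈ Φ, riemannRochSpace (Y c - rDiv C R) ≠ ⊥ := fun c hc h => by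
      have h1 := hR c hc
      rw [h, finrank_bot] at h1
      have := hY c hc
      omega
    choose! bad hbad using fun c hc => (curveLike_S C).finrank_drop (hne c hc)
    obtain ⟨bad', hbad'⟩ := exists_fixed_lift C
    haveI := infinite_PS C
    obtain ⟨Q, hQ⟩ := Infinite.exists_notMem_finset (bad' ∪ Φ.biUnion bad)
    rw [Finset.mem_union, Finset.mem_biUnion, not_or] at hQ
    push Not at hQ
    obtain ⟨P, hPQ, hPfix⟩ := hbad' Q hQ.1
    refine ⟨R + Finsupp.single P 1, add_nonneg hR0 (fun v => ?_), ?_, fun σ hσ => ?_,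
      fun c hc => ?_⟩
    · rw [Finsupp.zero_apply, Finsupp.single_apply]
      split_ifs <;> omega
    · rw [map_add, hRd, (curveLike_B (N := N)).degree_single]
      push_cast
      ring
    · rw [smul_add, hRf σ hσ]
      congr 1
      refine Finsupp.ext fun w => ?_
      rw [SemilinearAut.divisor_smul_apply, Finsupp.single_apply, Finsupp.single_apply]
      have h : gal N σ • P = P := hPfix σ hσ
      by_cases hw : P = w
      · subst hw
        rw [if_pos rfl, if_pos (by rw [eq_inv_smul_iff, h])]
      · rw [if_neg hw, if_neg fun e => hw (by rw [← h, e, smul_inv_smul])]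
    · have h1 := hbad c hc Q (hQ.2 c hc)
      rw [rDiv, Finsupp.mapDomain_add, Finsupp.mapDomain_single, hPQ, ← sub_sub]
      have := hR c hc
      simp only [rDiv] at this h1 ⊢
      omega

set_option maxHeartbeats 800000 in
theorem exists_rep (C : Ctx A N ℓ) (Φ : Finset (JZero N)) : Nonempty (Rep C Φ) := by
  classical
  obtain ⟨d0, hd0, hhigh⟩ := exists_highDeg C
  set g := genusFF Qb (FB N)
  have hψ := dedekindPsi_pos C
  set m := d0
  have hm : d0 ≤ m * dedekindPsi N := Nat.le_mul_of_pos_right _ hψ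
  choose E hE using fun c : JZero N => Pic0.mk_surjective c
  let X : JZero N → Divisor Qb (FB N) := fun c => (E c : Divisor Qb (FB N)) + m • poleJ N
  have hXdeg : ∀ c, Divisor.degree (X c) = (m * dedekindPsi N : ℕ) := fun c => by
    rw [map_add, map_nsmul, degree_poleJ, Divisor.mem_degZero.mp (E c).2, nsmul_eq_mul]
    push_cast
    ring
  have hXh : ∀ c, (Module.finrank (kA A) (riemannRochSpace (rDiv C (X c))) : ℤ) =
      (m * dedekindPsi N : ℕ) + 1 - g := fun c => by
    have := (hhigh (X c) (by rw [hXdeg]; exact_mod_cast hm)).2.1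
    rwa [hXdeg] at this
  obtain ⟨R, hR0, hRd, hRf, hR⟩ := exists_cut C Φ (fun c => rDiv C (X c))
    (m * dedekindPsi N - g) fun c _ => by have := hXh c; omega
  have hdegX : ∀ c, Divisor.degree (X c - R) = g := fun c => by
    rw [map_sub, hXdeg, hRd]; omega
  have hh0 : ∀ c ∈ Φ, Module.finrank (kA A) (riemannRochSpace (rDiv C (X c - R))) = 1 := by
    intro c hc
    have e : rDiv C (X c - R) = rDiv C (X c) - rDiv C R := by
      rw [rDiv, rDiv, rDiv, eq_sub_iff_add_eq, ← Finsupp.mapDomain_add, sub_add_cancel]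
    rw [e]
    have h1 := hR c hc
    have := hXh c
    omega
  have hsec : ∀ c, ∃ f ∈ riemannRochSpace (X c - R), f ≠ 0 := fun c => by
    refine (riemannRochSpace (X c - R)).exists_mem_ne_zero_of_ne_bot fun h => ?_
    have := ell_ge (X c - R)
    rw [h, finrank_bot, hdegX] at this
    omega
  choose f hf hf0 using hsec
  choose a u ha hu hfu using fun c => exists_scale_UG C (hf0 c)
  have hordu : ∀ c (v : PB N), v.ord (f c) = v.ord (u c) := fun c v => by
    rw [hfu, v.ord_mul ((_root_.map_ne_zero _).mpr (ha c)) ((hu c).ne_zero C),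
      RR.ord_algebraMap, zero_add]
  let D : JZero N → Divisor Qb (FB N) := fun c => X c - R + dv (u c)
  have hD0 : ∀ c, 0 ≤ D c := fun c v => by
    have := ((mem_riemannRochSpace_iff.mp (hf c)) v).resolve_left (hf0 c)
    rw [hordu] at this
    simp only [D, Finsupp.add_apply, dv_apply, Finsupp.zero_apply]
    omega
  refine ⟨{ m := m, R := R, R_nonneg := hR0, deg_R := ?_, R_fixed := hRf, D := D,
            D_nonneg := fun c _ => hD0 c, D_class := ?_, h0_red := ?_ }⟩
  · rw [hRd]
    have : g ≤ m * dedekindPsi N := by omega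
    push_cast [Nat.cast_sub this]
    ring
  · intro c _
    have hu0 := (hu c).ne_zero C
    have hprin : dv (u c) ∈ Divisor.principal (K := Qb) (F := FB N) := ⟨u c, hu0, dv_apply _⟩
    have hdeg : Divisor.degree (dv (u c)) = 0 := RR.degree_divisor hu0 (dv_apply _)
    refine ⟨E c + ⟨dv (u c), Divisor.mem_degZero.mpr hdeg⟩, ?_, ?_⟩
    · rw [Pic0.mk_add, hE]
      have : Pic0.mk (⟨dv (u c), Divisor.mem_degZero.mpr hdeg⟩ :
          Divisor.degZero (K := Qb) (F := FB N)) = 0 :=
        (QuotientAddGroup.eq_zero_iff _).mpr hprin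
      rw [this, add_zero]
    · simp only [D, X, AddSubgroup.coe_add]
      abel
  · intro c hc
    have hU := hu c
    have hdiv : ∀ Q : PS A N, rDiv C (dv (u c)) Q = Q.ord (red A N (u c)) := fun Q => by
      have := defect_eq_zero C hU Q
      rw [defect, sub_eq_zero] at this
      exact this
    have e : rDiv C (D c) = rDiv C (X c - R) + rDiv C (dv (u c)) := Finsupp.mapDomain_add
    refine le_antisymm ?_ ?_
    · rw [← hh0 c hc]
      have := finiteDimensional_S C (rDiv C (X c - R))
      have hmem : ∀ z : riemannRochSpace (rDiv C (D c)),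
          (z : FS A N) * red A N (u c) ∈ riemannRochSpace (rDiv C (X c - R)) := fun z => by
        refine mem_riemannRochSpace_iff.mpr fun Q => ?_
        by_cases hz : (z : FS A N) = 0
        · exact Or.inl (by rw [hz, zero_mul])
        right
        have h1 := ((mem_riemannRochSpace_iff.mp z.2) Q).resolve_left hz
        have h2 := DFunLike.congr_fun e Q
        rw [Finsupp.add_apply, hdiv] at h2
        rw [Q.ord_mul hz hU.2]
        omega
      exact LinearMap.finrank_le_finrank_of_injective
        (f := ((LinearMap.mulRight (kA A) (red A N (u c))).comp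
          (riemannRochSpace (rDiv C (D c))).subtype).codRestrict _ hmem)
        fun x y h => Subtype.ext (mul_right_cancel₀ hU.2 (congrArg Subtype.val h))
    · refine le_trans ?_ (finrank_le_red C (D c))
      have := ((curveLike_B (N := N)).finite_finrank (D c)).1
      rw [Nat.one_le_iff_ne_zero, Ne, Submodule.finrank_eq_zero]
      intro h
      have h1 : (1 : FB N) ∈ riemannRochSpace (D c) := mem_riemannRochSpace_iff.mpr fun v =>
        Or.inr (by
          have h1 : (0 : ℤ) ≤ D c v := hD0 c v
          rw [v.ord_one]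
          omega)
      rw [h, Submodule.mem_bot] at h1
      exact one_ne_zero h1

end FLTAgent.Flat
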