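import Fermat.Agent.Flat.Defs
import Fermat.Agent.Flat.Choice
import Fermat.Agent.Flat.Add
import Fermat.Agent.Reduction.Independence

/-!
The local model: coordinates of the spaces `L(MΠ - D_c)` and their behaviour under addition.
-/

set_option autoImplicit false
set_option linter.unusedSectionVars false
set_option linter.style.haveILetI false
set_option synthInstance.maxHeartbeats 400000

noncomputable section

open ModularCurve AlgebraicCurve IsLocalRing Matrix
open scoped Pointwise

namespace FLTAgent.Flat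

open FLTAgent.Reduction

/-- functions of one variable and products of two -/
theorem adjoin_le_span_tensor {A : ValuationSubring Reduction.Qb} {G : Type} (gens : Set (G → Reduction.Qb))
    {F : G × G → Reduction.Qb}
    (hF : F ∈ Algebra.adjoin A ((fun f (x : G × G) => f x.1) '' gens ∪
      (fun f (x : G × G) => f x.2) '' gens)) :
    F ∈ Submodule.span A
      (tensorSet ((Algebra.adjoin A gens : Subalgebra A (G → Reduction.Qb)) : Set (G → Reduction.Qb))) := by
  set B := Algebra.adjoin A gens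
  induction hF using Algebra.adjoin_induction with
  | mem F hF =>
    rcases hF with ⟨f, hf, rfl⟩ | ⟨f, hf, rfl⟩
    · exact Submodule.subset_span ⟨f, Algebra.subset_adjoin hf, 1, B.one_mem,
        funext fun x => (mul_one _).symm⟩
    · exact Submodule.subset_span ⟨1, B.one_mem, f, Algebra.subset_adjoin hf,
        funext fun x => (one_mul _).symm⟩
  | algebraMap a =>
    exact Submodule.subset_span ⟨algebraMap A (G → Reduction.Qb) a, B.algebraMap_mem a, 1, B.one_mem,
      funext fun x => (mul_one _).symm⟩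
  | add F F' _ _ h h' => exact add_mem h h'
  | mul F F' _ _ h h' =>
    have hFF := Submodule.mul_mem_mul h h'
    rw [Submodule.span_mul_span] at hFF
    refine Submodule.span_mono ?_ hFF
    rintro _ ⟨_, ⟨a, ha, b, hb, rfl⟩, _, ⟨a', ha', b', hb', rfl⟩, rfl⟩
    exact ⟨a * a', B.mul_mem ha ha', b * b', B.mul_mem hb hb',
      funext fun x => mul_mul_mul_comm _ _ _ _⟩

set_option maxHeartbeats 800000 in
/-- classes with the same reduction have representatives with the same reduction -/
theorem rDiv_eq_of_red {N : ℕ} [NeZero N] {ℓ : ℕ} {A : ValuationSubring Reduction.Qb} (C : Ctx A N ℓ)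
    {Φ : Finset (JZero N)} (r : Rep C Φ) {c d : JZero N} (hc : c ∈ Φ) (hd : d ∈ Φ)
    (h : reductionModL A N c = reductionModL A N d) : rDiv C (r.D c) = rDiv C (r.D d) := by
  obtain ⟨E, hE, hEe⟩ := r.D_class c hc
  obtain ⟨E', hE', hEe'⟩ := r.D_class d hd
  rw [← hE, ← hE', reductionModL_mk_rP C, reductionModL_mk_rP C] at h
  have h1 := QuotientAddGroup.eq.mp h
  rw [AddSubgroup.mem_addSubgroupOf, AddSubgroup.coe_add, AddSubgroup.coe_neg,
    coe_reductionDegZeroAlong, coe_reductionDegZeroAlong, hEe, hEe'] at h1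
  obtain ⟨f, hf, hfd⟩ := h1
  have e : ∀ x y : Divisor Reduction.Qb (FB N), Finsupp.mapDomain (rP C) (x - y) =
      Finsupp.mapDomain (rP C) x - Finsupp.mapDomain (rP C) y :=
    fun x y => by rw [eq_sub_iff_add_eq, ← Finsupp.mapDomain_add, sub_add_cancel]
  have hval : ∀ Q : PS A N, Q.ord f = rDiv C (r.D d) Q - rDiv C (r.D c) Q := fun Q => by
    rw [← hfd Q]
    simp only [e, Finsupp.mapDomain_add, Finsupp.add_apply, Finsupp.sub_apply, Finsupp.neg_apply]
    show _ = Finsupp.mapDomain (rP C) (r.D d) Q - Finsupp.mapDomain (rP C) (r.D c) Q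
    ring
  have hnn : ∀ {x : JZero N}, x ∈ Φ → ∀ Q, 0 ≤ rDiv C (r.D x) Q := fun {x} hx Q => by
    have h0 := rDiv_mono C (r.D_nonneg x hx) Q
    rwa [show rDiv C (0 : Divisor Reduction.Qb (FB N)) = 0 from Finsupp.mapDomain_zero,
      Finsupp.zero_apply] at h0
  haveI := finiteDimensional_S C (rDiv C (r.D c))
  have hfm : f ∈ riemannRochSpace (rDiv C (r.D c)) := mem_riemannRochSpace_iff.mpr fun Q =>
    Or.inr (by have := hnn hd Q; rw [hval Q]; omega)
  have h1m : (1 : FS A N) ∈ riemannRochSpace (rDiv C (r.D c)) := mem_riemannRochSpace_iff.mpr fun Q =>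
    Or.inr (by have := hnn hc Q; rw [Q.ord_one]; omega)
  obtain ⟨w, hw⟩ := finrank_le_one_iff.mp (r.h0_red c hc).le
  obtain ⟨a, ha⟩ := hw ⟨f, hfm⟩
  obtain ⟨b, hb⟩ := hw ⟨1, h1m⟩
  have ha' : a • (w : FS A N) = f := congrArg Subtype.val ha
  have hb' : b • (w : FS A N) = 1 := congrArg Subtype.val hb
  have hb0 : b ≠ 0 := by
    rintro rfl
    rw [zero_smul] at hb'
    exact zero_ne_one hb'
  have hf' : f = algebraMap (kA A) (FS A N) (a / b) := by
    rw [← ha', Algebra.algebraMap_eq_smul_one, ← hb', smul_smul, div_mul_cancel₀ a hb0]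
  refine Finsupp.ext fun Q => ?_
  have h2 := hval Q
  rw [hf', RR.ord_algebraMap] at h2
  omega

theorem adjoin_integral {A : ValuationSubring Reduction.Qb} {X : Type} (s : Set (X → Reduction.Qb))
    (hs : ∀ f ∈ s, ∀ x, f x ∈ A) : ∀ f ∈ Algebra.adjoin A s, ∀ x, f x ∈ A := by
  intro f hf x
  induction hf using Algebra.adjoin_induction with
  | mem f hf => exact hs f hf x
  | algebraMap a => exact a.2
  | add f g _ _ h h' => exact A.add_mem _ _ h h'
  | mul f g _ _ h h' => exact A.mul_mem _ _ h h'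

set_option maxHeartbeats 1000000 in
/-- the local model, with generators constant modulo the maximal ideal on the kernel of reduction -/
theorem exists_rawModel_conn (N : ℕ) [NeZero N] {ℓ : ℕ} (hℓ : ℓ.Prime) (hℓN : ¬ ℓ ∣ N)
    {A : ValuationSubring Reduction.Qb} (hA : A.LiesOverPrime ℓ)
    (G : Type) [AddCommGroup G] [Finite G] [DistribMulAction GalQ G]
    (φ : G →+ JZero N) (hinj : Function.Injective φ)
    (hφ : ∀ (σ : GalQ) (c : G), φ (σ • c) = σ • φ c) :
    ∃ R : RawModel G A, ∀ f ∈ R.gens, ∀ c, reductionModL A N (φ c) = 0 →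
      A.valuation (f c - f 0) < 1 := by
  classical
  have := Fintype.ofFinite G
  have C : Ctx A N ℓ := ⟨hℓ, hℓN, hA⟩
  haveI : Infinite (kA A) := IsAlgClosed.instInfinite
  set Φ : Finset (JZero N) := Finset.univ.image φ
  have hmem : ∀ c, φ c ∈ Φ := fun c => Finset.mem_image_of_mem _ (Finset.mem_univ c)
  obtain ⟨r⟩ := exists_rep C Φ
  obtain ⟨d0, hd⟩ : ∃ d0, HighDeg C d0 := exists_highDeg C
  obtain ⟨M, hM⟩ : ∃ M, M = d0 + genusFF Reduction.Qb (FB N) + 1 := ⟨_, rfl⟩
  have hψ : (M : ℤ) ≤ (M : ℤ) * dedekindPsi N :=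
    le_mul_of_one_le_right (by positivity) (by exact_mod_cast dedekindPsi_pos C)
  have hd2 := hd.1
  obtain ⟨u, hu⟩ : ∃ u : ℕ,
      (u : ℤ) = (M : ℤ) * dedekindPsi N + 1 - 2 * genusFF Reduction.Qb (FB N) :=
    ⟨((M : ℤ) * dedekindPsi N + 1 - 2 * genusFF Reduction.Qb (FB N)).toNat,
      Int.toNat_of_nonneg (by omega)⟩
  have hdegW : ∀ c, Divisor.degree (M • poleJ N - r.D (φ c)) =
      (M : ℤ) * dedekindPsi N - genusFF Reduction.Qb (FB N) := fun c => by
    rw [map_sub, map_nsmul, degree_poleJ, r.degree_D (hmem c), nsmul_eq_mul]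
  have hle : ∀ c, M • poleJ N - r.D (φ c) ≤ M • poleJ N := fun c =>
    sub_le_self _ (r.D_nonneg _ (hmem c))
  have hMd : d0 ≤ M * dedekindPsi N := by
    exact_mod_cast (show (d0 : ℤ) ≤ (M : ℤ) * dedekindPsi N by omega)
  have hdimS : ∀ c, Module.finrank (kA A) (wS C M (rDiv C (M • poleJ N - r.D (φ c)))) = u := by
    intro c
    rw [finrank_wS C hd hMd (by rw [← rDiv_nsmul]; exact rDiv_mono C (hle c))]
    have := (hd.2 _ (by rw [hdegW c]; omega : (d0 : ℤ) ≤ Divisor.degree (M • poleJ N - r.D (φ c)))).2.1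
    rw [hdegW c] at this
    omega
  have hdimB : ∀ c, u ≤ Module.finrank Reduction.Qb (wB C M (M • poleJ N - r.D (φ c))) := by
    intro c
    rw [finrank_wB C (D := M • poleJ N - r.D (φ c)) (hle c)]
    have := (hd.2 _ (by rw [hdegW c]; omega : (d0 : ℤ) ≤ Divisor.degree (M • poleJ N - r.D (φ c)))).1
    rw [hdegW c] at this
    omega
  obtain ⟨Tb, hTb⟩ := exists_common_coords
    (fun c : G => wS C M (rDiv C (M • poleJ N - r.D (φ c)))) hdimS
  choose T hTres hTfix using fun l i =>
    exists_fixed_residue hℓ hA (LinearMap.toMatrix' Tb l i)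
  set TA : Matrix (Fin u) (Fin (dimL N M)) A := Matrix.of T
  have hTA : TA.map (residue A) = LinearMap.toMatrix' Tb := Matrix.ext fun l i => hTres l i
  have hrT : rmat A (TA.map A.subtype) = LinearMap.toMatrix' Tb := by
    ext l i
    show resA A (T l i : Reduction.Qb) = _
    rw [resA_coe, hTres]
  have hN := fun c : G => exists_normalised (A := A) (wB C M (M • poleJ N - r.D (φ c)))
    (wS C M (rDiv C (M • poleJ N - r.D (φ c))))
    (fun x hx hxA => res_mem_wS C hx hxA) (hdimB c) (T := TA.map A.subtype)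
    (fun l i => (T l i).2) (fun v hv h => hTb c v hv (by
      rw [hrT, LinearMap.toMatrix'_mulVec] at h; exact h))
  choose q hqW hqT using fun c l => (hN c).2.2.2 (Pi.single l 1)
  have hqA : ∀ c l i, q c l i ∈ A := fun c l => (hN c).2.1 _ (hqW c l) fun l' => by
    rw [hqT, Pi.single_apply]; split_ifs <;> [exact A.one_mem; exact A.zero_mem]
  have hspan : ∀ c, ∀ v ∈ wB C M (M • poleJ N - r.D (φ c)),
      v ∈ Submodule.span Reduction.Qb (Set.range (q c)) := by
    intro c v hv
    have h0 : v - ∑ l, (TA.map A.subtype *ᵥ v) l • q c l = 0 := by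
      refine (hN c).1 _ ?_ ?_
      · exact sub_mem hv (Submodule.sum_mem _ fun l _ => Submodule.smul_mem _ _ (hqW c l))
      · rw [Matrix.mulVec_sub, Matrix.mulVec_sum, sub_eq_zero]
        funext l
        simp only [Matrix.mulVec_smul, hqT, Finset.sum_apply, Pi.smul_apply, Pi.single_apply,
          smul_eq_mul, mul_ite, mul_one, mul_zero, Finset.sum_ite_eq, Finset.mem_univ, if_true]
    rw [sub_eq_zero] at h0
    rw [h0]
    exact Submodule.sum_mem _ fun l _ => Submodule.smul_mem _ _ (Submodule.subset_span ⟨l, rfl⟩)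
  have hclass : ∀ c, ∀ σ ∈ A.inertiaSubgroupIn ℚ,
      gal N σ • r.D (φ c) = r.D (φ (σ • c)) := by
    intro c σ hσ
    refine r.eq_of_class (hmem _) (fun v => ?_) ?_
    · rw [Finsupp.zero_apply, SemilinearAut.divisor_smul_apply]
      exact r.D_nonneg _ (hmem c) _
    · obtain ⟨E, hE, hEe⟩ := r.D_class _ (hmem c)
      refine ⟨SemilinearAut.degZeroSMulHom (gal N σ) E, ?_, ?_⟩
      · rw [← SemilinearAut.pic0_smul_mk, hE, hφ]
        rfl
      · rw [SemilinearAut.coe_degZeroSMulHom, hEe, smul_sub, smul_add, r.R_fixed σ hσ, smul_comm,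
          gal_poleJ]
  set gens : Set (G → Reduction.Qb) := Set.range fun li : Fin u × Fin (dimL N M) => fun c => q c li.1 li.2
  have hval : ∀ f ∈ gens, ∀ c, f c ∈ A := by
    rintro _ ⟨⟨l, i⟩, rfl⟩ c
    exact hqA c l i
  refine ⟨⟨gens, Set.finite_range _, hval, ?_, ?_, ?_⟩, ?_⟩
  · -- inertia
    rintro σ hσ _ ⟨⟨l, i⟩, rfl⟩
    funext c
    show σ (q (σ⁻¹ • c) l i) = q c l i
    suffices h : (fun i => σ (q (σ⁻¹ • c) l i)) = q c l from congrFun h i
    rw [← sub_eq_zero]
    refine (hN c).1 _ (sub_mem ?_ (hqW c l)) ?_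
    · show lcB C M _ ∈ riemannRochSpace _
      rw [← gal_lcB]
      have h1 := gal_mem_rr σ (hqW (σ⁻¹ • c) l : lcB C M (q (σ⁻¹ • c) l) ∈ _)
      rwa [smul_sub, smul_comm, gal_poleJ, hclass _ σ hσ, smul_inv_smul] at h1
    · rw [Matrix.mulVec_sub, sub_eq_zero, hqT c l]
      funext l'
      have h1 := congrFun (hqT (σ⁻¹ • c) l) l'
      have h2 := congrArg σ h1
      simp only [Matrix.mulVec, dotProduct, map_sum, map_mul, Matrix.map_apply, Pi.single_apply,
        apply_ite σ, map_one, map_zero] at h2 ⊢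
      refine Eq.trans (Finset.sum_congr rfl fun j _ => ?_) h2
      show (T l' j : Reduction.Qb) * σ (q (σ⁻¹ • c) l j) = σ (T l' j : Reduction.Qb) * σ (q (σ⁻¹ • c) l j)
      rw [hTfix l' j σ hσ]
  · -- separation
    intro c d hcd
    have hq : q c = q d := funext fun l => funext fun i => hcd _ ⟨(l, i), rfl⟩
    have hrr : ∀ c d : G, q c = q d → ∀ y ∈ riemannRochSpace (M • poleJ N - r.D (φ c)),
        y ∈ riemannRochSpace (M • poleJ N - r.D (φ d)) := by
      intro c d hq y hy
      obtain ⟨x, rfl⟩ := exists_lcB C (rr_mono (hle c) hy)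
      have h1 := hspan c x hy
      rw [hq] at h1
      exact (Submodule.span_le.mpr (Set.range_subset_iff.mpr fun l => hqW d l) h1 :
        x ∈ wB C M (M • poleJ N - r.D (φ d)))
    have hDle : ∀ c d : G, q c = q d → r.D (φ d) ≤ r.D (φ c) := by
      intro c d hq v
      by_contra hlt
      push Not at hlt
      refine rr_sub_single_ne (M • poleJ N - r.D (φ c)) v (by rw [hdegW]; omega)
        (le_antisymm (rr_single_le _ _) fun y hy => ?_)
      have hy' := hrr c d hq y hy
      rw [mem_riemannRochSpace_iff] at hy hy' ⊢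
      intro w
      rcases eq_or_ne y 0 with h0 | h0
      · exact Or.inl h0
      right
      have h1 := (hy w).resolve_left h0
      have h2 := (hy' w).resolve_left h0
      simp only [Finsupp.sub_apply, Finsupp.single_apply] at h1 h2 ⊢
      split_ifs with hw
      · subst hw; omega
      · omega
    have hD : r.D (φ c) = r.D (φ d) := le_antisymm (hDle d c hq.symm) (hDle c d hq)
    apply hinj
    obtain ⟨E, hE, hEe⟩ := r.D_class _ (hmem c)
    obtain ⟨E', hE', hEe'⟩ := r.D_class _ (hmem d)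
    rw [← hE, ← hE', show E = E' from Subtype.ext (by rw [hEe, hEe', hD])]
  · -- comultiplication
    rintro _ ⟨⟨l, i⟩, rfl⟩
    set S := Algebra.adjoin A ((fun f (x : G × G) => f x.1) '' gens ∪
      (fun f (x : G × G) => f x.2) '' gens)
    have hS : ∀ f ∈ S, ∀ x, f x ∈ A := adjoin_integral _ (by
      rintro _ (⟨f, hf, rfl⟩ | ⟨f, hf, rfl⟩) x
      · exact hval f hf x.1
      · exact hval f hf x.2)
    let q1 : Fin u → Fin (dimL N M) → S := fun l i =>
      ⟨fun x => q x.1 l i, Algebra.subset_adjoin (Or.inl ⟨fun c => q c l i, ⟨(l, i), rfl⟩, rfl⟩)⟩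
    let q2 : Fin u → Fin (dimL N M) → S := fun l i =>
      ⟨fun x => q x.2 l i, Algebra.subset_adjoin (Or.inr ⟨fun c => q c l i, ⟨(l, i), rfl⟩, rfl⟩)⟩
    let δ : AddData (G × G) N :=
      ⟨M, r.m, d0, r.R, fun x => r.D (φ x.1), fun x => r.D (φ x.2), fun x => r.D (φ (x.1 + x.2))⟩
    have H : AddHyp C δ := by
      refine ⟨hd, le_of_eq hM.symm, r.R_nonneg, r.deg_R, fun x => r.D_nonneg _ (hmem _),
        fun x => r.D_nonneg _ (hmem _), fun x => r.D_nonneg _ (hmem _),
        fun x => r.degree_D (hmem _), fun x => r.degree_D (hmem _), fun x => r.degree_D (hmem _),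
        fun x => r.h0_red _ (hmem _), fun x => ?_⟩
      obtain ⟨E1, hE1, hEe1⟩ := r.D_class _ (hmem x.1)
      obtain ⟨E2, hE2, hEe2⟩ := r.D_class _ (hmem x.2)
      obtain ⟨E3, hE3, hEe3⟩ := r.D_class _ (hmem (x.1 + x.2))
      have h12 : Pic0.mk E3 = Pic0.mk (E1 + E2) := by
        rw [hE3, Pic0.mk_add, hE1, hE2, map_add]
      have h : -E3 + (E1 + E2) ∈
          (Divisor.principal (K := Reduction.Qb) (F := FB N)).addSubgroupOf _ := QuotientAddGroup.eq.mp h12
      rw [AddSubgroup.mem_addSubgroupOf, AddSubgroup.coe_add, AddSubgroup.coe_neg,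
        AddSubgroup.coe_add, hEe1, hEe2, hEe3] at h
      obtain ⟨f, hf, hfd⟩ := h
      refine ⟨f, hf, Finsupp.ext fun v => ?_⟩
      rw [dv_apply, ← hfd v]
      simp only [Finsupp.add_apply, Finsupp.sub_apply, Finsupp.neg_apply, δ]
      ring
    refine adjoin_le_span_tensor gens (F := fun x => q (x.1 + x.2) l i) ?_
    refine add_mem_algebra H S hS hu q1 q2 (fun x l => hqW x.1 l) (fun x l => hqW x.2 l)
      (fun x => ?_) (fun x => ?_) TA (fun x v hv h => hTb (x.1 + x.2) v hv ?_)
      (fun l i x => q (x.1 + x.2) l i) (fun x l => hqW (x.1 + x.2) l)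
      (fun x l => hqT (x.1 + x.2) l) l i
    · refine Fintype.linearIndependent_iff.mpr fun a ha l => ?_
      have h := congrArg (fun v => (rmat A (TA.map A.subtype) *ᵥ v) l) ha
      simp only [Matrix.mulVec_sum, Matrix.mulVec_smul, Finset.sum_apply, Pi.smul_apply,
        smul_eq_mul, Matrix.mulVec_zero, Pi.zero_apply, ← resA_evK] at h
      have hT' : ∀ l', (rmat A (TA.map A.subtype) *ᵥ fun i => resA A (q x.1 l' i)) l =
          resA A ((Pi.single l' 1 : Fin u → Reduction.Qb) l) := fun l' => by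
        rw [← rmat_mulVec (M := TA.map A.subtype) (fun l i => (T l i).2) (hqA x.1 l'), hqT]
      rw [Finset.sum_eq_single l] at h
      · have h' : a l * resA A ((Pi.single l 1 : Fin u → Reduction.Qb) l) = 0 := hT' l ▸ h
        rwa [Pi.single_eq_same, resA_one, mul_one] at h'
      · intro l' _ hl'
        show a l' * (rmat A (TA.map A.subtype) *ᵥ fun i => resA A (q x.1 l' i)) l = 0
        rw [hT' l', Pi.single_eq_of_ne (Ne.symm hl'), resA_zero, mul_zero]
      · simp
    · refine Fintype.linearIndependent_iff.mpr fun a ha l => ?_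
      have h := congrArg (fun v => (rmat A (TA.map A.subtype) *ᵥ v) l) ha
      simp only [Matrix.mulVec_sum, Matrix.mulVec_smul, Finset.sum_apply, Pi.smul_apply,
        smul_eq_mul, Matrix.mulVec_zero, Pi.zero_apply, ← resA_evK] at h
      have hT' : ∀ l', (rmat A (TA.map A.subtype) *ᵥ fun i => resA A (q x.2 l' i)) l =
          resA A ((Pi.single l' 1 : Fin u → Reduction.Qb) l) := fun l' => by
        rw [← rmat_mulVec (M := TA.map A.subtype) (fun l i => (T l i).2) (hqA x.2 l'), hqT]
      rw [Finset.sum_eq_single l] at h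
      · have h' : a l * resA A ((Pi.single l 1 : Fin u → Reduction.Qb) l) = 0 := hT' l ▸ h
        rwa [Pi.single_eq_same, resA_one, mul_one] at h'
      · intro l' _ hl'
        show a l' * (rmat A (TA.map A.subtype) *ᵥ fun i => resA A (q x.2 l' i)) l = 0
        rw [hT' l', Pi.single_eq_of_ne (Ne.symm hl'), resA_zero, mul_zero]
      · simp
    · rw [hTA, LinearMap.toMatrix'_mulVec] at h
      exact h
  · -- the kernel of reduction
    rintro _ ⟨⟨l, i⟩, rfl⟩ c hc
    have hD : rDiv C (r.D (φ c)) = rDiv C (r.D (φ 0)) :=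
      rDiv_eq_of_red C r (hmem c) (hmem 0) (by rw [map_zero φ, hc, map_zero])
    have hDM : rDiv C (M • poleJ N - r.D (φ c)) = rDiv C (M • poleJ N - r.D (φ 0)) := by
      have e : ∀ x y : Divisor Reduction.Qb (FB N), rDiv C (x - y) = rDiv C x - rDiv C y :=
        fun x y => by rw [rDiv, rDiv, rDiv, eq_sub_iff_add_eq, ← Finsupp.mapDomain_add, sub_add_cancel]
      rw [e, e, hD]
    have hdiff : (fun j => resA A (q c l j)) - (fun j => resA A (q 0 l j)) = 0 := by
      refine hTb 0 _ (sub_mem ?_ (res_mem_wS C (hqW 0 l) (hqA 0 l))) ?_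
      · rw [← hDM]; exact res_mem_wS C (hqW c l) (hqA c l)
      have h1 : ∀ c', (rmat A (TA.map A.subtype) *ᵥ fun j => resA A (q c' l j)) =
          fun l' => resA A ((Pi.single l 1 : Fin u → Reduction.Qb) l') := fun c' => funext fun l' => by
        rw [← rmat_mulVec (M := TA.map A.subtype) (fun l i => (T l i).2) (hqA c' l), hqT]
      have h2 := h1 c
      have h3 := h1 0
      rw [hrT, LinearMap.toMatrix'_mulVec] at h2 h3
      rw [map_sub, h2, h3, sub_self]
    have h4 : resA A (q c l i) = resA A (q 0 l i) := sub_eq_zero.mp (congrFun hdiff i)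
    rw [resA_of_mem (hqA c l i), resA_of_mem (hqA 0 l i), ← sub_eq_zero, ← map_sub,
      residue_eq_zero_iff] at h4
    exact (A.valuation_lt_one_iff _).mp h4

theorem exists_rawModel (N : ℕ) [NeZero N] {ℓ : ℕ} (hℓ : ℓ.Prime) (hℓN : ¬ ℓ ∣ N)
    {A : ValuationSubring Reduction.Qb} (hA : A.LiesOverPrime ℓ)
    (G : Type) [AddCommGroup G] [Finite G] [DistribMulAction GalQ G]
    (φ : G →+ JZero N) (hinj : Function.Injective φ)
    (hφ : ∀ (σ : GalQ) (c : G), φ (σ • c) = σ • φ c) : Nonempty (RawModel G A) :=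
  let ⟨R, _⟩ := exists_rawModel_conn N hℓ hℓN hA G φ hinj hφ
  ⟨R⟩

end FLTAgent.Flat
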