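import Fermat.Agent.Flat.Descent
import Fermat.Agent.Flat.Model
import Fermat.Agent.Attach.Interface
import Fermat.Agent.HeckeJ.Level
import Fermat.Agent.Alg.Frobenius

/-!
Finite flat models over `ℤ_(ℓ)` of finite Galois modules embedded in powers of `J₀(N)`, `ℓ ∤ N`.
-/

set_option autoImplicit false
set_option linter.style.haveILetI false

noncomputable section

open ModularCurve AlgebraicCurve

namespace FLTAgent.Flat

variable {N : ℕ} [NeZero N]

theorem finite_torsion (n : ℕ) (hn : 0 < n) : {x : JZero N | n • x = 0}.Finite := by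
  classical
  haveI : NeZero n := ⟨hn.ne'⟩
  obtain ⟨D⟩ := FLTAgent.Attach.exists_heckeLattice N
  let b := Module.Free.chooseBasis ℤ D.Lam
  refine (Set.finite_range fun c : Module.Free.ChooseBasisIndex ℤ D.Lam → Fin n =>
    D.tors n (∑ i, ((c i : ℕ) : ℤ) • b i)).subset fun x (hx : n • x = 0) => ?_
  obtain ⟨v, rfl⟩ := (D.nsmul_eq_zero_iff n hn x).mp hx
  refine ⟨fun i => ⟨((b.repr v i) % (n : ℤ)).toNat, by
    have := Int.emod_lt_of_pos (b.repr v i) (show (0 : ℤ) < n by exact_mod_cast hn)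
    omega⟩, ?_⟩
  show D.tors n _ = D.tors n v
  rw [← sub_eq_zero, ← map_sub, D.tors_eq_zero_iff n hn]
  refine ⟨-∑ i, (b.repr v i / (n : ℤ)) • b i, ?_⟩
  conv_lhs => arg 2; rw [← b.sum_repr v]
  rw [← Finset.sum_sub_distrib, smul_neg, Finset.smul_sum, ← Finset.sum_neg_distrib]
  refine Finset.sum_congr rfl fun i _ => ?_
  rw [← sub_smul, smul_smul, ← neg_smul]
  congr 1
  have h1 := Int.emod_nonneg (b.repr v i) (show (n : ℤ) ≠ 0 by exact_mod_cast hn.ne')
  rw [Fin.val_mk, Int.toNat_of_nonneg h1, Int.emod_def]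
  ring

/-- finite Galois modules inside powers of `J₀(N)` are flat at `ℓ ∤ N` -/
theorem hasFlatModel_of_embedding {ℓ : ℕ} [Fact ℓ.Prime] (hℓN : ¬ ℓ ∣ N) (G : Type)
    [AddCommGroup G] [Finite G] [DistribMulAction GalQ G] {ι : Type} [Finite ι]
    (φ : ι → G →+ JZero N) (hinj : ∀ c d : G, (∀ i, φ i c = φ i d) → c = d)
    (hφ : ∀ i (σ : GalQ) (c : G), φ i (σ • c) = σ • φ i c) : HasFlatModel G ℓ := by
  classical
  letI : Fintype ι := Fintype.ofFinite ι
  obtain ⟨A, -, hA, -⟩ := FLTAgent.Alg.exists_place_frobenius ℓ (Fact.out : ℓ.Prime)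
  let Ψ : (ι → G) →+ JZero N := ∑ i, (φ i).comp (Pi.evalAddMonoidHom (fun _ : ι => G) i)
  have hΨ : ∀ g, Ψ g = ∑ i, φ i (g i) := fun g => by simp [Ψ, AddMonoidHom.finsetSum_apply]
  have hmem : ∀ (σ : GalQ) (x : Ψ.range), σ • (x : JZero N) ∈ Ψ.range := by
    rintro σ ⟨_, g, rfl⟩
    refine ⟨fun i => σ • g i, ?_⟩
    show Ψ _ = σ • Ψ g
    rw [hΨ, hΨ, Finset.smul_sum]
    simp only [hφ]
  letI : SMul GalQ Ψ.range := ⟨fun σ x => ⟨σ • (x : JZero N), hmem σ x⟩⟩
  letI : DistribMulAction GalQ Ψ.range :=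
    { one_smul := fun x => Subtype.ext (one_smul GalQ (x : JZero N))
      mul_smul := fun σ τ x => Subtype.ext (mul_smul σ τ (x : JZero N))
      smul_zero := fun σ => Subtype.ext (smul_zero σ)
      smul_add := fun σ x y => Subtype.ext (smul_add σ (x : JZero N) (y : JZero N)) }
  haveI : Finite Ψ.range := (Set.finite_range Ψ).to_subtype
  have hsub : ∀ i c, φ i c ∈ Ψ.range := fun i c => ⟨Pi.single i c, by
    rw [hΨ, Finset.sum_eq_single i (fun j _ hj => by simp [Pi.single_eq_of_ne hj])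
      (fun h => absurd (Finset.mem_univ i) h), Pi.single_eq_same]⟩
  obtain ⟨R⟩ := exists_rawModel N (Fact.out : ℓ.Prime) hℓN hA Ψ.range Ψ.range.subtype
    Subtype.val_injective fun σ c => rfl
  obtain ⟨R'⟩ := rawModel_pullback (G := Ψ.range)
    (fun i => (φ i).codRestrict Ψ.range (hsub i))
    (fun i σ c => Subtype.ext (hφ i σ c))
    (fun c d h => hinj c d fun i => congrArg Subtype.val (h i)) R
  refine hasFlatModel_of_rawModel (fun c => ?_) hA R'
  choose L hL hfix using fun i => FLTAgent.HeckeJ.exists_level' (φ i c)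
  haveI := fun i => hL i
  refine ⟨⨆ i, L i, inferInstance, fun σ hσ => hinj _ _ fun i => ?_⟩
  rw [hφ]
  exact hfix i σ fun y hy => hσ y (le_iSup L i hy)

end FLTAgent.Flat
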