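import Fermat.Prelude.Def_GaloisRep_Flat
import Fermat.Prelude.Def_ModularCurve_ArithmeticGalois
import Mathlib

/-!
Area Flat (owner: helper4): finite flat models over `ℤ_(ℓ)` of finite Galois modules of `J₀(N)`.

A `RawModel` is the output of the geometry at one place `A` above `ℓ`: finitely many `A`-valued
functions on the group, equivariant for the inertia group at `A`, separating points, whose
`A`-algebra is closed under comultiplication. The descent turns it into a Hopf algebra over
`ℤ_(ℓ)`.
-/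

set_option autoImplicit false

noncomputable section

namespace FLTAgent.Flat

/-- `ℚ̄` -/
abbrev Qb : Type := AlgebraicClosure ℚ

/-- the absolute Galois group -/
abbrev GalQ : Type := Qb ≃ₐ[ℚ] Qb

section

variable (G : Type) [AddCommGroup G] [DistribMulAction GalQ G]

/-- `c ↦ σ (f (σ⁻¹ c))` -/
def conjF {G : Type} [AddCommGroup G] [DistribMulAction GalQ G] (σ : GalQ) (f : G → Qb) : G → Qb :=
  fun c => σ (f (σ⁻¹ • c))

/-- every element is fixed by the automorphisms fixing some number field -/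
def IsContinuousModule : Prop :=
  ∀ c : G, ∃ L : IntermediateField ℚ Qb, FiniteDimensional ℚ L ∧
    ∀ σ : GalQ, (∀ y ∈ L, σ y = y) → σ • c = c

/-- `G` is the module of `ℚ̄`-points of a finite flat commutative group scheme over `ℤ_(ℓ)` -/
def HasFlatModel (ℓ : ℕ) : Prop :=
  ∃ (H : Type) (_ : CommRing H) (_ : HopfAlgebra (GaloisRep.ratLocalizedAt ℓ) H),
    Module.Finite (GaloisRep.ratLocalizedAt ℓ) H ∧ Module.Flat (GaloisRep.ratLocalizedAt ℓ) H ∧
    Coalgebra.IsCocomm (GaloisRep.ratLocalizedAt ℓ) H ∧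
    ∃ e : WithConv (H →ₐ[GaloisRep.ratLocalizedAt ℓ] Qb) ≃ G,
      (∀ f g, e (f * g) = e f + e g) ∧
      ∀ (σ : GalQ) (f g : WithConv (H →ₐ[GaloisRep.ratLocalizedAt ℓ] Qb)),
        (∀ h : H, g h = σ (f h)) → e g = σ • e f

/-- the functions `(c, d) ↦ a c * b d`, `a`, `b` in a set of functions -/
def tensorSet {G : Type} (S : Set (G → Qb)) : Set (G × G → Qb) :=
  {F | ∃ a ∈ S, ∃ b ∈ S, F = fun x => a x.1 * b x.2}

/-- what the geometry provides at a place `A` -/
structure RawModel (A : ValuationSubring Qb) where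
  /-- the generators -/
  gens : Set (G → Qb)
  finite : gens.Finite
  val_mem : ∀ f ∈ gens, ∀ c, f c ∈ A
  inertia : ∀ σ ∈ A.inertiaSubgroupIn ℚ, ∀ f ∈ gens, conjF σ f = f
  separates : ∀ c d : G, (∀ f ∈ gens, f c = f d) → c = d
  comul : ∀ f ∈ gens, (fun x : G × G => f (x.1 + x.2)) ∈
    Submodule.span A (tensorSet ((Algebra.adjoin A gens : Subalgebra A (G → Qb)) : Set (G → Qb)))

end

end FLTAgent.Flat
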