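import Fermat.Agent.Flat.DescentHopf

/-!
From local models at one place to a finite flat Hopf algebra over `ℤ_(ℓ)` (no geometry).

Route: make the model stable under the decomposition group (take the finitely many conjugates of
the generators).  A function fixed by inertia is an `A`-combination, by finite Fourier over roots
of unity of order prime to `ℓ`, of functions fixed by the decomposition group (compactness: some
finite level of roots of unity cuts out inertia modulo an open subgroup); those are congruent to
`Γ`-equivariant ones modulo every power of `ℓ` (an element of a finite level close to `1` at `A`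
and to `0` at the other places over `ℓ`).
-/

set_option autoImplicit false
set_option linter.style.haveILetI false

noncomputable section

namespace FLTAgent.Flat

variable {G : Type} [AddCommGroup G] [Finite G] [DistribMulAction GalQ G]

theorem hasFlatModel_of_rawModel (hG : IsContinuousModule G) {ℓ : ℕ} [Fact ℓ.Prime]
    {A : ValuationSubring Qb} (hA : A.LiesOverPrime ℓ) (R : RawModel G A) : HasFlatModel G ℓ := by
  obtain ⟨F⟩ := exists_frame hG hA R
  exact hasFlatModel_of_frame hA F

/-- models pull back along jointly injective families of equivariant homomorphisms -/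
theorem rawModel_pullback {G' : Type} [AddCommGroup G'] [Finite G'] [DistribMulAction GalQ G']
    {ι : Type} [Finite ι] (φ : ι → G' →+ G) (hφ : ∀ i (σ : GalQ) c, φ i (σ • c) = σ • φ i c)
    (hinj : ∀ c d : G', (∀ i, φ i c = φ i d) → c = d) {A : ValuationSubring Qb}
    (R : RawModel G A) : Nonempty (RawModel G' A) := by
  refine ⟨{ gens := Set.range (fun p : ι × R.gens => fun c => (p.2 : G → Qb) (φ p.1 c))
            finite := ?_
            val_mem := ?_
            inertia := ?_
            separates := ?_
            comul := ?_ }⟩
  · haveI := R.finite.to_subtype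
    exact Set.finite_range _
  · rintro _ ⟨⟨i, f, hf⟩, rfl⟩ c
    exact R.val_mem f hf _
  · rintro σ hσ _ ⟨⟨i, f, hf⟩, rfl⟩
    funext c
    have h := congrFun (R.inertia σ hσ f hf) (φ i c)
    rw [conjF_apply, ← hφ] at h
    exact h
  · intro c d h
    exact hinj c d fun i => R.separates _ _ fun f hf => h _ ⟨(i, ⟨f, hf⟩), rfl⟩
  · rintro _ ⟨⟨i, f, hf⟩, rfl⟩
    set S : Set (G' → Qb) := Set.range (fun p : ι × R.gens => fun c => (p.2 : G → Qb) (φ p.1 c))
    have hsub : ∀ u ∈ funAlg A R.gens, (fun c => u (φ i c)) ∈ funAlg A S := by
      intro u hu
      induction hu using Algebra.adjoin_induction with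
      | mem x hx => exact Algebra.subset_adjoin ⟨(i, ⟨x, hx⟩), rfl⟩
      | algebraMap r => exact Subalgebra.algebraMap_mem _ r
      | add x y _ _ hx hy => exact add_mem hx hy
      | mul x y _ _ hx hy => exact mul_mem hx hy
    have key : ∀ F ∈ Submodule.span A (tensorSet (funAlg A R.gens : Set (G → Qb))),
        (fun x : G' × G' => F (φ i x.1, φ i x.2)) ∈
          Submodule.span A (tensorSet (funAlg A S : Set (G' → Qb))) := by
      intro F hF
      induction hF using Submodule.span_induction with
      | mem x hx =>
        obtain ⟨a, ha, b, hb, rfl⟩ := hx
        exact Submodule.subset_span ⟨_, hsub a ha, _, hsub b hb, rfl⟩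
      | zero => exact zero_mem _
      | add x y _ _ hx hy => exact add_mem hx hy
      | smul r x _ hx => exact Submodule.smul_mem _ r hx
    convert! key _ (R.comul f hf) using 1
    funext x
    simp

end FLTAgent.Flat
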