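import Fermat.Agent.Flat.DescentSpan

/-!
The finite flat Hopf algebra of equivariant functions attached to a `Frame`.
-/

set_option autoImplicit false
set_option linter.style.haveILetI false
set_option linter.unusedSectionVars false

noncomputable section

open scoped TensorProduct

namespace FLTAgent.Flat

variable (ℓ : ℕ)

/-- `ℤ_(ℓ)` -/
abbrev Rl : Type := GaloisRep.ratLocalizedAt ℓ

variable {ℓ}

lemma rl_indep {X ι : Type} [Fintype ι] {v : ι → X → Qb} (h : LinearIndependent Qb v) :
    LinearIndependent (Rl ℓ) v := by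
  rw [Fintype.linearIndependent_iff] at h ⊢
  intro a ha i
  have := h (fun i => algebraMap (Rl ℓ) Qb (a i)) (by
    rw [← ha]
    funext x
    simp [Algebra.smul_def]) i
  exact Subtype.ext ((algebraMap ℚ Qb).injective (this.trans (map_zero _).symm))

section general

variable {X Y : Type} {B C : Type} [Semiring B] [Semiring C] [Algebra (Rl ℓ) B] [Algebra (Rl ℓ) C]

/-- precomposition -/
def precomp (φ : X → Y) : (Y → Qb) →ₐ[Rl ℓ] (X → Qb) :=
  AlgHom.pi fun x => Pi.evalAlgHom (Rl ℓ) (fun _ : Y => Qb) (φ x)

lemma precomp_apply (φ : X → Y) (f : Y → Qb) (x : X) : precomp (ℓ := ℓ) φ f x = f (φ x) := rfl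

/-- `b ⊗ c ↦ ((x, y) ↦ f b x * g c y)` -/
def mulFun (f : B →ₐ[Rl ℓ] (X → Qb)) (g : C →ₐ[Rl ℓ] (Y → Qb)) :
    B ⊗[Rl ℓ] C →ₐ[Rl ℓ] (X × Y → Qb) :=
  Algebra.TensorProduct.lift ((precomp Prod.fst).comp f) ((precomp Prod.snd).comp g)
    fun _ _ => Commute.all _ _

lemma mulFun_tmul (f : B →ₐ[Rl ℓ] (X → Qb)) (g : C →ₐ[Rl ℓ] (Y → Qb)) (b : B) (c : C) (p : X × Y) :
    mulFun f g (b ⊗ₜ c) p = f b p.1 * g c p.2 := by
  simp [mulFun, precomp_apply]

lemma prod_indep {ι κ : Type} [Fintype ι] [Fintype κ] {u : ι → X → Qb} {v : κ → Y → Qb}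
    (hu : LinearIndependent Qb u) (hv : LinearIndependent Qb v) :
    LinearIndependent Qb fun p : ι × κ => fun x : X × Y => u p.1 x.1 * v p.2 x.2 := by
  rw [Fintype.linearIndependent_iff] at hu hv ⊢
  intro a ha
  rintro ⟨i, j⟩
  refine hu (fun i => a (i, j)) ?_ i
  funext x
  have h1 := hv (fun j => ∑ i, a (i, j) * u i x) (funext fun y => by
    have h := congrFun ha (x, y)
    simp only [Finset.sum_apply, Pi.smul_apply, smul_eq_mul, Fintype.sum_prod_type,
      Pi.zero_apply] at h ⊢
    rw [← h, Finset.sum_comm]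
    simp only [Finset.sum_mul, mul_assoc]) j
  simpa [Finset.sum_apply, smul_eq_mul] using h1

lemma injective_of_basis_indep {ι : Type} [Fintype ι] {M : Type} [AddCommMonoid M]
    [Module (Rl ℓ) M] (b : Module.Basis ι (Rl ℓ) M) (f : M →ₗ[Rl ℓ] (X → Qb))
    (h : LinearIndependent Qb (f ∘ b)) : Function.Injective f := by
  intro s t hst
  apply b.repr.injective
  apply linearIndependent_iff_injective_finsuppLinearCombination.mp (rl_indep (ℓ := ℓ) h)
  rw [← Finsupp.apply_linearCombination, ← Finsupp.apply_linearCombination,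
    b.linearCombination_repr, b.linearCombination_repr, hst]

lemma mulFun_indep {ι κ : Type} [Fintype ι] [Fintype κ] (bB : Module.Basis ι (Rl ℓ) B)
    (bC : Module.Basis κ (Rl ℓ) C) (f : B →ₐ[Rl ℓ] (X → Qb)) (g : C →ₐ[Rl ℓ] (Y → Qb))
    (hf : LinearIndependent Qb (f ∘ bB)) (hg : LinearIndependent Qb (g ∘ bC)) :
    LinearIndependent Qb (mulFun f g ∘ bB.tensorProduct bC) := by
  have e : (mulFun f g ∘ bB.tensorProduct bC) =
      fun p : ι × κ => fun x : X × Y => (f ∘ bB) p.1 x.1 * (g ∘ bC) p.2 x.2 := by
    funext p x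
    simp [Module.Basis.tensorProduct_apply', mulFun_tmul]
  rw [e]
  exact prod_indep hf hg

lemma mulFun_injective {ι κ : Type} [Fintype ι] [Fintype κ] (bB : Module.Basis ι (Rl ℓ) B)
    (bC : Module.Basis κ (Rl ℓ) C) (f : B →ₐ[Rl ℓ] (X → Qb)) (g : C →ₐ[Rl ℓ] (Y → Qb))
    (hf : LinearIndependent Qb (f ∘ bB)) (hg : LinearIndependent Qb (g ∘ bC)) :
    Function.Injective (mulFun f g) :=
  injective_of_basis_indep (bB.tensorProduct bC) (mulFun f g).toLinearMap
    (mulFun_indep bB bC f g hf hg)

end general

variable {A : ValuationSubring Qb} [hℓ : Fact ℓ.Prime]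

lemma exists_rl_of_fixed (hA : A.LiesOverPrime ℓ) {x : Qb} (hx : x ∈ A)
    (hfix : ∀ σ : GalQ, σ x = x) : ∃ r : Rl ℓ, algebraMap (Rl ℓ) Qb r = x := by
  haveI := Common.isGalois_qbar
  obtain ⟨q, rfl⟩ := (InfiniteGalois.mem_range_algebraMap_iff_fixed (k := ℚ) x).mpr hfix
  refine ⟨⟨q, den_coprime_of_mem hA ?_⟩, rfl⟩
  rwa [eq_ratCast] at hx

lemma coeff_rational (hA : A.LiesOverPrime ℓ) {X : Type} [AddCommGroup X] [DistribMulAction GalQ X]
    {ι : Type} [Fintype ι] {v : ι → X → Qb} (hv : LinearIndependent Qb v)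
    (hfix : ∀ i σ, conjF σ (v i) = v i) {f : X → Qb} (hf : f ∈ Submodule.span A (Set.range v))
    (hff : ∀ σ, conjF σ f = f) : f ∈ Submodule.span (Rl ℓ) (Set.range v) := by
  obtain ⟨a, rfl⟩ := (Submodule.mem_span_range_iff_exists_fun A).mp hf
  have key : ∀ i, ∀ σ : GalQ, σ (a i : Qb) = a i := by
    intro i σ
    have h := hff σ
    rw [← conjHom_apply, map_sum] at h
    have h' : ∑ j, (σ (a j : Qb) - a j) • v j = 0 := by
      simp only [sub_smul, Finset.sum_sub_distrib, sub_eq_zero]
      convert! h using 1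
      refine Finset.sum_congr rfl fun j _ => ?_
      rw [conjHom_apply, smul_eq_coe_smul, conjF_smul, hfix]
    exact sub_eq_zero.mp (Fintype.linearIndependent_iff.mp hv _ h' i)
  choose r hr using fun i => exists_rl_of_fixed hA (a i).2 (key i)
  refine (Submodule.mem_span_range_iff_exists_fun (Rl ℓ)).mpr
    ⟨r, Finset.sum_congr rfl fun i _ => ?_⟩
  funext x
  simp [Algebra.smul_def, hr]

variable {G : Type} [AddCommGroup G] [DistribMulAction GalQ G] (hA : A.LiesOverPrime ℓ)
  (F : Frame G A)

/-- the equivariant functions in the algebra of a frame -/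
def descAlg : Subalgebra (Rl ℓ) (G → Qb) where
  carrier := {f | f ∈ F.alg ∧ ∀ σ, conjF σ f = f}
  mul_mem' {f g} hf hg := ⟨mul_mem hf.1 hg.1, fun σ => by
    rw [← conjHom_apply, map_mul, conjHom_apply, conjHom_apply, hf.2, hg.2]⟩
  one_mem' := ⟨one_mem _, fun σ => by rw [← conjHom_apply, map_one]⟩
  add_mem' {f g} hf hg := ⟨add_mem hf.1 hg.1, fun σ => by
    rw [← conjHom_apply, map_add, conjHom_apply, conjHom_apply, hf.2, hg.2]⟩
  zero_mem' := ⟨zero_mem _, fun σ => by rw [← conjHom_apply, map_zero]⟩
  algebraMap_mem' r := ⟨F.alg.algebraMap_mem ⟨_, ratLocalized_mem hℓ.out hA r⟩,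
    fun σ => funext fun _ => σ.commutes (r : ℚ)⟩

/-- the basis vectors as elements of `descAlg` -/
def descVec (i : Fin F.n) : descAlg hA F :=
  ⟨F.vec i, by
    refine ⟨?_, F.fixed i⟩
    rw [← Subalgebra.mem_toSubmodule, ← F.span_eq]
    exact Submodule.subset_span ⟨i, rfl⟩⟩

lemma descAlg_mem_span {f : G → Qb} (hf : f ∈ descAlg hA F) :
    f ∈ Submodule.span (Rl ℓ) (Set.range F.vec) :=
  coeff_rational hA F.indep F.fixed (by rw [F.span_eq]; exact hf.1) hf.2

/-- the basis of `descAlg` -/
def descBasis : Module.Basis (Fin F.n) (Rl ℓ) (descAlg hA F) :=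
  Module.Basis.mk (v := descVec hA F)
    (LinearIndependent.of_comp (descAlg hA F).val.toLinearMap
      (rl_indep F.indep))
    (fun f _ => by
      obtain ⟨a, ha⟩ := (Submodule.mem_span_range_iff_exists_fun (Rl ℓ)).mp
        (descAlg_mem_span hA F f.2)
      refine (Submodule.mem_span_range_iff_exists_fun (Rl ℓ)).mpr ⟨a, Subtype.ext ?_⟩
      rw [← ha]
      simp [descVec])

lemma val_descBasis : (descAlg hA F).val ∘ descBasis hA F = F.vec :=
  funext fun i => by simp [descBasis, descVec]

lemma descBasis_indep : LinearIndependent Qb ((descAlg hA F).val ∘ descBasis hA F) := by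
  rw [val_descBasis]
  exact F.indep

/-- `H ⊗ H` as functions on `G × G` -/
def pairFun : descAlg hA F ⊗[Rl ℓ] descAlg hA F →ₐ[Rl ℓ] (G × G → Qb) :=
  mulFun (descAlg hA F).val (descAlg hA F).val

lemma pairFun_tmul (f g : descAlg hA F) (p : G × G) :
    pairFun hA F (f ⊗ₜ g) p = (f : G → Qb) p.1 * (g : G → Qb) p.2 :=
  mulFun_tmul _ _ f g p

lemma pairFun_injective : Function.Injective (pairFun hA F) :=
  mulFun_injective (descBasis hA F) (descBasis hA F) _ _ (descBasis_indep hA F)
    (descBasis_indep hA F)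

lemma tripleFun_injective :
    Function.Injective (mulFun (descAlg hA F).val (pairFun hA F)) :=
  mulFun_injective (descBasis hA F) ((descBasis hA F).tensorProduct (descBasis hA F)) _ _
    (descBasis_indep hA F)
    (mulFun_indep _ _ _ _ (descBasis_indep hA F) (descBasis_indep hA F))

lemma comul_mem_range (f : descAlg hA F) :
    precomp (ℓ := ℓ) (fun p : G × G => p.1 + p.2) (f : G → Qb) ∈ (pairFun hA F).range := by
  have h := coeff_rational hA (prod_indep F.indep F.indep) (fun p σ => funext fun x => by
      have h1 := congrFun (F.fixed p.1 σ) x.1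
      have h2 := congrFun (F.fixed p.2 σ) x.2
      simp only [conjF_apply] at h1 h2 ⊢
      rw [map_mul]
      exact congrArg₂ (· * ·) h1 h2)
    (F.comul f f.2.1) (fun σ => funext fun x => by
      have h := congrFun (f.2.2 σ) (x.1 + x.2)
      simp only [conjF_apply, smul_add] at h ⊢
      exact h)
  refine (Submodule.span_le (p := Subalgebra.toSubmodule (pairFun hA F).range)).mpr ?_ h
  rintro _ ⟨p, rfl⟩
  exact ⟨descVec hA F p.1 ⊗ₜ descVec hA F p.2, funext fun x => pairFun_tmul hA F _ _ x⟩

/-- the comultiplication -/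
def descComul : descAlg hA F →ₐ[Rl ℓ] descAlg hA F ⊗[Rl ℓ] descAlg hA F :=
  (AlgEquiv.ofInjective (pairFun hA F) (pairFun_injective hA F)).symm.toAlgHom.comp
    (((precomp fun p : G × G => p.1 + p.2).comp (descAlg hA F).val).codRestrict _
      (comul_mem_range hA F))

lemma pairFun_descComul (f : descAlg hA F) (p : G × G) :
    pairFun hA F (descComul hA F f) p = (f : G → Qb) (p.1 + p.2) := by
  have h := AlgEquiv.apply_symm_apply (AlgEquiv.ofInjective (pairFun hA F) (pairFun_injective hA F))
    (((precomp fun p : G × G => p.1 + p.2).comp (descAlg hA F).val).codRestrict _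
      (comul_mem_range hA F) f)
  exact congrFun (congrArg Subtype.val h) p

lemma eval_zero_mem_range (f : descAlg hA F) :
    (f : G → Qb) 0 ∈ (Algebra.ofId (Rl ℓ) Qb).range := by
  obtain ⟨r, hr⟩ := exists_rl_of_fixed hA (F.val _ f.2.1 0) (fun σ => by
    have h := congrFun (f.2.2 σ) 0
    rwa [conjF_apply, smul_zero] at h)
  exact ⟨r, hr⟩

lemma ofId_injective : Function.Injective (Algebra.ofId (Rl ℓ) Qb) :=
  fun _ _ h => Subtype.ext ((algebraMap ℚ Qb).injective h)

/-- the counit -/
def descCounit : descAlg hA F →ₐ[Rl ℓ] Rl ℓ :=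
  (AlgEquiv.ofInjective (Algebra.ofId (Rl ℓ) Qb) ofId_injective).symm.toAlgHom.comp
    (((Pi.evalAlgHom (Rl ℓ) (fun _ : G => Qb) 0).comp (descAlg hA F).val).codRestrict _
      (eval_zero_mem_range hA F))

lemma descCounit_apply (f : descAlg hA F) :
    algebraMap (Rl ℓ) Qb (descCounit hA F f) = (f : G → Qb) 0 := by
  have h := AlgEquiv.apply_symm_apply
    (AlgEquiv.ofInjective (Algebra.ofId (Rl ℓ) Qb) ofId_injective)
    (((Pi.evalAlgHom (Rl ℓ) (fun _ : G => Qb) 0).comp (descAlg hA F).val).codRestrict _
      (eval_zero_mem_range hA F) f)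
  exact congrArg Subtype.val h

lemma comp_nsmul_mem (n : ℕ) :
    ∀ f : descAlg hA F, (fun c => (f : G → Qb) (n • c)) ∈ descAlg hA F := by
  induction n with
  | zero =>
    intro f
    have : (fun c : G => (f : G → Qb) (0 • c)) =
        algebraMap (Rl ℓ) (G → Qb) (descCounit hA F f) :=
      funext fun c => by rw [zero_smul, Pi.algebraMap_apply, descCounit_apply]
    rw [this]
    exact (descAlg hA F).algebraMap_mem _
  | succ n ih =>
    intro f
    have key : ∀ t, (fun c => pairFun hA F t (n • c, c)) ∈ descAlg hA F := by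
      intro t
      induction t using TensorProduct.induction_on with
      | zero => simp only [map_zero, Pi.zero_apply]; exact zero_mem _
      | tmul u v =>
        simp only [pairFun_tmul]
        exact mul_mem (ih u) v.2
      | add s t hs ht => simp only [map_add, Pi.add_apply]; exact add_mem hs ht
    have h := key (descComul hA F f)
    simp only [pairFun_descComul] at h
    simpa only [succ_nsmul] using h

lemma comp_neg_mem [Finite G] (f : descAlg hA F) :
    precomp (ℓ := ℓ) (fun c : G => -c) (f : G → Qb) ∈ descAlg hA F := by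
  letI : Fintype G := Fintype.ofFinite G
  have h := comp_nsmul_mem hA F (Fintype.card G - 1) f
  have e : ∀ c : G, (Fintype.card G - 1) • c = -c := fun c => by
    rw [eq_neg_iff_add_eq_zero, ← succ_nsmul, Nat.sub_add_cancel Fintype.card_pos]
    exact card_nsmul_eq_zero
  simpa only [e] using! h

/-- the antipode -/
def descAnti [Finite G] : descAlg hA F →ₐ[Rl ℓ] descAlg hA F :=
  ((precomp fun c : G => -c).comp (descAlg hA F).val).codRestrict _ (comp_neg_mem hA F)

lemma descAnti_apply [Finite G] (f : descAlg hA F) (c : G) :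
    (descAnti hA F f : G → Qb) c = (f : G → Qb) (-c) := rfl

lemma desc_coassoc :
    (Algebra.TensorProduct.assoc (Rl ℓ) (Rl ℓ) (Rl ℓ) (descAlg hA F) (descAlg hA F)
        (descAlg hA F)).toAlgHom.comp
      ((Algebra.TensorProduct.map (descComul hA F) (AlgHom.id (Rl ℓ) (descAlg hA F))).comp (descComul hA F)) =
      (Algebra.TensorProduct.map (AlgHom.id (Rl ℓ) (descAlg hA F)) (descComul hA F)).comp (descComul hA F) := by
  refine AlgHom.ext fun f => tripleFun_injective hA F (funext fun ⟨a, b, c⟩ => ?_)
  have h1 : ∀ s v, mulFun (descAlg hA F).val (pairFun hA F)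
      (Algebra.TensorProduct.assoc (Rl ℓ) (Rl ℓ) (Rl ℓ) (descAlg hA F) (descAlg hA F)
        (descAlg hA F) (s ⊗ₜ v)) (a, b, c) = pairFun hA F s (a, b) * (v : G → Qb) c := by
    intro s v
    induction s using TensorProduct.induction_on with
    | zero => simp
    | tmul p q => simp [mulFun_tmul, pairFun_tmul, mul_assoc]
    | add s t hs ht => simp only [TensorProduct.add_tmul, map_add, Pi.add_apply, hs, ht, add_mul]
  have hL : ∀ t, mulFun (descAlg hA F).val (pairFun hA F)
      (Algebra.TensorProduct.assoc (Rl ℓ) (Rl ℓ) (Rl ℓ) (descAlg hA F) (descAlg hA F)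
        (descAlg hA F) (Algebra.TensorProduct.map (descComul hA F) (AlgHom.id (Rl ℓ) (descAlg hA F)) t)) (a, b, c) =
      pairFun hA F t (a + b, c) := by
    intro t
    induction t using TensorProduct.induction_on with
    | zero => simp
    | tmul u v =>
      rw [Algebra.TensorProduct.map_tmul, AlgHom.id_apply, h1, pairFun_descComul, pairFun_tmul]
    | add s t hs ht => simp only [map_add, Pi.add_apply, hs, ht]
  have hR : ∀ t, mulFun (descAlg hA F).val (pairFun hA F)
      (Algebra.TensorProduct.map (AlgHom.id (Rl ℓ) (descAlg hA F)) (descComul hA F) t) (a, b, c) =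
      pairFun hA F t (a, b + c) := by
    intro t
    induction t using TensorProduct.induction_on with
    | zero => simp
    | tmul u v => simp [mulFun_tmul, pairFun_tmul, pairFun_descComul]
    | add s t hs ht => simp only [map_add, Pi.add_apply, hs, ht]
  show mulFun _ _ (Algebra.TensorProduct.assoc (Rl ℓ) (Rl ℓ) (Rl ℓ) (descAlg hA F) (descAlg hA F)
        (descAlg hA F) (Algebra.TensorProduct.map (descComul hA F) (AlgHom.id (Rl ℓ) (descAlg hA F)) (descComul hA F f)))
      (a, b, c) = mulFun _ _ (Algebra.TensorProduct.map (AlgHom.id (Rl ℓ) (descAlg hA F)) (descComul hA F)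
        (descComul hA F f)) (a, b, c)
  rw [hL, hR, pairFun_descComul, pairFun_descComul, add_assoc]

lemma desc_rTensor :
    (Algebra.TensorProduct.map (descCounit hA F) (AlgHom.id (Rl ℓ) (descAlg hA F))).comp (descComul hA F) =
      (Algebra.TensorProduct.lid (Rl ℓ) (descAlg hA F)).symm := by
  have key : ∀ t c, ((Algebra.TensorProduct.lid (Rl ℓ) (descAlg hA F)
      (Algebra.TensorProduct.map (descCounit hA F) (AlgHom.id (Rl ℓ) (descAlg hA F)) t) : descAlg hA F) : G → Qb) c =
      pairFun hA F t (0, c) := by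
    intro t c
    induction t using TensorProduct.induction_on with
    | zero => simp
    | tmul u v => simp [pairFun_tmul, Algebra.smul_def, descCounit_apply]
    | add s t hs ht => simp only [map_add, AddMemClass.coe_add, Pi.add_apply, hs, ht]
  refine AlgHom.ext fun f => (Algebra.TensorProduct.lid (Rl ℓ) (descAlg hA F)).injective ?_
  refine Subtype.ext (funext fun c => ?_)
  rw [AlgHom.comp_apply, key, pairFun_descComul, zero_add]
  exact congrFun (congrArg Subtype.val
    ((Algebra.TensorProduct.lid (Rl ℓ) (descAlg hA F)).apply_symm_apply f)).symm c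

lemma desc_lTensor :
    (Algebra.TensorProduct.map (AlgHom.id (Rl ℓ) (descAlg hA F)) (descCounit hA F)).comp (descComul hA F) =
      (Algebra.TensorProduct.rid (Rl ℓ) (Rl ℓ) (descAlg hA F)).symm := by
  have key : ∀ t c, ((Algebra.TensorProduct.rid (Rl ℓ) (Rl ℓ) (descAlg hA F)
      (Algebra.TensorProduct.map (AlgHom.id (Rl ℓ) (descAlg hA F)) (descCounit hA F) t) : descAlg hA F) : G → Qb) c =
      pairFun hA F t (c, 0) := by
    intro t c
    induction t using TensorProduct.induction_on with
    | zero => simp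
    | tmul u v => simp [pairFun_tmul, Algebra.smul_def, descCounit_apply, mul_comm]
    | add s t hs ht => simp only [map_add, AddMemClass.coe_add, Pi.add_apply, hs, ht]
  refine AlgHom.ext fun f => (Algebra.TensorProduct.rid (Rl ℓ) (Rl ℓ) (descAlg hA F)).injective ?_
  refine Subtype.ext (funext fun c => ?_)
  rw [AlgHom.comp_apply, key, pairFun_descComul, add_zero]
  exact congrFun (congrArg Subtype.val
    ((Algebra.TensorProduct.rid (Rl ℓ) (Rl ℓ) (descAlg hA F)).apply_symm_apply f)).symm c

/-- the bialgebra -/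
abbrev descBialgebra : Bialgebra (Rl ℓ) (descAlg hA F) :=
  Bialgebra.ofAlgHom (descComul hA F) (descCounit hA F) (desc_coassoc hA F) (desc_rTensor hA F)
    (desc_lTensor hA F)

lemma desc_anti_rTensor [Finite G] :
    (Algebra.TensorProduct.lift (descAnti hA F) (AlgHom.id (Rl ℓ) (descAlg hA F)) fun _ _ => Commute.all _ _).comp
      (descComul hA F) = (Algebra.ofId (Rl ℓ) (descAlg hA F)).comp (descCounit hA F) := by
  refine AlgHom.ext fun f => Subtype.ext (funext fun c => ?_)
  have key : ∀ t, ((Algebra.TensorProduct.lift (descAnti hA F) (AlgHom.id (Rl ℓ) (descAlg hA F))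
      (fun _ _ => Commute.all _ _) t : descAlg hA F) : G → Qb) c = pairFun hA F t (-c, c) := by
    intro t
    induction t using TensorProduct.induction_on with
    | zero => simp
    | tmul u v => simp [pairFun_tmul, descAnti_apply]
    | add s t hs ht => simp only [map_add, AddMemClass.coe_add, Pi.add_apply, hs, ht]
  rw [AlgHom.comp_apply, key, pairFun_descComul, neg_add_cancel]
  exact (descCounit_apply hA F f).symm

lemma desc_anti_lTensor [Finite G] :
    (Algebra.TensorProduct.lift (AlgHom.id (Rl ℓ) (descAlg hA F)) (descAnti hA F) fun _ _ => Commute.all _ _).comp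
      (descComul hA F) = (Algebra.ofId (Rl ℓ) (descAlg hA F)).comp (descCounit hA F) := by
  refine AlgHom.ext fun f => Subtype.ext (funext fun c => ?_)
  have key : ∀ t, ((Algebra.TensorProduct.lift (AlgHom.id (Rl ℓ) (descAlg hA F)) (descAnti hA F)
      (fun _ _ => Commute.all _ _) t : descAlg hA F) : G → Qb) c = pairFun hA F t (c, -c) := by
    intro t
    induction t using TensorProduct.induction_on with
    | zero => simp
    | tmul u v => simp [pairFun_tmul, descAnti_apply]
    | add s t hs ht => simp only [map_add, AddMemClass.coe_add, Pi.add_apply, hs, ht]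
  rw [AlgHom.comp_apply, key, pairFun_descComul, add_neg_cancel]
  exact (descCounit_apply hA F f).symm

lemma descComul_comm (f : descAlg hA F) :
    TensorProduct.comm (Rl ℓ) (descAlg hA F) (descAlg hA F) (descComul hA F f) =
      descComul hA F f := by
  have key : ∀ t p, pairFun hA F (TensorProduct.comm (Rl ℓ) (descAlg hA F) (descAlg hA F) t) p =
      pairFun hA F t (p.2, p.1) := by
    intro t p
    induction t using TensorProduct.induction_on with
    | zero => simp
    | tmul u v => simp [pairFun_tmul, mul_comm]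
    | add s t hs ht => simp only [map_add, Pi.add_apply, hs, ht]
  refine pairFun_injective hA F (funext fun p => ?_)
  rw [key, pairFun_descComul, pairFun_descComul, add_comm]

/-- evaluation at a point -/
def descEval (c : G) : descAlg hA F →ₐ[Rl ℓ] Qb :=
  (Pi.evalAlgHom (Rl ℓ) (fun _ : G => Qb) c).comp (descAlg hA F).val

lemma descEval_bijective [Finite G] : Function.Bijective (descEval hA F) := by
  classical
  letI : Fintype G := Fintype.ofFinite G
  constructor
  · intro c d h
    have hv : ∀ f : G → Qb, f c = f d := by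
      intro f
      have hf : f ∈ Submodule.span Qb (Set.range F.vec) := by rw [F.top]; trivial
      induction hf using Submodule.span_induction with
      | mem x hx =>
        obtain ⟨i, rfl⟩ := hx
        exact DFunLike.congr_fun h (descVec hA F i)
      | zero => rfl
      | add x y _ _ hx hy => rw [Pi.add_apply, Pi.add_apply, hx, hy]
      | smul a x _ hx => rw [Pi.smul_apply, Pi.smul_apply, hx]
    by_contra hne
    simpa [Pi.single_apply, Ne.symm hne] using hv (Pi.single c 1)
  · intro χ
    let bQ : Module.Basis (Fin F.n) Qb (G → Qb) := Module.Basis.mk F.indep F.top.ge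
    let L : (G → Qb) →ₗ[Qb] Qb := bQ.constr Qb fun i => χ (descVec hA F i)
    have hL : ∀ f : descAlg hA F, L f = χ f := by
      have : (L.restrictScalars (Rl ℓ)).comp (descAlg hA F).val.toLinearMap = χ.toLinearMap := by
        refine (descBasis hA F).ext fun i => ?_
        have hb : descBasis hA F i = descVec hA F i := by simp [descBasis]
        rw [hb]
        show L (F.vec i) = _
        rw [show F.vec i = bQ i by simp [bQ]]
        exact bQ.constr_basis _ _ i
      exact fun f => LinearMap.congr_fun this f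
    have hmul : ∀ f g, L (f * g) = L f * L g := by
      have : (LinearMap.mul Qb (G → Qb)).compr₂ L = (LinearMap.mul Qb Qb).compl₁₂ L L := by
        refine bQ.ext fun i => bQ.ext fun j => ?_
        have hi : ∀ k, bQ k = (descVec hA F k : G → Qb) := fun k => by simp [bQ, descVec]
        simp only [LinearMap.compr₂_apply, LinearMap.compl₁₂_apply, LinearMap.mul_apply', hi]
        rw [hL, hL, ← MulMemClass.coe_mul, hL, map_mul]
      intro f g
      simpa using LinearMap.congr_fun (LinearMap.congr_fun this f) g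
    have h1 : L 1 = 1 := by
      have := hL 1
      rw [OneMemClass.coe_one] at this
      rw [this, map_one]
    have hsum : ∀ f : G → Qb, f = ∑ d, f d • (Pi.single d 1 : G → Qb) := fun f => by
      funext e
      simp [Finset.sum_apply, Pi.single_apply]
    obtain ⟨c, hc⟩ : ∃ c, L (Pi.single c 1) ≠ 0 := by
      by_contra h
      push Not at h
      apply one_ne_zero (α := Qb)
      rw [← h1, hsum 1, map_sum]
      simp [h]
    have hdd : L (Pi.single c 1) = 1 := by
      have h := hmul (Pi.single c 1) (Pi.single c 1)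
      rw [← Pi.single_mul, mul_one] at h
      exact mul_left_cancel₀ hc (by rw [mul_one]; exact h.symm)
    have hd0 : ∀ d, d ≠ c → L (Pi.single d 1) = 0 := fun d hd => by
      have h := hmul (Pi.single c 1) (Pi.single d 1)
      rw [hdd, one_mul] at h
      rw [← h, show (Pi.single c 1 * Pi.single d 1 : G → Qb) = 0 from funext fun e => by
        by_cases he : e = c <;> simp [Pi.single_apply, he, Ne.symm hd], map_zero]
    refine ⟨c, AlgHom.ext fun f => ?_⟩
    show (f : G → Qb) c = χ f
    rw [← hL]
    conv_rhs => rw [hsum (f : G → Qb), map_sum]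
    rw [Finset.sum_eq_single c (fun d _ hd => by rw [map_smul, hd0 d hd, smul_zero])
      (fun h => absurd (Finset.mem_univ c) h), map_smul, hdd, smul_eq_mul, mul_one]

include hA F in
theorem hasFlatModel_of_frame [Finite G] : HasFlatModel G ℓ := by
  letI bi := descBialgebra hA F
  letI ho : HopfAlgebra (Rl ℓ) (descAlg hA F) :=
    HopfAlgebra.ofAlgHom (descAnti hA F) (desc_anti_rTensor hA F) (desc_anti_lTensor hA F)
  haveI hfree : Module.Free (Rl ℓ) (descAlg hA F) := Module.Free.of_basis (descBasis hA F)
  haveI hfin : Module.Finite (Rl ℓ) (descAlg hA F) := Module.Finite.of_basis (descBasis hA F)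
  refine ⟨descAlg hA F, inferInstance, ho, hfin, inferInstance, ⟨?_⟩, ?_⟩
  · exact LinearMap.ext fun f => descComul_comm hA F f
  have hb := descEval_bijective hA F
  let e : G ≃ WithConv (descAlg hA F →ₐ[Rl ℓ] Qb) :=
    Equiv.ofBijective (fun c => WithConv.toConv (descEval hA F c))
      ⟨fun c d h => hb.1 (congrArg WithConv.ofConv h), fun χ => by
        obtain ⟨c, hc⟩ := hb.2 χ.ofConv
        exact ⟨c, by simp [hc]⟩⟩
  refine ⟨e.symm, fun χ ψ => ?_, fun σ χ ψ h => ?_⟩
  · obtain ⟨c, rfl⟩ := e.surjective χ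
    obtain ⟨d, rfl⟩ := e.surjective ψ
    rw [e.symm_apply_apply, e.symm_apply_apply, Equiv.symm_apply_eq]
    refine WithConv.ext (AlgHom.ext fun f => ?_)
    show (e c * e d) f = (f : G → Qb) (c + d)
    rw [AlgHom.convMul_apply, ← pairFun_descComul hA F f (c, d)]
    show Algebra.TensorProduct.lift (descEval hA F c) (descEval hA F d) _ (descComul hA F f) = _
    induction descComul hA F f using TensorProduct.induction_on with
    | zero => simp
    | tmul u v => simp [pairFun_tmul, descEval]
    | add s t hs ht => simp only [map_add, Pi.add_apply, hs, ht]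
  · obtain ⟨c, rfl⟩ := e.surjective χ
    obtain ⟨d, rfl⟩ := e.surjective ψ
    rw [e.symm_apply_apply, e.symm_apply_apply]
    refine e.injective (WithConv.ext (AlgHom.ext fun f => ?_))
    show (f : G → Qb) d = (f : G → Qb) (σ • c)
    have h1 := congrFun (f.2.2 σ) (σ • c)
    rw [conjF_apply, inv_smul_smul] at h1
    rw [← h1]
    exact h f

end FLTAgent.Flat
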