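import Fermat.Agent.Flat.DescentArith

/-!
The `A`-algebra of a `RawModel` has an `A`-basis of `Γ`-equivariant functions.
-/

set_option autoImplicit false
set_option linter.style.haveILetI false

noncomputable section

namespace FLTAgent.Flat

set_option linter.unusedSectionVars false

variable {G : Type} [AddCommGroup G] [DistribMulAction GalQ G] {ℓ : ℕ} {A : ValuationSubring Qb}

lemma conjF_apply (σ : GalQ) (f : G → Qb) (c : G) : conjF σ f c = σ (f (σ⁻¹ • c)) := rfl

lemma conjF_one (f : G → Qb) : conjF 1 f = f := by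
  funext c
  simp [conjF_apply]

lemma conjF_mul (σ τ : GalQ) (f : G → Qb) : conjF (σ * τ) f = conjF σ (conjF τ f) := by
  funext c
  simp only [conjF_apply, mul_inv_rev, mul_smul]
  rfl

/-- `conjF σ` as a ring endomorphism -/
def conjHom (σ : GalQ) : (G → Qb) →+* (G → Qb) where
  toFun := conjF σ
  map_one' := funext fun c => by simp [conjF_apply]
  map_mul' f g := funext fun c => by simp [conjF_apply]
  map_zero' := funext fun c => by simp [conjF_apply]
  map_add' f g := funext fun c => by simp [conjF_apply]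

lemma conjHom_apply (σ : GalQ) (f : G → Qb) : conjHom σ f = conjF σ f := rfl

lemma conjF_smul (σ : GalQ) (a : Qb) (f : G → Qb) : conjF σ (a • f) = σ a • conjF σ f :=
  funext fun c => by simp [conjF_apply]

/-- the fixer of a function -/
def fixSub (f : G → Qb) : Subgroup GalQ where
  carrier := {σ | conjF σ f = f}
  one_mem' := conjF_one f
  mul_mem' {σ τ} hσ hτ := by
    show conjF (σ * τ) f = f
    rw [conjF_mul, hτ, hσ]
  inv_mem' {σ} hσ := by
    show conjF σ⁻¹ f = f
    conv_lhs => rw [← hσ, ← conjF_mul, inv_mul_cancel, conjF_one]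

lemma mem_fixSub {f : G → Qb} {σ : GalQ} : σ ∈ fixSub f ↔ conjF σ f = f := Iff.rfl

/-- the functions fixed by the whole Galois group -/
def equivariant (G : Type) [AddCommGroup G] [DistribMulAction GalQ G] : Set (G → Qb) :=
  {f | ∀ σ, conjF σ f = f}

lemma isOpen_fixSub [Finite G] (hG : IsContinuousModule G) (f : G → Qb) :
    IsOpen (fixSub f : Set GalQ) := by
  haveI := Common.isAlgebraic_qbar
  choose L hL hfix using hG
  let W : Subgroup GalQ :=
    ⨅ c : G, (L c).fixingSubgroup ⊓ MulAction.stabilizer GalQ (f c)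
  have hW : IsOpen (W : Set GalQ) := by
    simp only [W, Subgroup.coe_iInf, Subgroup.coe_inf]
    exact isOpen_iInter_of_finite fun c => by
      haveI := hL c
      exact (L c).fixingSubgroup_isOpen.inter (stabilizer_isOpen_of_isIntegral (f c))
  refine Subgroup.isOpen_mono (fun σ hσ => ?_) hW
  funext c
  have h1 := (Subgroup.mem_inf.mp (Subgroup.mem_iInf.mp hσ c)).1
  have h2 : σ (f c) = f c := (Subgroup.mem_inf.mp (Subgroup.mem_iInf.mp hσ c)).2
  have h3 : σ • c = c := hfix c σ fun y hy => (IntermediateField.mem_fixingSubgroup_iff _ σ).mp h1 y hy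
  rw [conjF_apply, show σ⁻¹ • c = c by conv_lhs => rw [← h3, inv_smul_smul]]
  exact h2

/-- representatives of `D` modulo `D ∩ V` -/
lemma exists_reps {D V : Subgroup GalQ} (hV : IsOpen (V : Set GalQ)) :
    ∃ T : Finset GalQ, (∀ r ∈ T, r ∈ D) ∧ (1 : GalQ) ∈ T ∧
      (∀ σ ∈ D, ∃ r ∈ T, r⁻¹ * σ ∈ V) ∧ ∀ r ∈ T, ∀ r' ∈ T, r⁻¹ * r' ∈ V → r = r' := by
  classical
  haveI := gal_compactSpace
  haveI : Finite (GalQ ⧸ V) := Subgroup.quotient_finite_of_isOpen V hV
  letI : Fintype (GalQ ⧸ V) := Fintype.ofFinite _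
  let Q : Finset (GalQ ⧸ V) := Finset.univ.filter fun q => ∃ σ ∈ D, (σ : GalQ ⧸ V) = q
  let rep : GalQ ⧸ V → GalQ := fun q =>
    if q = ((1 : GalQ) : GalQ ⧸ V) then 1
    else if h : ∃ σ ∈ D, (σ : GalQ ⧸ V) = q then h.choose else 1
  have hrep : ∀ q ∈ Q, rep q ∈ D ∧ (rep q : GalQ ⧸ V) = q := by
    intro q hq
    by_cases h1 : q = ((1 : GalQ) : GalQ ⧸ V)
    · simp [rep, h1]
    · have h : ∃ σ ∈ D, (σ : GalQ ⧸ V) = q := (Finset.mem_filter.mp hq).2
      simp only [rep, if_neg h1, dif_pos h]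
      exact h.choose_spec
  refine ⟨Q.image rep, ?_, ?_, ?_, ?_⟩
  · intro r hr
    obtain ⟨q, hq, rfl⟩ := Finset.mem_image.mp hr
    exact (hrep q hq).1
  · refine Finset.mem_image.mpr ⟨((1 : GalQ) : GalQ ⧸ V), ?_, by simp [rep]⟩
    exact Finset.mem_filter.mpr ⟨Finset.mem_univ _, 1, D.one_mem, rfl⟩
  · intro σ hσ
    have hq : (σ : GalQ ⧸ V) ∈ Q := Finset.mem_filter.mpr ⟨Finset.mem_univ _, σ, hσ, rfl⟩
    exact ⟨rep σ, Finset.mem_image_of_mem _ hq, QuotientGroup.eq.mp (hrep _ hq).2⟩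
  · intro r hr r' hr' h
    obtain ⟨q, hq, rfl⟩ := Finset.mem_image.mp hr
    obtain ⟨q', hq', rfl⟩ := Finset.mem_image.mp hr'
    have : q = q' := by rw [← (hrep q hq).2, ← (hrep q' hq').2, QuotientGroup.eq.mpr h]
    rw [this]

lemma trace_fixed {D V : Subgroup GalQ} {T : Finset GalQ} (hTD : ∀ r ∈ T, r ∈ D)
    (hcov : ∀ σ ∈ D, ∃ r ∈ T, r⁻¹ * σ ∈ V)
    (huniq : ∀ r ∈ T, ∀ r' ∈ T, r⁻¹ * r' ∈ V → r = r') {m : G → Qb}
    (hm : ∀ σ ∈ D, σ ∈ V → conjF σ m = m) {g : GalQ} (hg : g ∈ D) :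
    conjF g (∑ r ∈ T, conjF r m) = ∑ r ∈ T, conjF r m := by
  rw [← conjHom_apply, map_sum]
  simp only [conjHom_apply, ← conjF_mul]
  choose next hnextT hnextV using fun r (hr : r ∈ T) => hcov (g * r) (D.mul_mem hg (hTD r hr))
  refine Finset.sum_bij next hnextT ?_ ?_ ?_
  · intro r hr r' hr' h
    refine huniq r hr r' hr' ?_
    have h1 := hnextV r hr
    have h2 := hnextV r' hr'
    rw [h] at h1
    have h3 := V.mul_mem (V.inv_mem h1) h2
    rwa [show ((next r' hr')⁻¹ * (g * r))⁻¹ * ((next r' hr')⁻¹ * (g * r')) = r⁻¹ * r' by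
      group] at h3
  · intro r' hr'
    obtain ⟨r, hr, h⟩ := hcov (g⁻¹ * r') (D.mul_mem (D.inv_mem hg) (hTD r' hr'))
    refine ⟨r, hr, huniq _ (hnextT r hr) r' hr' ?_⟩
    have h3 := V.mul_mem (hnextV r hr) h
    rwa [show (next r hr)⁻¹ * (g * r) * (r⁻¹ * (g⁻¹ * r')) = (next r hr)⁻¹ * r' by group] at h3
  · intro r hr
    have hmem : (next r hr)⁻¹ * (g * r) ∈ D :=
      D.mul_mem (D.inv_mem (hTD _ (hnextT r hr))) (D.mul_mem hg (hTD r hr))
    conv_rhs => rw [← hm _ hmem (hnextV r hr), ← conjF_mul, mul_inv_cancel_left]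

/-- the algebra of functions of a finite set of `A`-valued functions -/
abbrev funAlg (A : ValuationSubring Qb) (S : Set (G → Qb)) : Subalgebra A (G → Qb) :=
  Algebra.adjoin A S

omit [DistribMulAction GalQ G] in
lemma smul_eq_coe_smul (a : A) (f : G → Qb) : a • f = (a : Qb) • f := rfl

omit [DistribMulAction GalQ G] in
lemma funAlg_val {S : Set (G → Qb)} (hval : ∀ f ∈ S, ∀ c, f c ∈ A) {f : G → Qb}
    (hf : f ∈ funAlg A S) (c : G) : f c ∈ A := by
  induction hf using Algebra.adjoin_induction with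
  | mem x hx => exact hval x hx c
  | algebraMap r => exact r.2
  | add x y _ _ hx hy => exact add_mem hx hy
  | mul x y _ _ hx hy => exact mul_mem hx hy

lemma funAlg_conj {S : Set (G → Qb)} {σ : GalQ} (hσ : σ ∈ decoGroup A)
    (hS : ∀ f ∈ S, conjF σ f ∈ S) {f : G → Qb} (hf : f ∈ funAlg A S) :
    conjF σ f ∈ funAlg A S := by
  induction hf using Algebra.adjoin_induction with
  | mem x hx => exact Algebra.subset_adjoin (hS x hx)
  | algebraMap r =>
    have : conjF σ (algebraMap A (G → Qb) r) = algebraMap A (G → Qb) ⟨σ r, (hσ r).mpr r.2⟩ :=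
      funext fun _ => rfl
    rw [this]
    exact Subalgebra.algebraMap_mem _ _
  | add x y _ _ hx hy => rw [← conjHom_apply, map_add]; exact add_mem hx hy
  | mul x y _ _ hx hy => rw [← conjHom_apply, map_mul]; exact mul_mem hx hy

omit [DistribMulAction GalQ G] in
lemma funAlg_fg [Finite G] {S : Set (G → Qb)} (hS : S.Finite) (hval : ∀ f ∈ S, ∀ c, f c ∈ A) :
    (Subalgebra.toSubmodule (funAlg A S)).FG := by
  letI : Fintype G := Fintype.ofFinite G
  refine fg_adjoin_of_finite hS fun f hf => ?_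
  refine ⟨∏ c : G, (Polynomial.X - Polynomial.C (⟨f c, hval f hf c⟩ : A)),
    Polynomial.monic_prod_of_monic _ _ fun c _ => Polynomial.monic_X_sub_C _, ?_⟩
  rw [← Polynomial.aeval_def, map_prod]
  funext c
  rw [Finset.prod_apply]
  refine Finset.prod_eq_zero (Finset.mem_univ c) ?_
  simp only [map_sub, Polynomial.aeval_X, Polynomial.aeval_C]
  show f c - (algebraMap A Qb) ⟨f c, hval f hf c⟩ = 0
  exact sub_self (f c)

variable [hℓ : Fact ℓ.Prime]

lemma exists_scale_finite (hA : A.LiesOverPrime ℓ) (s : Finset Qb) :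
    ∃ b : ℕ, ∀ x ∈ s, (ℓ : Qb) ^ b * x ∈ A := by
  choose b hb using exists_scale (A := A) hA
  refine ⟨s.sup b, fun x hx => ?_⟩
  obtain ⟨k, hk⟩ := Nat.exists_eq_add_of_le (Finset.le_sup (f := b) hx)
  rw [hk, pow_add, mul_comm ((ℓ : Qb) ^ b x), mul_assoc]
  exact mul_mem (pow_mem (natCast_mem A ℓ) k) (hb x)

omit [DistribMulAction GalQ G] in
/-- the algebra contains all functions sufficiently divisible by `ℓ` -/
lemma funAlg_contains [Finite G] (hA : A.LiesOverPrime ℓ) {S : Set (G → Qb)}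
    (hval : ∀ f ∈ S, ∀ c, f c ∈ A) (hsep : ∀ c d : G, (∀ f ∈ S, f c = f d) → c = d) :
    ∃ N : ℕ, ∀ h : G → Qb, (∀ c, ((ℓ : Qb) ^ N)⁻¹ * h c ∈ A) → h ∈ funAlg A S := by
  classical
  letI : Fintype G := Fintype.ofFinite G
  have hsep' : ∀ d c : G, c ≠ d → ∃ f ∈ S, f c ≠ f d := fun d c hne => by
    by_contra h
    push Not at h
    exact hne (hsep c d h)
  choose f hfS hfne using hsep'
  let P : G → (G → Qb) := fun d => ∏ c : G,
    if h : c ≠ d then f d c h - algebraMap A (G → Qb) ⟨f d c h c, hval _ (hfS d c h) c⟩ else 1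
  have hP : ∀ d, P d ∈ funAlg A S := fun d => prod_mem fun c _ => by
    split_ifs with h
    · exact sub_mem (Algebra.subset_adjoin (hfS d c h)) (Subalgebra.algebraMap_mem _ _)
    · exact one_mem _
  have hP0 : ∀ d e, e ≠ d → P d e = 0 := by
    intro d e he
    simp only [P, Finset.prod_apply]
    refine Finset.prod_eq_zero (Finset.mem_univ e) ?_
    rw [dif_pos he, Pi.sub_apply]
    exact sub_self _
  have hP1 : ∀ d, P d d ≠ 0 := by
    intro d
    simp only [P, Finset.prod_apply]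
    refine Finset.prod_ne_zero_iff.mpr fun c _ => ?_
    split_ifs with h
    · rw [Pi.sub_apply]
      exact sub_ne_zero.mpr (hfne d c h).symm
    · simp
  obtain ⟨N, hN⟩ := exists_scale_finite (A := A) hA (Finset.univ.image fun d => (P d d)⁻¹)
  have hℓ0 : ((ℓ : Qb) ^ N) ≠ 0 := pow_ne_zero _ (Nat.cast_ne_zero.mpr hℓ.out.ne_zero)
  refine ⟨N, fun h hh => ?_⟩
  have e : h = ∑ d : G, (⟨(ℓ : Qb) ^ N * (P d d)⁻¹ * (((ℓ : Qb) ^ N)⁻¹ * h d),
      mul_mem (hN _ (Finset.mem_image_of_mem _ (Finset.mem_univ d))) (hh d)⟩ : A) • P d := by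
    funext c
    rw [Finset.sum_apply, Finset.sum_eq_single c (fun d _ hd => by
      simp [Pi.smul_apply, hP0 d c hd.symm]) (fun hc => absurd (Finset.mem_univ c) hc)]
    rw [smul_eq_coe_smul, Pi.smul_apply, smul_eq_mul]
    have := hP1 c
    field_simp
  rw [e]
  exact sum_mem fun d _ => Subalgebra.smul_mem _ (hP d) _

omit [DistribMulAction GalQ G] in
/-- a system separating the cosets of `V` among `T` -/
lemma exists_root_system (hA : A.LiesOverPrime ℓ) {T : Finset GalQ} {V : Subgroup GalQ}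
    {Z : Finset Qb} (hZ : ∀ z ∈ Z, ∃ d, ¬ ℓ ∣ d ∧ z ^ d = 1)
    (hVZ : ∀ σ, σ ∈ V ↔ ∀ z ∈ Z, σ z = z) (hT : ∀ r ∈ T, r ∈ decoGroup A) :
    ∀ T' : Finset GalQ, T' ⊆ T → (∀ r ∈ T', r ∉ V) →
    ∃ (n : ℕ) (x y : Fin n → A), (∀ i, ∀ σ ∈ V, σ (y i : Qb) = y i) ∧
      (∑ i, (x i : Qb) * y i = 1) ∧ ∀ r ∈ T', ∑ i, (x i : Qb) * r (y i : Qb) = 0 := by
  classical
  intro T'
  induction T' using Finset.induction with
  | empty => exact fun _ _ => ⟨1, fun _ => 1, fun _ => 1, by simp, by simp, by simp⟩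
  | insert a s has ih =>
    intro hsub hnV
    obtain ⟨n, x, y, hy, e1, e0⟩ := ih (fun r hr => hsub (Finset.mem_insert_of_mem hr))
      fun r hr => hnV r (Finset.mem_insert_of_mem hr)
    obtain ⟨z, hz, hza⟩ : ∃ z ∈ Z, a z ≠ z := by
      by_contra h
      push Not at h
      exact hnV a (Finset.mem_insert_self _ _) ((hVZ a).mpr h)
    obtain ⟨d, hd, hzd⟩ := hZ z hz
    have hzA : z ∈ A :=
      (A.valuation_le_one_iff z).mp
        (mem_of_pow_eq_one (show d ≠ 0 from fun h => hd (h.symm ▸ dvd_zero ℓ)) hzd).le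
    have hu : A.valuation (z - a z) = 1 :=
      root_sub_unit hA hd hzd (by rw [← map_pow, hzd, map_one]) hza.symm
    have hbA : (z - a z)⁻¹ ∈ A := by
      rw [← A.valuation_le_one_iff, map_inv₀, hu, inv_one]
    have hne : z - a z ≠ 0 := sub_ne_zero.mpr hza.symm
    set b : A := ⟨(z - a z)⁻¹, hbA⟩ with hb
    set r : A := ⟨z, hzA⟩ with hr
    refine ⟨n + n, Fin.append (fun i => x i * (1 - b * r)) (fun i => x i * b),
        Fin.append y (fun i => y i * r), ?_, ?_, ?_⟩
    · intro i σ hσ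
      induction i using Fin.addCases with
      | left i => rw [Fin.append_left]; exact hy i σ hσ
      | right i =>
        rw [Fin.append_right]
        show σ ((y i : Qb) * z) = (y i : Qb) * z
        rw [map_mul, hy i σ hσ, (hVZ σ).mp hσ z hz]
    · rw [Fin.sum_univ_add]
      simp only [Fin.append_left, Fin.append_right, ← Finset.sum_add_distrib]
      rw [← e1]
      refine Finset.sum_congr rfl fun i _ => ?_
      push_cast
      ring
    · intro g hg
      have e : ∑ i, ((Fin.append (fun i => x i * (1 - b * r)) (fun i => x i * b) i : A) : Qb) *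
          g ((Fin.append y (fun i => y i * r) i : A) : Qb) =
          (1 - (z - a z)⁻¹ * (z - g z)) * ∑ i, (x i : Qb) * g (y i : Qb) := by
        rw [Fin.sum_univ_add, Finset.mul_sum]
        simp only [Fin.append_left, Fin.append_right, ← Finset.sum_add_distrib]
        refine Finset.sum_congr rfl fun i _ => ?_
        push_cast [hb, hr]
        simp only [map_mul]
        ring
      rw [e]
      rcases Finset.mem_insert.mp hg with rfl | hg
      · rw [inv_mul_cancel₀ hne, sub_self, zero_mul]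
      · rw [e0 g hg, mul_zero]

/-- inertia-fixed elements are combinations of decomposition-fixed ones -/
theorem mem_span_deco_fixed [Finite G] (hG : IsContinuousModule G) (hA : A.LiesOverPrime ℓ)
    {S : Set (G → Qb)} (hS : ∀ σ ∈ decoGroup A, ∀ f ∈ S, conjF σ f ∈ S) {w : G → Qb}
    (hw : w ∈ funAlg A S) (hI : ∀ σ ∈ A.inertiaSubgroupIn ℚ, conjF σ w = w) :
    w ∈ Submodule.span A {f | f ∈ funAlg A S ∧ ∀ σ ∈ decoGroup A, conjF σ f = f} := by
  classical
  haveI := Common.isAlgebraic_qbar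
  obtain ⟨Z, hZ, hZw⟩ := exists_finset_roots hA (isOpen_fixSub hG w) hI
  let V : Subgroup GalQ := ⨅ z : Z, MulAction.stabilizer GalQ (z : Qb)
  have hVZ : ∀ σ, σ ∈ V ↔ ∀ z ∈ Z, σ z = z := fun σ => by
    simp [V, Subgroup.mem_iInf, MulAction.mem_stabilizer_iff]
  have hV : IsOpen (V : Set GalQ) := by
    simp only [V, Subgroup.coe_iInf]
    exact isOpen_iInter_of_finite fun z => stabilizer_isOpen_of_isIntegral _
  obtain ⟨T, hTD, h1T, hcov, huniq⟩ := exists_reps (D := decoGroup A) hV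
  obtain ⟨n, x, y, hy, e1, e0⟩ := exists_root_system hA hZ hVZ hTD (T.erase 1)
    (Finset.erase_subset _ _) fun r hr hrV => (Finset.ne_of_mem_erase hr)
      (huniq 1 h1T r (Finset.mem_of_mem_erase hr) (by simpa using hrV)).symm
  let t : Fin n → (G → Qb) := fun i => ∑ r ∈ T, conjF r ((y i : Qb) • w)
  have ht : ∀ i, t i ∈ funAlg A S ∧ ∀ σ ∈ decoGroup A, conjF σ (t i) = t i := by
    refine fun i => ⟨sum_mem fun r hr => funAlg_conj (hTD r hr) (hS r (hTD r hr)) ?_, fun σ hσ =>
      trace_fixed hTD hcov huniq (fun g hg hgV => ?_) hσ⟩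
    · exact Subalgebra.smul_mem _ hw (y i)
    · rw [conjF_smul, hy i g hgV, show conjF g w = w from hZw g hg ((hVZ g).mp hgV)]
  have e : w = ∑ i, x i • t i := by
    calc w = ∑ r ∈ T, (∑ i, (x i : Qb) * r (y i : Qb)) • conjF r w := by
          have h0 : ∑ r ∈ T.erase 1, (∑ i, (x i : Qb) * r (y i : Qb)) • conjF r w = 0 :=
            Finset.sum_eq_zero fun r hr => by rw [e0 r hr, zero_smul]
          rw [← Finset.add_sum_erase _ _ h1T, h0]
          simp [conjF_one, e1]
      _ = _ := by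
          simp only [t, conjF_smul, Finset.sum_smul, Finset.smul_sum, smul_eq_coe_smul, smul_smul]
          rw [Finset.sum_comm]
  rw [e]
  exact sum_mem fun i _ => Submodule.smul_mem _ _ (Submodule.subset_span (ht i))

/-- decomposition-fixed elements are equivariant ones modulo `ℓ` -/
theorem exists_equivariant_approx [Finite G] (hG : IsContinuousModule G) (hA : A.LiesOverPrime ℓ)
    {S : Set (G → Qb)} (hval : ∀ f ∈ S, ∀ c, f c ∈ A)
    (hsep : ∀ c d : G, (∀ f ∈ S, f c = f d) → c = d) {w : G → Qb}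
    (hw : w ∈ funAlg A S) (hD : ∀ σ ∈ decoGroup A, conjF σ w = w) :
    ∃ z h, z ∈ funAlg A S ∧ (∀ σ, conjF σ z = z) ∧ h ∈ funAlg A S ∧
      w = z + (ℓ : A) • h := by
  classical
  letI : Fintype G := Fintype.ofFinite G
  obtain ⟨N, hN⟩ := funAlg_contains hA hval hsep
  obtain ⟨T, -, h1T, hcov, huniq⟩ := exists_reps (D := ⊤) (isOpen_fixSub hG w)
  obtain ⟨b, hb⟩ := exists_scale_finite (A := A) hA
    ((T ×ˢ Finset.univ).image fun p : GalQ × G => conjF p.1 w p.2)
  obtain ⟨e, he, he1, he0⟩ := exists_idempotent hA (fixSub w) (isOpen_fixSub hG w) hD (b + (N + 1))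
  let z : G → Qb := ∑ r ∈ T, conjF r (e • w)
  have hz : ∀ σ, conjF σ z = z := fun σ =>
    trace_fixed (D := ⊤) (fun _ _ => Subgroup.mem_top _) hcov huniq
      (fun g _ hg => by rw [conjF_smul, he g hg, show conjF g w = w from hg])
      (Subgroup.mem_top σ)
  let h : G → Qb := (ℓ : Qb)⁻¹ • (w - z)
  have hℓ0 : (ℓ : Qb) ≠ 0 := Nat.cast_ne_zero.mpr hℓ.out.ne_zero
  have hterm : ∀ r ∈ T, ∀ c, ((ℓ : Qb) ^ (N + 1))⁻¹ *
      ((r e - if r = 1 then 1 else 0) * conjF r w c) ∈ A := by
    intro r hr c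
    have hd : Near A ℓ (b + (N + 1)) (r e) (if r = 1 then 1 else 0) := by
      split_ifs with h
      · subst h; simpa using he1
      · exact he0 r fun hrU => h (huniq 1 h1T r hr (by simpa using hrU)).symm
    have hx := hb (conjF r w c) (Finset.mem_image.mpr
      ⟨(r, c), Finset.mem_product.mpr ⟨hr, Finset.mem_univ c⟩, rfl⟩)
    have := mul_mem hd hx
    convert! this using 1
    rw [pow_add]
    field_simp
    ring
  have hh : h ∈ funAlg A S := by
    refine hN h fun c => ?_
    have e' : z c - w c = ∑ r ∈ T, (r e - if r = 1 then 1 else 0) * conjF r w c := by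
      simp only [z, sub_mul, Finset.sum_sub_distrib, conjF_smul, Finset.sum_apply,
        Pi.smul_apply, smul_eq_mul, ite_mul, one_mul, zero_mul, Finset.sum_ite_eq', h1T, if_true,
        conjF_one]
    have : ((ℓ : Qb) ^ N)⁻¹ * h c =
        - ∑ r ∈ T, ((ℓ : Qb) ^ (N + 1))⁻¹ * ((r e - if r = 1 then 1 else 0) * conjF r w c) := by
      rw [← Finset.mul_sum, ← e']
      simp only [h, Pi.smul_apply, Pi.sub_apply, smul_eq_mul]
      rw [pow_succ]
      field_simp
      ring
    rw [this]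
    exact neg_mem (sum_mem fun r hr => hterm r hr c)
  have hwe : w = z + (ℓ : A) • h := by
    funext c
    simp only [h, smul_eq_coe_smul, Pi.add_apply, Pi.smul_apply, Pi.sub_apply, smul_eq_mul]
    push_cast
    field_simp
    ring
  refine ⟨z, h, ?_, hz, hh, hwe⟩
  rw [eq_sub_of_add_eq hwe.symm]
  exact sub_mem hw (Subalgebra.smul_mem _ hh _)

/-- the algebra is spanned by its equivariant elements -/
theorem span_equivariant [Finite G] (hG : IsContinuousModule G) (hA : A.LiesOverPrime ℓ)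
    {S : Set (G → Qb)} (hfin : S.Finite) (hval : ∀ f ∈ S, ∀ c, f c ∈ A)
    (hsep : ∀ c d : G, (∀ f ∈ S, f c = f d) → c = d)
    (hS : ∀ σ ∈ decoGroup A, ∀ f ∈ S, conjF σ f ∈ S)
    (hI : ∀ σ ∈ A.inertiaSubgroupIn ℚ, ∀ f ∈ S, conjF σ f = f) :
    Submodule.span A ((funAlg A S : Set (G → Qb)) ∩ equivariant G) =
      Subalgebra.toSubmodule (funAlg A S) := by
  set M := Subalgebra.toSubmodule (funAlg A S) with hM
  set E := Submodule.span A ((funAlg A S : Set (G → Qb)) ∩ equivariant G) with hE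
  refine le_antisymm (Submodule.span_le.mpr Set.inter_subset_left) ?_
  refine Submodule.le_of_le_smul_of_le_jacobson_bot (I := Ideal.span {(ℓ : A)})
    (funAlg_fg hfin hval) ?_ ?_
  · rw [IsLocalRing.jacobson_eq_maximalIdeal _ bot_ne_top, Ideal.span_singleton_le_iff_mem,
      ← ValuationSubring.coe_mem_nonunits_iff]
    simpa [ValuationSubring.LiesOverPrime] using hA
  have h1 : M ≤ Submodule.span A {f | f ∈ funAlg A S ∧ ∀ σ ∈ decoGroup A, conjF σ f = f} := by
    rw [hM]
    rw [Algebra.adjoin_eq_span, Submodule.span_le]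
    intro w hw
    refine mem_span_deco_fixed hG hA hS ?_ ?_
    · exact Submonoid.closure_le.mpr
        (fun f hf => (Algebra.subset_adjoin hf : f ∈ (funAlg A S).toSubsemiring.toSubmonoid)) hw
    · intro σ hσ
      induction hw using Submonoid.closure_induction with
      | mem x hx => exact hI σ hσ x hx
      | one => rw [← conjHom_apply, map_one]
      | mul x y _ _ hx hy => rw [← conjHom_apply, map_mul, conjHom_apply, conjHom_apply, hx, hy]
  refine h1.trans (Submodule.span_le.mpr ?_)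
  rintro w ⟨hw, hD⟩
  obtain ⟨z, h, hz, hzeq, hh, rfl⟩ := exists_equivariant_approx hG hA hval hsep hw hD
  refine Submodule.add_mem_sup (Submodule.subset_span ⟨hz, hzeq⟩) ?_
  exact Submodule.smul_mem_smul (Ideal.mem_span_singleton_self _) hh

omit [DistribMulAction GalQ G] in
/-- a spanning set over `A` contains a family which is a basis over `ℚ̄` of its span -/
lemma exists_indep_subset {M : Submodule A (G → Qb)} (hM : M.FG) {E : Set (G → Qb)}
    (hspan : Submodule.span A E = M) :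
    ∃ (n : ℕ) (b : Fin n → (G → Qb)), (∀ i, b i ∈ E) ∧ LinearIndependent Qb b ∧
      Submodule.span A (Set.range b) = M := by
  classical
  obtain ⟨s, hsE, hs⟩ := (Submodule.fg_span_iff_fg_span_finset_subset E).mp (hspan ▸ hM)
  let P : ℕ → Prop := fun n => ∃ b : Fin n → (G → Qb), (∀ i, b i ∈ E) ∧
    Submodule.span A (Set.range b) = M
  have hP : ∃ n, P n :=
    ⟨s.card, fun i => (s.equivFin.symm i : G → Qb), fun i => hsE (s.equivFin.symm i).2, by
      rw [← hspan, hs]
      congr 1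
      ext f
      constructor
      · rintro ⟨i, rfl⟩; exact (s.equivFin.symm i).2
      · intro hf; exact ⟨s.equivFin ⟨f, hf⟩, by simp⟩⟩
  obtain ⟨b, hbE, hbM⟩ := Nat.find_spec hP
  refine ⟨_, b, hbE, ?_, hbM⟩
  rw [Fintype.linearIndependent_iff]
  intro a ha
  by_contra hne
  push Not at hne
  obtain ⟨i₀, hi₀⟩ := hne
  obtain ⟨j, -, hj⟩ := Finset.exists_max_image Finset.univ (fun i => A.valuation (a i))
    ⟨i₀, Finset.mem_univ _⟩
  have hj0 : a j ≠ 0 := by
    intro h
    have := hj i₀ (Finset.mem_univ _)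
    rw [h, map_zero, le_zero_iff, map_eq_zero] at this
    exact hi₀ this
  have hc : ∀ i, a i / a j ∈ A := fun i => by
    rw [← A.valuation_le_one_iff, map_div₀]
    exact div_le_one_of_le₀ (hj i (Finset.mem_univ _)) zero_le
  obtain ⟨m, hm⟩ : ∃ m, Nat.find hP = m + 1 := ⟨Nat.find hP - 1, by have := j.2; omega⟩
  let j' : Fin (m + 1) := Fin.cast hm j
  let b' : Fin (m + 1) → (G → Qb) := fun i => b (Fin.cast hm.symm i)
  refine Nat.find_min hP (m := m) (by omega)
    ⟨fun i => b' (j'.succAbove i), fun i => hbE _, le_antisymm ?_ ?_⟩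
  · rw [← hbM, Submodule.span_le]
    rintro _ ⟨i, rfl⟩
    exact Submodule.subset_span ⟨_, rfl⟩
  · conv_lhs => rw [← hbM]
    rw [Submodule.span_le]
    have hmem : ∀ i, i ≠ j → b i ∈ Submodule.span A (Set.range fun k => b' (j'.succAbove k)) := by
      intro i hi
      obtain ⟨k, hk⟩ := Fin.exists_succAbove_eq
        (show Fin.cast hm i ≠ j' from fun h => hi (Fin.cast_injective hm h))
      refine Submodule.subset_span ⟨k, ?_⟩
      show b (Fin.cast hm.symm (j'.succAbove k)) = b i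
      rw [hk]
      rfl
    rintro _ ⟨i, rfl⟩
    by_cases hi : i = j
    · subst hi
      have e : b i = ∑ k ∈ Finset.univ.erase i, (⟨-(a k / a i), neg_mem (hc k)⟩ : A) • b k := by
        rw [← Finset.add_sum_erase _ _ (Finset.mem_univ i)] at ha
        funext c
        have hac := congrFun ha c
        simp only [Pi.add_apply, Pi.smul_apply, smul_eq_mul, Finset.sum_apply, Pi.zero_apply] at hac
        simp only [Finset.sum_apply, smul_eq_coe_smul, Pi.smul_apply, smul_eq_mul, neg_mul,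
          Finset.sum_neg_distrib, div_mul_eq_mul_div, ← Finset.sum_div]
        field_simp
        linear_combination hac
      rw [e]
      exact sum_mem fun k hk => Submodule.smul_mem _ _ (hmem k (Finset.ne_of_mem_erase hk))
    · exact hmem i hi

omit [DistribMulAction GalQ G] in
lemma tensorSet_closure {S : Subalgebra A (G → Qb)} :
    (Submonoid.closure (tensorSet (S : Set (G → Qb))) : Set (G × G → Qb)) =
      tensorSet (S : Set (G → Qb)) := by
  refine Set.Subset.antisymm (fun F hF => ?_) Submonoid.subset_closure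
  induction hF using Submonoid.closure_induction with
  | mem x hx => exact hx
  | one => exact ⟨1, one_mem S, 1, one_mem S, funext fun x => by simp⟩
  | mul F F' _ _ hF hF' =>
    obtain ⟨a, ha, b, hb, rfl⟩ := hF
    obtain ⟨c, hc, d, hd, rfl⟩ := hF'
    exact ⟨a * c, mul_mem ha hc, b * d, mul_mem hb hd, funext fun x => by simp; ring⟩

omit [DistribMulAction GalQ G] in
lemma tensorSet_mono {S S' : Set (G → Qb)} (h : S ⊆ S') : tensorSet S ⊆ tensorSet S' := by
  rintro _ ⟨a, ha, b, hb, rfl⟩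
  exact ⟨a, h ha, b, h hb, rfl⟩

omit [DistribMulAction GalQ G] in
lemma comul_funAlg {S : Set (G → Qb)}
    (h : ∀ f ∈ S, (fun x : G × G => f (x.1 + x.2)) ∈
      Submodule.span A (tensorSet (funAlg A S : Set (G → Qb)))) {f : G → Qb}
    (hf : f ∈ funAlg A S) : (fun x : G × G => f (x.1 + x.2)) ∈
      Submodule.span A (tensorSet (funAlg A S : Set (G → Qb))) := by
  have key : ∀ F, F ∈ Submodule.span A (tensorSet (funAlg A S : Set (G → Qb))) ↔
      F ∈ Algebra.adjoin A (tensorSet (funAlg A S : Set (G → Qb))) := fun F => by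
    rw [← Subalgebra.mem_toSubmodule, Algebra.adjoin_eq_span, tensorSet_closure]
  induction hf using Algebra.adjoin_induction with
  | mem x hx => exact h x hx
  | algebraMap r => exact (key _).mpr (Subalgebra.algebraMap_mem _ r)
  | add x y _ _ hx hy => exact add_mem hx hy
  | mul x y _ _ hx hy => exact (key _).mpr (mul_mem ((key _).mp hx) ((key _).mp hy))

omit hℓ in
lemma conj_comul {σ : GalQ} (hσ : σ ∈ decoGroup A) {S T : Set (G → Qb)}
    (hST : ∀ f ∈ S, conjF σ f ∈ T) {F : G × G → Qb} (hF : F ∈ Submodule.span A (tensorSet S)) :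
    conjF σ F ∈ Submodule.span A (tensorSet T) := by
  induction hF using Submodule.span_induction with
  | mem x hx =>
    obtain ⟨a, ha, b, hb, rfl⟩ := hx
    refine Submodule.subset_span ⟨conjF σ a, hST a ha, conjF σ b, hST b hb, funext fun x => ?_⟩
    simp [conjF_apply]
  | zero => rw [← conjHom_apply, map_zero]; exact zero_mem _
  | add x y _ _ hx hy => rw [← conjHom_apply, map_add]; exact add_mem hx hy
  | smul a x _ hx =>
    have : conjF σ (a • x) = (⟨σ a, (hσ a).mpr a.2⟩ : A) • conjF σ x := conjF_smul σ a x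
    rw [this]
    exact Submodule.smul_mem _ _ hx

/-- a `ℚ̄`-basis of equivariant functions which is an `A`-basis of an algebra closed under
comultiplication -/
structure Frame (G : Type) [AddCommGroup G] [DistribMulAction GalQ G]
    (A : ValuationSubring Qb) where
  /-- the algebra -/
  alg : Subalgebra A (G → Qb)
  /-- the rank -/
  n : ℕ
  /-- the basis -/
  vec : Fin n → (G → Qb)
  val : ∀ f ∈ alg, ∀ c, f c ∈ A
  fixed : ∀ i σ, conjF σ (vec i) = vec i
  indep : LinearIndependent Qb vec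
  span_eq : Submodule.span A (Set.range vec) = Subalgebra.toSubmodule alg
  top : Submodule.span Qb (Set.range vec) = ⊤
  comul : ∀ f ∈ alg, (fun x : G × G => f (x.1 + x.2)) ∈
    Submodule.span A (Set.range fun p : Fin n × Fin n =>
      fun x : G × G => vec p.1 x.1 * vec p.2 x.2)

theorem exists_frame [Finite G] (hG : IsContinuousModule G) (hA : A.LiesOverPrime ℓ)
    (R : RawModel G A) : Nonempty (Frame G A) := by
  classical
  letI : Fintype G := Fintype.ofFinite G
  haveI := gal_compactSpace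
  let S : Set (G → Qb) := {g | ∃ σ ∈ decoGroup A, ∃ f ∈ R.gens, conjF σ f = g}
  have hgS : R.gens ⊆ S := fun f hf => ⟨1, one_mem _, f, hf, conjF_one f⟩
  have hfin : S.Finite := by
    have h1 : ∀ f : G → Qb, (Set.range fun σ : GalQ => conjF σ f).Finite := by
      intro f
      haveI : Finite (GalQ ⧸ fixSub f) :=
        Subgroup.quotient_finite_of_isOpen _ (isOpen_fixSub hG f)
      refine (Set.finite_range fun q : GalQ ⧸ fixSub f => conjF q.out f).subset ?_
      rintro _ ⟨σ, rfl⟩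
      obtain ⟨h, hh⟩ := QuotientGroup.mk_out_eq_mul (fixSub f) σ
      refine ⟨(σ : GalQ ⧸ fixSub f), ?_⟩
      show conjF _ f = _
      rw [hh, conjF_mul, show conjF (h : GalQ) f = f from h.2]
    refine (R.finite.biUnion fun f _ => h1 f).subset ?_
    rintro _ ⟨σ, -, f, hf, rfl⟩
    exact Set.mem_biUnion hf ⟨σ, rfl⟩
  have hval : ∀ f ∈ S, ∀ c, f c ∈ A := by
    rintro _ ⟨σ, hσ, f, hf, rfl⟩ c
    exact (hσ _).mpr (R.val_mem f hf _)
  have hsep : ∀ c d : G, (∀ f ∈ S, f c = f d) → c = d := fun c d h =>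
    R.separates c d fun f hf => h f (hgS hf)
  have hS : ∀ σ ∈ decoGroup A, ∀ f ∈ S, conjF σ f ∈ S := by
    rintro σ hσ _ ⟨τ, hτ, f, hf, rfl⟩
    exact ⟨σ * τ, mul_mem hσ hτ, f, hf, conjF_mul σ τ f⟩
  have hI : ∀ σ ∈ A.inertiaSubgroupIn ℚ, ∀ f ∈ S, conjF σ f = f := by
    rintro σ hσ _ ⟨τ, hτ, f, hf, rfl⟩
    have h := R.inertia _ (inertia_conj hℓ.out hA hτ hσ) f hf
    rw [← conjF_mul, show σ * τ = τ * (τ⁻¹ * σ * τ) by group, conjF_mul, h]
  obtain ⟨n, b, hbE, hind, hspan⟩ :=
    exists_indep_subset (funAlg_fg hfin hval) (span_equivariant hG hA hfin hval hsep hS hI)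
  refine ⟨⟨funAlg A S, n, b, fun f hf c => funAlg_val hval hf c, fun i => (hbE i).2, hind, hspan,
    ?_, ?_⟩⟩
  · have hsub : ∀ f ∈ funAlg A S, f ∈ Submodule.span Qb (Set.range b) := fun f hf => by
      have hf' : f ∈ Submodule.span A (Set.range b) := by rw [hspan]; exact hf
      exact Submodule.span_le_restrictScalars A Qb _ hf'
    obtain ⟨N, hN⟩ := funAlg_contains hA hval hsep
    have hℓN : ((ℓ : Qb) ^ N) ≠ 0 := pow_ne_zero _ (Nat.cast_ne_zero.mpr hℓ.out.ne_zero)
    refine eq_top_iff.mpr fun f _ => ?_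
    rw [show f = ∑ c, (f c * ((ℓ : Qb) ^ N)⁻¹) • (Pi.single c ((ℓ : Qb) ^ N) : G → Qb) from
      funext fun d => by
        simp [Finset.sum_apply, Pi.single_apply, Finset.sum_ite_eq, hℓN, mul_assoc]]
    refine sum_mem fun c _ => Submodule.smul_mem _ _ (hsub _ (hN _ fun d => ?_))
    rw [Pi.single_apply]
    split_ifs with h <;> simp [hℓN, zero_mem, one_mem]
  · intro f hf
    have hgen : ∀ f ∈ S, (fun x : G × G => f (x.1 + x.2)) ∈
        Submodule.span A (tensorSet (funAlg A S : Set (G → Qb))) := by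
      rintro _ ⟨σ, hσ, f, hf, rfl⟩
      have h := conj_comul hσ (T := (funAlg A S : Set (G → Qb)))
        (fun g hg => funAlg_conj hσ (hS σ hσ) (Algebra.adjoin_mono hgS hg)) (R.comul f hf)
      convert! h using 1
      funext x
      simp [conjF_apply, smul_add]
    refine Submodule.span_le.mpr ?_ (comul_funAlg hgen hf)
    rintro _ ⟨u, hu, v, hv, rfl⟩
    rw [SetLike.mem_coe, ← Subalgebra.mem_toSubmodule, ← hspan,
      Submodule.mem_span_range_iff_exists_fun] at hu hv
    obtain ⟨a, rfl⟩ := hu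
    obtain ⟨a', rfl⟩ := hv
    rw [SetLike.mem_coe, Submodule.mem_span_range_iff_exists_fun]
    refine ⟨fun p => a p.1 * a' p.2, funext fun x => ?_⟩
    simp only [Finset.sum_apply, smul_eq_coe_smul, Pi.smul_apply, smul_eq_mul,
      Fintype.sum_prod_type, Finset.sum_mul, Finset.mul_sum]
    conv_rhs => rw [Finset.sum_comm]
    refine Finset.sum_congr rfl fun i _ => Finset.sum_congr rfl fun j _ => ?_
    push_cast
    ring

end FLTAgent.Flat
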