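import Fermat.Agent.Flat.LinAlg

/-!
Kernels of matrices over algebras of integral functions on a finite set.
-/

set_option autoImplicit false
set_option linter.unusedSectionVars false

noncomputable section

open IsLocalRing Matrix

namespace FLTAgent.Flat

variable {K : Type*} [Field K] {A : ValuationSubring K}

open scoped Classical in
/-- the residue, extended by zero -/
def resA (A : ValuationSubring K) (a : K) : ResidueField A :=
  if h : a ∈ A then residue A ⟨a, h⟩ else 0

theorem resA_of_mem {a : K} (h : a ∈ A) : resA A a = residue A ⟨a, h⟩ := dif_pos h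

theorem resA_coe (a : A) : resA A (a : K) = residue A a := resA_of_mem a.2

theorem resA_zero : resA A (0 : K) = 0 :=
  (resA_of_mem A.zero_mem).trans ((congrArg (residue A) (Subtype.ext rfl)).trans (map_zero (residue A)))

theorem resA_one : resA A (1 : K) = 1 :=
  (resA_of_mem A.one_mem).trans ((congrArg (residue A) (Subtype.ext rfl)).trans (map_one (residue A)))

theorem resA_add {a b : K} (ha : a ∈ A) (hb : b ∈ A) : resA A (a + b) = resA A a + resA A b := by
  rw [resA_of_mem ha, resA_of_mem hb, resA_of_mem (A.add_mem _ _ ha hb), ← map_add]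
  rfl

theorem resA_mul {a b : K} (ha : a ∈ A) (hb : b ∈ A) : resA A (a * b) = resA A a * resA A b := by
  rw [resA_of_mem ha, resA_of_mem hb, resA_of_mem (A.mul_mem _ _ ha hb), ← map_mul]
  rfl

theorem resA_sum {ι : Type*} (s : Finset ι) (f : ι → K) (h : ∀ i ∈ s, f i ∈ A) :
    resA A (∑ i ∈ s, f i) = ∑ i ∈ s, resA A (f i) := by
  classical
  induction s using Finset.induction_on with
  | empty => simp [resA_zero]
  | insert a s ha ih =>
    rw [Finset.sum_insert ha, Finset.sum_insert ha, resA_add (h a (Finset.mem_insert_self a s))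
      (A.toSubring.sum_mem fun i hi => h i (Finset.mem_insert_of_mem hi)),
      ih fun i hi => h i (Finset.mem_insert_of_mem hi)]

variable {ι κ : Type*} [Fintype ι]

theorem sum_mem_A (f : ι → K) (h : ∀ i, f i ∈ A) : ∑ i, f i ∈ A :=
  A.toSubring.sum_mem fun i _ => h i

/-- reduction of a matrix -/
def rmat (A : ValuationSubring K) (M : Matrix κ ι K) : Matrix κ ι (ResidueField A) := M.map (resA A)

theorem rmat_mulVec {M : Matrix κ ι K} (hM : ∀ r i, M r i ∈ A) {x : ι → K} (hx : ∀ i, x i ∈ A)
    (r : κ) : resA A ((M *ᵥ x) r) = (rmat A M *ᵥ fun i => resA A (x i)) r := by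
  simp only [mulVec, dotProduct, rmat, Matrix.map_apply]
  rw [resA_sum _ _ fun i _ => A.mul_mem _ _ (hM r i) (hx i)]
  exact Finset.sum_congr rfl fun i _ => resA_mul (hM r i) (hx i)

/-- a nonzero vector is a multiple of a primitive one -/
theorem exists_primitive {x : ι → K} (hx : x ≠ 0) :
    ∃ (a : K) (y : ι → K), a ≠ 0 ∧ (∀ i, y i ∈ A) ∧ (fun i => resA A (y i)) ≠ 0 ∧ x = a • y := by
  classical
  obtain ⟨i, hi⟩ := Function.ne_iff.mp hx
  obtain ⟨i₀, -, hmax⟩ := Finset.univ.exists_max_image (fun j => A.valuation (x j))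
    ⟨i, Finset.mem_univ i⟩
  have h0 : x i₀ ≠ 0 := by
    intro h
    have := hmax i (Finset.mem_univ i)
    simp only [h, map_zero, le_zero_iff, map_eq_zero] at this
    exact hi this
  refine ⟨x i₀, fun j => x j / x i₀, h0, fun j => (A.valuation_le_one_iff _).mp ?_, ?_, ?_⟩
  · rw [map_div₀, div_le_one₀ (zero_lt_iff.mpr ((Valuation.ne_zero_iff _).mpr h0))]
    exact hmax j (Finset.mem_univ j)
  · intro h
    have := congrFun h i₀
    simp [div_self h0, resA_one] at this
  · funext j
    simp [mul_div_cancel₀ _ h0]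

/-- residual injectivity makes solutions integral -/
theorem mem_of_mulVec {M : Matrix κ ι K} (hM : ∀ r i, M r i ∈ A)
    (hinj : ∀ v : ι → ResidueField A, rmat A M *ᵥ v = 0 → v = 0) {x : ι → K}
    (hb : ∀ r, (M *ᵥ x) r ∈ A) : ∀ i, x i ∈ A := by
  classical
  rcases eq_or_ne x 0 with rfl | hx
  · exact fun i => A.zero_mem
  obtain ⟨a, y, ha, hy, hy0, rfl⟩ := exists_primitive (A := A) hx
  have haA : a ∈ A := by
    by_contra haA
    have hinv : a⁻¹ ∈ A := (A.mem_or_inv_mem a).resolve_left haA
    refine hy0 (hinj _ (funext fun r => ?_))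
    rw [← rmat_mulVec hM hy, Pi.zero_apply]
    have e : (M *ᵥ y) r = a⁻¹ * (M *ᵥ (a • y)) r := by
      rw [Matrix.mulVec_smul, Pi.smul_apply, smul_eq_mul, inv_mul_cancel_left₀ ha]
    rw [e, resA_mul hinv (hb r), resA_of_mem hinv]
    have h0 : residue A ⟨a⁻¹, hinv⟩ = 0 := by
      rw [residue_eq_zero_iff, mem_maximalIdeal]
      intro hu
      obtain ⟨w, hw⟩ := hu.exists_right_inv
      refine haA ?_
      have h3 : a⁻¹ * (w : K) = 1 := congrArg Subtype.val hw
      rw [show a = (w : K) by rw [← mul_inv_cancel_left₀ ha (w : K), h3, mul_one]]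
      exact w.2
    rw [h0, zero_mul]
  exact fun i => A.mul_mem _ _ haA (hy i)

theorem eq_zero_of_mulVec {M : Matrix κ ι K} (hM : ∀ r i, M r i ∈ A)
    (hinj : ∀ v : ι → ResidueField A, rmat A M *ᵥ v = 0 → v = 0) {x : ι → K}
    (hx : M *ᵥ x = 0) : x = 0 := by
  by_contra h
  obtain ⟨a, y, ha, hy, hy0, rfl⟩ := exists_primitive (A := A) h
  refine hy0 (hinj _ (funext fun r => ?_))
  rw [← rmat_mulVec hM hy, Pi.zero_apply]
  rw [Matrix.mulVec_smul] at hx
  rw [(smul_eq_zero.mp hx).resolve_left ha, Pi.zero_apply, resA_zero]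

/-- stacking coordinates under a matrix -/
abbrev stack {u : ℕ} (M : Matrix κ ι K) (T : Matrix (Fin u) ι K) : Matrix (κ ⊕ Fin u) ι K :=
  Matrix.of (Sum.elim (fun r => M r) (fun l => T l))

theorem stack_mem {u : ℕ} {M : Matrix κ ι K} {T : Matrix (Fin u) ι K} (hM : ∀ r i, M r i ∈ A)
    (hT : ∀ l i, T l i ∈ A) : ∀ r i, stack M T r i ∈ A := by
  rintro (r | l) i
  · exact hM r i
  · exact hT l i

theorem stack_mulVec {u : ℕ} (M : Matrix κ ι K) (T : Matrix (Fin u) ι K) (x : ι → K) :
    stack M T *ᵥ x = Sum.elim (M *ᵥ x) (T *ᵥ x) := by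
  funext r; cases r <;> rfl

theorem rmat_stack_mulVec {u : ℕ} (M : Matrix κ ι K) (T : Matrix (Fin u) ι K)
    (v : ι → ResidueField A) :
    rmat A (stack M T) *ᵥ v = Sum.elim (rmat A M *ᵥ v) (rmat A T *ᵥ v) := by
  funext r; cases r <;> rfl

theorem stack_inj {u : ℕ} {M : Matrix κ ι K} {T : Matrix (Fin u) ι K}
    (h : ∀ v, rmat A M *ᵥ v = 0 → rmat A T *ᵥ v = 0 → v = 0) :
    ∀ v : ι → ResidueField A, rmat A (stack M T) *ᵥ v = 0 → v = 0 := by
  intro v hv
  rw [rmat_stack_mulVec] at hv
  exact h v (funext fun r => congrFun hv (Sum.inl r)) (funext fun l => congrFun hv (Sum.inr l))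

/-- the residual kernel is at least as big -/
theorem finrank_ker_le {M : Matrix κ ι K} (hM : ∀ r i, M r i ∈ A) :
    Module.finrank K (LinearMap.ker M.mulVecLin) ≤
      Module.finrank (ResidueField A) (LinearMap.ker (rmat A M).mulVecLin) := by
  classical
  set W := LinearMap.ker (rmat A M).mulVecLin
  set u := Module.finrank (ResidueField A) W
  let c : W ≃ₗ[ResidueField A] (Fin u → ResidueField A) :=
    LinearEquiv.ofFinrankEq _ _ (by rw [Module.finrank_fin_fun])
  obtain ⟨g, hg⟩ := W.subtype.exists_leftInverse_of_injective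
    (LinearMap.ker_eq_bot.mpr Subtype.val_injective)
  set Tb := LinearMap.toMatrix' (c.toLinearMap.comp g)
  choose T hT using fun (l : Fin u) (i : ι) => residue_surjective (R := A) (Tb l i)
  set TK : Matrix (Fin u) ι K := fun l i => (T l i : K)
  have hinj : ∀ v, rmat A M *ᵥ v = 0 → rmat A TK *ᵥ v = 0 → v = 0 := by
    intro v hv ht
    have e : rmat A TK = Tb := by
      ext l i; show resA A (T l i : K) = _; rw [resA_coe, hT]
    rw [e, LinearMap.toMatrix'_mulVec] at ht
    have hgv : g v = ⟨v, hv⟩ := LinearMap.congr_fun hg ⟨v, hv⟩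
    rw [LinearMap.comp_apply, hgv] at ht
    exact congrArg Subtype.val (c.map_eq_zero_iff.mp ht)
  refine (LinearMap.finrank_le_finrank_of_injective
    (f := (TK.mulVecLin).comp (LinearMap.ker M.mulVecLin).subtype) ?_).trans
      (le_of_eq (Module.finrank_fin_fun K))
  rw [← LinearMap.ker_eq_bot, LinearMap.ker_eq_bot']
  rintro ⟨x, hx⟩ ht
  refine Subtype.ext (eq_zero_of_mulVec (stack_mem (T := TK) hM fun l i => (T l i).2) (stack_inj hinj) ?_)
  rw [stack_mulVec]
  funext r
  cases r with
  | inl r => exact congrFun hx r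
  | inr l => exact congrFun ht l

/-- normalised solutions in a space with good reduction -/
theorem exists_normalised {u : ℕ} (W : Submodule K (ι → K))
    (Wb : Submodule (ResidueField A) (ι → ResidueField A))
    (hred : ∀ x ∈ W, (∀ i, x i ∈ A) → (fun i => resA A (x i)) ∈ Wb)
    (hW : u ≤ Module.finrank K W) {T : Matrix (Fin u) ι K} (hT : ∀ l i, T l i ∈ A)
    (hinj : ∀ v ∈ Wb, rmat A T *ᵥ v = 0 → v = 0) :
    (∀ x ∈ W, T *ᵥ x = 0 → x = 0) ∧ (∀ x ∈ W, (∀ l, (T *ᵥ x) l ∈ A) → ∀ i, x i ∈ A) ∧
      Module.finrank K W = u ∧ ∀ b : Fin u → K, ∃ x ∈ W, T *ᵥ x = b := by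
  classical
  have h1 : ∀ x ∈ W, T *ᵥ x = 0 → x = 0 := by
    intro x hx ht
    by_contra h
    obtain ⟨a, y, ha, hy, hy0, rfl⟩ := exists_primitive (A := A) h
    refine hy0 (hinj _ (hred y ((W.smul_mem_iff ha).mp hx) hy) (funext fun l => ?_))
    rw [Matrix.mulVec_smul] at ht
    rw [← rmat_mulVec hT hy, (smul_eq_zero.mp ht).resolve_left ha, Pi.zero_apply, resA_zero,
      Pi.zero_apply]
  refine ⟨h1, fun x hx hb => ?_, ?_⟩
  · rcases eq_or_ne x 0 with rfl | hx0
    · exact fun i => A.zero_mem
    obtain ⟨a, y, ha, hy, hy0, rfl⟩ := exists_primitive (A := A) hx0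
    have hyW := (W.smul_mem_iff ha).mp hx
    obtain ⟨l, hl⟩ : ∃ l, resA A ((T *ᵥ y) l) ≠ 0 := by
      by_contra h
      push Not at h
      exact hy0 (hinj _ (hred y hyW hy) (funext fun l => by
        rw [← rmat_mulVec hT hy, h l, Pi.zero_apply]))
    have hTy : (T *ᵥ y) l ∈ A := sum_mem_A _ fun i => A.mul_mem _ _ (hT l i) (hy i)
    have hu : IsUnit (⟨(T *ᵥ y) l, hTy⟩ : A) := by
      rw [resA_of_mem hTy] at hl
      exact (IsLocalRing.notMem_maximalIdeal).mp fun h => hl ((residue_eq_zero_iff _).mpr h)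
    obtain ⟨v, hv⟩ := hu.exists_right_inv
    have haA : a ∈ A := by
      have h2 := A.mul_mem _ _ (hb l) v.2
      rw [Matrix.mulVec_smul, Pi.smul_apply, smul_eq_mul, mul_assoc] at h2
      have h3 : (T *ᵥ y) l * (v : K) = 1 := congrArg Subtype.val hv
      rwa [h3, mul_one] at h2
    exact fun i => A.mul_mem _ _ haA (hy i)
  · let f : W →ₗ[K] (Fin u → K) := T.mulVecLin.comp W.subtype
    have hf : Function.Injective f := by
      rw [← LinearMap.ker_eq_bot, LinearMap.ker_eq_bot']
      exact fun x hx => Subtype.ext (h1 _ x.2 hx)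
    have hle := LinearMap.finrank_le_finrank_of_injective hf
    rw [Module.finrank_fin_fun] at hle
    refine ⟨le_antisymm hle hW, fun b => ?_⟩
    obtain ⟨x, hx⟩ := (LinearMap.injective_iff_surjective_of_finrank_eq_finrank
      (by rw [Module.finrank_fin_fun]; omega)).mp hf b
    exact ⟨x.1, x.2, hx⟩

variable {X : Type*} [Finite X] [Infinite (ResidueField A)] [Finite κ]

/-- kernels of constant dimension on both fibres have bases in the algebra -/
theorem exists_kernel_basis {n : ℕ} (S : Subalgebra A (X → K)) (hS : ∀ f ∈ S, ∀ x, f x ∈ A)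
    (M : κ → Fin n → X → K) (hM : ∀ r i, M r i ∈ S) (u : ℕ)
    (hgen : ∀ x, u ≤ Module.finrank K (LinearMap.ker (Matrix.of fun r i => M r i x).mulVecLin))
    (hres : ∀ x, Module.finrank (ResidueField A)
      (LinearMap.ker (rmat A (Matrix.of fun r i => M r i x)).mulVecLin) ≤ u) :
    ∃ q : Fin u → Fin n → X → K, (∀ l i, q l i ∈ S) ∧
      (∀ x l, (Matrix.of fun r i => M r i x) *ᵥ (fun i => q l i x) = 0) ∧
      (∀ x, LinearIndependent (ResidueField A) fun l i => resA A (q l i x)) ∧
      (∀ x v, (Matrix.of fun r i => M r i x) *ᵥ v = 0 →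
        v ∈ Submodule.span K (Set.range fun l i => q l i x)) := by
  classical
  have := Fintype.ofFinite κ
  set Mx : X → Matrix κ (Fin n) K := fun x => Matrix.of fun r i => M r i x
  have hMA : ∀ x r i, Mx x r i ∈ A := fun x r i => hS _ (hM r i) x
  set Wb := fun x => LinearMap.ker (rmat A (Mx x)).mulVecLin
  have hWb : ∀ x, Module.finrank (ResidueField A) (Wb x) = u := fun x =>
    le_antisymm (hres x) ((hgen x).trans (finrank_ker_le (hMA x)))
  obtain ⟨Tb, hTb⟩ := exists_common_coords Wb hWb
  choose T hT using fun (l : Fin u) (i : Fin n) =>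
    residue_surjective (R := A) (LinearMap.toMatrix' Tb l i)
  set TK : Matrix (Fin u) (Fin n) K := fun l i => (T l i : K)
  have e : rmat A TK = LinearMap.toMatrix' Tb := by
    ext l i; show resA A (T l i : K) = _; rw [resA_coe, hT]
  have hinj : ∀ x, ∀ v ∈ Wb x, rmat A TK *ᵥ v = 0 → v = 0 := fun x v hv h => by
    rw [e, LinearMap.toMatrix'_mulVec] at h
    exact hTb x v hv h
  have hN := fun x => exists_normalised (LinearMap.ker (Mx x).mulVecLin) (Wb x)
    (fun y hy hyA => funext fun r => by
      show (rmat A (Mx x) *ᵥ fun i => resA A (y i)) r = 0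
      rw [← rmat_mulVec (hMA x) hyA, show Mx x *ᵥ y = 0 from hy, Pi.zero_apply, resA_zero])
    (hgen x) (T := TK) (fun l i => (T l i).2) (hinj x)
  choose q hqW hqT using fun x l => (hN x).2.2.2 (Pi.single l 1)
  have hqA : ∀ x l i, q x l i ∈ A := fun x l => (hN x).2.1 _ (hqW x l) fun l' => by
    rw [hqT, Pi.single_apply]; split_ifs <;> [exact A.one_mem; exact A.zero_mem]
  refine ⟨fun l i x => q x l i, fun l i => ?_, fun x l => hqW x l, fun x => ?_, fun x v hv => ?_⟩
  · refine mem_of_residually_injective S hS (ι := Fin n) (κ := κ ⊕ Fin u)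
      (fun r i => Sum.elim (fun r => M r i) (fun l x => TK l i) r) ?_
      (fun r => Sum.elim (fun _ => 0) (fun l' _ => (Pi.single l 1 : Fin u → K) l') r) ?_ ?_
      (fun j x => q x l j) ?_ i
    · rintro (r | l') j
      · exact hM r j
      · exact S.algebraMap_mem (T l' j)
    · rintro (r | l')
      · exact S.zero_mem
      · by_cases h : l' = l
        · subst h
          simp only [Sum.elim_inr, Pi.single_eq_same]
          exact S.one_mem
        · simp only [Sum.elim_inr, Pi.single_eq_of_ne h]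
          exact S.zero_mem
    · intro x v hv
      refine hinj x v (funext fun r => ?_) (funext fun l' => ?_)
      · have h := hv (Sum.inl r)
        simp only [← resA_of_mem, Sum.elim_inl] at h
        exact h
      · have h := hv (Sum.inr l')
        simp only [← resA_of_mem, Sum.elim_inr] at h
        exact h
    · rintro (r | l') x
      · exact congrFun (hqW x l) r
      · exact congrFun (hqT x l) l'
  · rw [Fintype.linearIndependent_iff]
    intro a ha l
    have h := congrArg (fun v => (rmat A TK *ᵥ v) l) ha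
    simp only [Matrix.mulVec_sum, Matrix.mulVec_smul, Finset.sum_apply, Pi.smul_apply, smul_eq_mul,
      Matrix.mulVec_zero, Pi.zero_apply] at h
    rw [Finset.sum_eq_single l] at h
    · rw [← rmat_mulVec (fun l i => (T l i).2) (hqA x l), hqT, Pi.single_eq_same, resA_one,
        mul_one] at h
      exact h
    · intro l' _ hl'
      rw [← rmat_mulVec (fun l i => (T l i).2) (hqA x l'), hqT, Pi.single_eq_of_ne (Ne.symm hl'),
        resA_zero, mul_zero]
    · simp
  · have h0 : v - ∑ l, (TK *ᵥ v) l • q x l = 0 := by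
      refine (hN x).1 _ ?_ ?_
      · exact sub_mem hv (Submodule.sum_mem _ fun l _ => Submodule.smul_mem _ _ (hqW x l))
      · rw [Matrix.mulVec_sub, Matrix.mulVec_sum, sub_eq_zero]
        funext l
        simp [Matrix.mulVec_smul, hqT, Pi.single_apply, Finset.sum_apply]
    rw [sub_eq_zero] at h0
    rw [h0]
    exact Submodule.sum_mem _ fun l _ => Submodule.smul_mem _ _ (Submodule.subset_span ⟨l, rfl⟩)

theorem submatrix_symm_mulVec {R : Type*} [CommSemiring R] {κ' ι' : Type*} [Fintype ι'] {n : ℕ}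
    (e : ι' ≃ Fin n) (N : Matrix κ' ι' R) (v : Fin n → R) :
    N.submatrix id e.symm *ᵥ v = N *ᵥ (v ∘ e) :=
  funext fun r => (Fintype.sum_equiv e _ _ fun i => by simp).symm

theorem finrank_ker_submatrix {R : Type*} [Field R] {κ' ι' : Type*} [Fintype ι'] {n : ℕ}
    (e : ι' ≃ Fin n) (N : Matrix κ' ι' R) :
    Module.finrank R (LinearMap.ker (N.submatrix id e.symm).mulVecLin) =
      Module.finrank R (LinearMap.ker N.mulVecLin) := by
  rw [show LinearMap.ker (N.submatrix id e.symm).mulVecLin =
      (LinearMap.ker N.mulVecLin).comap (LinearEquiv.funCongrLeft R R e).toLinearMap by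
    ext v
    simp only [LinearMap.mem_ker, Submodule.mem_comap, Matrix.mulVecLin_apply,
      submatrix_symm_mulVec]
    rfl]
  exact (Submodule.comap_equiv_self_of_inj_of_le (LinearEquiv.injective _)
    (by rw [LinearEquiv.range]; exact le_top)).finrank_eq

theorem exists_kernel_basis' {ι' : Type*} [Fintype ι'] (S : Subalgebra A (X → K))
    (hS : ∀ f ∈ S, ∀ x, f x ∈ A) (M : κ → ι' → X → K) (hM : ∀ r i, M r i ∈ S) (u : ℕ)
    (hgen : ∀ x, u ≤ Module.finrank K (LinearMap.ker (Matrix.of fun r i => M r i x).mulVecLin))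
    (hres : ∀ x, Module.finrank (ResidueField A)
      (LinearMap.ker (rmat A (Matrix.of fun r i => M r i x)).mulVecLin) ≤ u) :
    ∃ q : Fin u → ι' → X → K, (∀ l i, q l i ∈ S) ∧
      (∀ x l, (Matrix.of fun r i => M r i x) *ᵥ (fun i => q l i x) = 0) ∧
      (∀ x, LinearIndependent (ResidueField A) fun l i => resA A (q l i x)) ∧
      (∀ x v, (Matrix.of fun r i => M r i x) *ᵥ v = 0 →
        v ∈ Submodule.span K (Set.range fun l i => q l i x)) := by
  classical
  set e := Fintype.equivFin ι'
  have hmul := fun (N : Matrix κ ι' K) v => submatrix_symm_mulVec e N v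
  obtain ⟨q, h1, h2, h3, h4⟩ := exists_kernel_basis S hS (fun r i => M r (e.symm i))
    (fun r i => hM r _) u
    (fun x => le_of_le_of_eq (hgen x) (finrank_ker_submatrix e (Matrix.of fun r i => M r i x)).symm)
    (fun x => le_of_eq_of_le (finrank_ker_submatrix e (rmat A (Matrix.of fun r i => M r i x))) (hres x))
  refine ⟨fun l i => q l (e i), fun l i => h1 l _, fun x l => ?_, fun x => ?_, fun x v hv => ?_⟩
  · have := h2 x l
    rwa [show (Matrix.of fun r i => M r (e.symm i) x) =
      (Matrix.of fun r i => M r i x).submatrix id e.symm from rfl, hmul] at this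
  · exact (h3 x).map' (LinearEquiv.funCongrLeft (ResidueField A) (ResidueField A) e).toLinearMap
      (LinearEquiv.ker _)
  · have h0 : (Matrix.of fun r i => M r i x).submatrix id e.symm *ᵥ (v ∘ e.symm) = 0 := by
      rw [hmul]; simpa [Function.comp_def] using hv
    have := Submodule.apply_mem_span_image_of_mem_span
      (LinearEquiv.funCongrLeft K K e).toLinearMap (h4 x _ h0)
    rw [← Set.range_comp] at this
    have ev : (LinearEquiv.funCongrLeft K K e).toLinearMap (v ∘ e.symm) = v :=
      funext fun i => by simp [LinearMap.funLeft]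
    rw [ev] at this
    exact this

end FLTAgent.Flat
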