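import Fermat.Agent.Reduction.Compat

/-!
Lattices of Gauss integral elements in finite dimensional spaces of functions on `X₀(N)`.
-/

set_option autoImplicit false
set_option linter.unusedSectionVars false
set_option synthInstance.maxHeartbeats 100000

noncomputable section

open ModularCurve AlgebraicCurve IsLocalRing

namespace FLTAgent.Flat

open FLTAgent.Reduction

variable {A : ValuationSubring Qb} {N : ℕ} [NeZero N] {ℓ : ℕ}

/-- the action of Galois on functions and places -/
abbrev gal (N : ℕ) (σ : AlgebraicClosure ℚ ≃ₐ[ℚ] AlgebraicClosure ℚ) :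
    SemilinearAut Qb (FB N) :=
  arithmeticGalois (modularFunctionFieldFull N) σ

/-- a basis of `V` integral with independent reductions -/
structure LatBasis (A : ValuationSubring Qb) (N : ℕ) [NeZero N] (V : Submodule Qb (FB N))
    (d : ℕ) where
  /-- the elements -/
  b : Fin d → FB N
  mem : ∀ i, b i ∈ V
  int : ∀ i, b i ∈ GR A N
  indep : LinearIndependent (kA A) fun i => red A N (b i)
  span : V ≤ Submodule.span Qb (Set.range b)

/-- the coefficient of `qⁿ` -/
def cf (N : ℕ) [NeZero N] (n : ℤ) : FB N →ₗ[Qb] Qb where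
  toFun y := (y : LaurentSeries Qb).coeff n
  map_add' x y := by rw [AddMemClass.coe_add, HahnSeries.coeff_add]
  map_smul' c y := by
    show ((c • y : FB N) : LaurentSeries Qb).coeff n = c • (y : LaurentSeries Qb).coeff n
    rw [Algebra.smul_def, MulMemClass.coe_mul]
    show ((cB N c : FB N) * (y : LaurentSeries Qb) : LaurentSeries Qb).coeff n = _
    rw [coe_cB, ← HahnSeries.C_apply, HahnSeries.C_mul_eq_smul, HahnSeries.coeff_smul]

theorem cf_apply (n : ℤ) (y : FB N) : cf N n y = (y : LaurentSeries Qb).coeff n := rfl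

theorem cf_gal (σ : AlgebraicClosure ℚ ≃ₐ[ℚ] AlgebraicClosure ℚ) (n : ℤ) (y : FB N) :
    cf N n (gal N σ • y) = σ (cf N n y) := rfl

theorem ext_cf {y z : FB N} (h : ∀ n, cf N n y = cf N n z) : y = z :=
  Subtype.ext (HahnSeries.ext (funext h))

/-- finitely many coefficients are coordinates on a finite dimensional space -/
theorem exists_pivots (V : Submodule Qb (FB N)) [FiniteDimensional Qb V] :
    ∃ (d : ℕ) (n : Fin d → ℤ) (e : Fin d → FB N), (∀ k, e k ∈ V) ∧
      (∀ k l, cf N (n l) (e k) = if l = k then 1 else 0) ∧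
      ∀ v ∈ V, v = ∑ k, cf N (n k) v • e k := by
  classical
  suffices H : ∀ m, ∀ V : Submodule Qb (FB N), FiniteDimensional Qb V → Module.finrank Qb V ≤ m →
      ∃ (d : ℕ) (n : Fin d → ℤ) (e : Fin d → FB N), (∀ k, e k ∈ V) ∧
        (∀ k l, cf N (n l) (e k) = if l = k then 1 else 0) ∧
        ∀ v ∈ V, v = ∑ k, cf N (n k) v • e k from H _ V inferInstance le_rfl
  intro m
  induction m with
  | zero =>
    intro V _ hm
    refine ⟨0, Fin.elim0, Fin.elim0, fun k => k.elim0, fun k => k.elim0, fun v hv => ?_⟩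
    have : V = ⊥ := Submodule.finrank_eq_zero.mp (by omega)
    rw [this, Submodule.mem_bot] at hv
    simp [hv]
  | succ m ih =>
    intro V _ hm
    by_cases h0 : V = ⊥
    · exact ih V inferInstance (by rw [h0, finrank_bot]; omega)
    obtain ⟨w, hw, hw0⟩ := V.exists_mem_ne_zero_of_ne_bot h0
    obtain ⟨n0, hn0⟩ : ∃ n, cf N n w ≠ 0 := by
      by_contra h
      push Not at h
      exact hw0 (ext_cf fun n => by rw [h n, map_zero])
    set V' := V ⊓ LinearMap.ker (cf N n0) with hV'
    have : FiniteDimensional Qb V' := Submodule.finiteDimensional_inf_left _ _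
    have hlt : V' < V := lt_of_le_of_ne inf_le_left fun h => hn0 (by
      rw [← h] at hw
      exact hw.2)
    obtain ⟨d, n, e, he, hd, hv⟩ := ih V' this (by
      have := Submodule.finrank_lt_finrank_of_lt hlt
      omega)
    set x := (cf N n0 w)⁻¹ • w with hx
    have hxn : cf N n0 x = 1 := by rw [hx, map_smul, smul_eq_mul, inv_mul_cancel₀ hn0]
    set w1 := x - ∑ k, cf N (n k) x • e k with hw1
    have hek : ∀ k, cf N n0 (e k) = 0 := fun k => (he k).2
    refine ⟨d + 1, Fin.cons n0 n, Fin.cons w1 e, ?_, ?_, ?_⟩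
    · refine Fin.cases ?_ fun k => ?_
      · exact sub_mem (V.smul_mem _ hw) (V.sum_mem fun k _ => V.smul_mem _ (he k).1)
      · simpa using (he k).1
    · refine Fin.cases ?_ fun k => ?_ <;> refine Fin.cases ?_ fun l => ?_
      · simp [hw1, hek, hxn]
      · simp [hw1, hd, Fin.succ_ne_zero]
      · simp [hek, Ne.symm (Fin.succ_ne_zero k)]
      · simp [hd]
    · intro v hvV
      have h' : v - cf N n0 v • w1 ∈ V' := by
        refine ⟨sub_mem hvV (V.smul_mem _ (sub_mem (V.smul_mem _ hw)
          (V.sum_mem fun k _ => V.smul_mem _ (he k).1))), ?_⟩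
        simp [hw1, hek, hxn]
      have h2 := hv _ h'
      have hw1k : ∀ k, cf N (n k) w1 = 0 := fun k => by simp [hw1, hd]
      simp only [map_sub, map_smul, hw1k, smul_zero, sub_zero] at h2
      simp only [Fin.sum_univ_succ, Fin.cons_zero, Fin.cons_succ]
      rw [← h2]
      abel

variable (C : Ctx A N ℓ)
include C

/-- coefficients of reductions of integral series -/
theorem cf_red {y : FB N} (h : ∀ n, cf N n y ∈ A) (n : ℤ) :
    ((red A N y : FS A N) : LaurentSeries (kA A)).coeff n = residue A ⟨cf N n y, h n⟩ := by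
  obtain ⟨G, hG⟩ := exists_series A h
  have hy : y ∈ GR A N := mem_GR_of_series hG
  rw [coe_red C hy, redS_series hG]
  show residue A (G.coeff n) = _
  congr 1
  refine Subtype.ext ?_
  show A.subtype (G.coeff n) = cf N n y
  rw [cf_apply, ← hG]
  rfl

set_option maxHeartbeats 1000000 in
/-- bases over a subfield of constants, for spaces where integral elements are series -/
theorem exists_orth (P : Qb → Prop) (hinv : ∀ c, P c → P c⁻¹) :
    ∀ (m : ℕ) (V : Submodule Qb (FB N)), FiniteDimensional Qb V → Module.finrank Qb V ≤ m →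
    (∀ y ∈ V, y ∈ GR A N → ∀ n, cf N n y ∈ A) →
    ∀ W : Set (FB N), (∀ w ∈ W, ∀ n, P (cf N n w)) → (∀ c, P c → ∀ w ∈ W, c • w ∈ W) →
      (∀ v ∈ W, ∀ w ∈ W, v - w ∈ W) → W ⊆ V → V ≤ Submodule.span Qb W →
    ∃ (d : ℕ) (b : Fin d → FB N), (∀ i, b i ∈ W) ∧ (∀ i, b i ∈ GR A N) ∧
      LinearIndependent (kA A) (fun i => red A N (b i)) ∧
      V ≤ Submodule.span Qb (Set.range b) := by
  intro m
  induction m with
  | zero =>
    intro V _ hm _ W _ _ _ _ _
    refine ⟨0, Fin.elim0, fun i => i.elim0, fun i => i.elim0, linearIndependent_empty_type, ?_⟩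
    rw [Submodule.finrank_eq_zero.mp (show Module.finrank Qb V = 0 by omega)]
    exact bot_le
  | succ m ih =>
    intro V _ hm hser W hP hsmul hsub hWV hspan
    by_cases h0 : V = ⊥
    · exact ih V inferInstance (by rw [h0, finrank_bot]; omega) hser W hP hsmul hsub hWV hspan
    obtain ⟨w, hw, hw0⟩ : ∃ w ∈ W, w ≠ 0 := by
      by_contra h
      push Not at h
      exact h0 (le_bot_iff.mp (hspan.trans (Submodule.span_le.mpr h)))
    obtain ⟨c, u, hc, hu, hwu⟩ := exists_scale_UG C hw0
    have huV : u ∈ V := by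
      have : u = c⁻¹ • w := by
        rw [hwu, Algebra.smul_def]
        show u = cB N c⁻¹ * (cB N c * u)
        rw [← mul_assoc, ← map_mul, inv_mul_cancel₀ hc, map_one, one_mul]
      rw [this]
      exact V.smul_mem _ (hWV hw)
    have hus := hser u huV hu.1
    obtain ⟨n, hn⟩ : ∃ n, residue A ⟨cf N n u, hus n⟩ ≠ 0 := by
      by_contra h
      push Not at h
      refine hu.2 (Subtype.ext (HahnSeries.ext (funext fun n => ?_)))
      rw [cf_red C hus, h n]
      rfl
    have hun : IsUnit (⟨cf N n u, hus n⟩ : A) := (IsLocalRing.notMem_maximalIdeal).mp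
      fun h => hn ((residue_eq_zero_iff _).mpr h)
    have hun0 : cf N n u ≠ 0 := fun h => hn (by
      rw [show (⟨cf N n u, hus n⟩ : A) = 0 from Subtype.ext h, map_zero])
    have hwn : cf N n w = c * cf N n u := by
      rw [hwu, show cB N c * u = c • u from (Algebra.smul_def c u).symm, map_smul, smul_eq_mul]
    have hwn0 : cf N n w ≠ 0 := hwn ▸ mul_ne_zero hc hun0
    set w1 := (cf N n w)⁻¹ • w with hw1
    have hw1W : w1 ∈ W := hsmul _ (hinv _ (hP w hw n)) w hw
    have hw1n : cf N n w1 = 1 := by rw [hw1, map_smul, smul_eq_mul, inv_mul_cancel₀ hwn0]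
    have hw1G : w1 ∈ GR A N := by
      obtain ⟨⟨_, v, hv, -⟩, rfl⟩ := hun
      have e : w1 = cB N (cf N n u)⁻¹ * u := by
        rw [hw1, hwn, hwu, Algebra.smul_def]
        show cB N (c * cf N n u)⁻¹ * (cB N c * u) = _
        rw [← mul_assoc, ← map_mul]
        congr 2
        field_simp
      rw [e]
      refine mul_mem (cB_mem ?_) hu.1
      have hv' := congrArg Subtype.val hv
      simp only [MulMemClass.coe_mul, OneMemClass.coe_one] at hv'
      rw [inv_eq_of_mul_eq_one_right hv']
      exact v.2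
    set V' := V ⊓ LinearMap.ker (cf N n) with hV'
    have : FiniteDimensional Qb V' := Submodule.finiteDimensional_inf_left _ _
    have hlt : V' < V := lt_of_le_of_ne inf_le_left fun h => hwn0 (by
      have := hWV hw
      rw [← h] at this
      exact this.2)
    set W' : Set (FB N) := {v | v ∈ W ∧ cf N n v = 0} with hW'
    let π : FB N →ₗ[Qb] FB N :=
      { toFun := fun v => v - cf N n v • w1
        map_add' := fun x y => by rw [map_add, add_smul]; abel
        map_smul' := fun a x => by rw [map_smul, smul_eq_mul, mul_smul, RingHom.id_apply, smul_sub] }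
    obtain ⟨d, b, hbW, hbG, hbi, hbs⟩ := ih V' this
      (by have := Submodule.finrank_lt_finrank_of_lt hlt; omega)
      (fun y hy => hser y hy.1) W' (fun w hw => hP w hw.1)
      (fun c hc w hw => ⟨hsmul c hc w hw.1, by rw [map_smul, hw.2, smul_zero]⟩)
      (fun v hv w hw => ⟨hsub v hv.1 w hw.1, by rw [map_sub, hv.2, hw.2, sub_zero]⟩)
      (fun v hv => ⟨hWV hv.1, hv.2⟩)
      (fun v hv => by
        have hπ : π v = v := by simp [π, LinearMap.mem_ker.mp hv.2]
        rw [← hπ]
        refine (Submodule.span_le.mpr ?_ : Submodule.span Qb W ≤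
          Submodule.comap π (Submodule.span Qb W')) (hspan hv.1)
        intro x hx
        refine Submodule.subset_span ⟨?_, ?_⟩
        · show x - cf N n x • w1 ∈ W
          exact hsub x hx _ (hsmul _ (hP x hx n) w1 hw1W)
        · show cf N n (x - cf N n x • w1) = 0
          rw [map_sub, map_smul, hw1n, smul_eq_mul, mul_one, sub_self])
    refine ⟨d + 1, Fin.cons w1 b, Fin.cases hw1W fun i => (hbW i).1, Fin.cases hw1G hbG, ?_, ?_⟩
    · have hw1s := hser w1 (hWV hw1W) hw1G
      have hbc : ∀ i, ((red A N (b i) : FS A N) : LaurentSeries (kA A)).coeff n = 0 := fun i => by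
        rw [cf_red C (hser (b i) (hWV (hbW i).1) (hbG i))]
        exact (congrArg (residue A) (Subtype.ext (hbW i).2 :
          (⟨cf N n (b i), _⟩ : A) = 0)).trans (map_zero _)
      rw [show (fun i => red A N ((Fin.cons w1 b : Fin (d + 1) → FB N) i)) =
        Fin.cons (red A N w1) (fun i => red A N (b i)) from funext (Fin.cases rfl fun i => rfl)]
      rw [linearIndependent_finCons]
      refine ⟨hbi, fun hmem => ?_⟩
      obtain ⟨a, ha⟩ := Submodule.mem_span_range_iff_exists_fun (kA A) |>.mp hmem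
      have e := congrArg (fun z : FS A N => (z : LaurentSeries (kA A)).coeff n) ha
      simp only [cf_red C hw1s, show (⟨cf N n w1, hw1s n⟩ : A) = 1 from Subtype.ext hw1n,
        map_one] at e
      rw [← IntermediateField.coe_val, map_sum, HahnSeries.coeff_sum,
        Finset.sum_eq_zero fun i _ => by
          rw [IntermediateField.coe_val, IntermediateField.coe_smul,
            Algebra.smul_def, algebraMap_laurentSeries_eq_single, HahnSeries.coeff_single_zero_mul,
            hbc, mul_zero]] at e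
      exact zero_ne_one e
    · intro v hv
      have h' : v - cf N n v • w1 ∈ V' := ⟨sub_mem hv (V.smul_mem _ (hWV hw1W)), by simp [hw1n]⟩
      have h2 := Submodule.span_mono (by rintro _ ⟨i, rfl⟩; exact ⟨i.succ, Fin.cons_succ ..⟩ :
        Set.range b ⊆ Set.range (Fin.cons w1 b : Fin (d + 1) → FB N)) (hbs h')
      rw [← sub_add_cancel v (cf N n v • w1)]
      exact add_mem h2 (Submodule.smul_mem _ _ (Submodule.subset_span ⟨0, Fin.cons_zero ..⟩))

/-- combinations of an integral family with independent reductions -/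
theorem red_comb {d : ℕ} (b : Fin d → FB N) (hb : ∀ i, b i ∈ GR A N) (x : Fin d → A) :
    ∑ i, (x i : Qb) • b i ∈ GR A N ∧
      red A N (∑ i, (x i : Qb) • b i) = ∑ i, residue A (x i) • red A N (b i) := by
  classical
  have hterm : ∀ i, (x i : Qb) • b i ∈ GR A N := fun i => by
    rw [Algebra.smul_def]; exact mul_mem (cB_mem (x i).2) (hb i)
  refine ⟨sum_mem fun i _ => hterm i, ?_⟩
  suffices H : ∀ s : Finset (Fin d),
      red A N (∑ i ∈ s, (x i : Qb) • b i) = ∑ i ∈ s, residue A (x i) • red A N (b i) from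
    H Finset.univ
  intro s
  induction s using Finset.induction_on with
  | empty => simp [red_zero C]
  | insert i s hi ih =>
    rw [Finset.sum_insert hi, Finset.sum_insert hi, red_add C (hterm i)
      (sum_mem fun j _ => hterm j), ih, Algebra.smul_def,
      red_mul C (cB_mem (x i).2) (hb i), red_cB C, ← Algebra.smul_def]

theorem comb_int {d : ℕ} (b : Fin d → FB N) (hb : ∀ i, b i ∈ GR A N)
    (hi : LinearIndependent (kA A) fun i => red A N (b i)) (x : Fin d → Qb)
    (h : ∑ i, x i • b i ∈ GR A N) (i : Fin d) : x i ∈ A := by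
  classical
  by_cases hx : x i = 0
  · rw [hx]; exact A.zero_mem
  obtain ⟨i0, -, h0, hle⟩ := exists_max A Finset.univ x ⟨i, Finset.mem_univ _, hx⟩
  let y : Fin d → A := fun j => ⟨x j / x i0, hle j (Finset.mem_univ _)⟩
  obtain ⟨hu, hur⟩ := red_comb C b hb y
  have hU : UG A N (∑ j, (y j : Qb) • b j) := by
    refine ⟨hu, fun h => ?_⟩
    rw [hur] at h
    have := Fintype.linearIndependent_iff.mp hi _ h i0
    rw [show y i0 = 1 from Subtype.ext (div_self h0), map_one] at this
    exact one_ne_zero this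
  have e : cB N (x i0) * ∑ j, (y j : Qb) • b j = ∑ j, x j • b j := by
    rw [show cB N (x i0) * ∑ j, (y j : Qb) • b j = x i0 • ∑ j, (y j : Qb) • b j from
      (Algebra.smul_def _ _).symm, Finset.smul_sum]
    exact Finset.sum_congr rfl fun j _ => by
      rw [smul_smul]; congr 1; exact mul_div_cancel₀ _ h0
  have hA := mem_A_of_UG_mul C hU (e ▸ h)
  have := A.mul_mem _ _ hA (y i).2
  rwa [show x i0 * (y i : Qb) = x i from mul_div_cancel₀ _ h0] at this

theorem indep_of_red {d : ℕ} (b : Fin d → FB N) (hb : ∀ i, b i ∈ GR A N)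
    (hi : LinearIndependent (kA A) fun i => red A N (b i)) : LinearIndependent Qb b := by
  classical
  rw [Fintype.linearIndependent_iff]
  intro x hx i
  by_contra hne
  obtain ⟨i0, -, h0, hle⟩ := exists_max A Finset.univ x ⟨i, Finset.mem_univ _, hne⟩
  let y : Fin d → A := fun j => ⟨x j / x i0, hle j (Finset.mem_univ _)⟩
  obtain ⟨-, hur⟩ := red_comb C b hb y
  have e : ∑ j, (y j : Qb) • b j = 0 := by
    rw [← smul_zero (x i0)⁻¹, ← hx, Finset.smul_sum]
    exact Finset.sum_congr rfl fun j _ => by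
      rw [smul_smul]; congr 1; exact div_eq_inv_mul _ _
  rw [e, red_zero C] at hur
  have := Fintype.linearIndependent_iff.mp hi _ hur.symm i0
  rw [show y i0 = 1 from Subtype.ext (div_self h0), map_one] at this
  exact one_ne_zero this

theorem finrank_eq_of_orth {V : Submodule Qb (FB N)} [FiniteDimensional Qb V] {d : ℕ}
    (b : Fin d → FB N) (hV : ∀ i, b i ∈ V) (hb : ∀ i, b i ∈ GR A N)
    (hi : LinearIndependent (kA A) fun i => red A N (b i))
    (hs : V ≤ Submodule.span Qb (Set.range b)) : d = Module.finrank Qb V := by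
  rw [le_antisymm hs (Submodule.span_le.mpr (by rintro _ ⟨i, rfl⟩; exact hV i)),
    finrank_span_eq_card (indep_of_red C b hb hi), Fintype.card_fin]

theorem series_of_regOn {y : FB N} (h : y ∈ regOn Qb (tB N false)) (hy : y ∈ GR A N) (n : ℤ) :
    cf N n y ∈ A := by
  obtain ⟨G, -, hG, -, -⟩ := exists_series_BT C false (BT_of_mem C h hy)
  rw [cf_apply, ← hG]
  exact (G.coeff n).2

set_option maxHeartbeats 1000000 in
theorem exists_latBasis (V : Submodule Qb (FB N)) [FiniteDimensional Qb V] :
    Nonempty (LatBasis A N V (Module.finrank Qb V)) := by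
  classical
  obtain ⟨B⟩ := nonempty_basis0 C
  let v := Module.finBasis Qb V
  have key : ∀ y : FB N, ∃ Q : Polynomial A, Q.map (residue A) ≠ 0 ∧
      phiA A N false Q * y ∈ regOn Qb (tB N false) := by
    intro y
    rcases eq_or_ne y 0 with rfl | hy
    · exact ⟨1, by simp, by rw [mul_zero]; exact zero_mem _⟩
    obtain ⟨c, Q, P, -, hQ, -, h⟩ := exists_repr C B hy
    refine ⟨Q, hQ, ?_⟩
    rw [mul_comm, h]
    exact Subalgebra.mul_mem _ (Subalgebra.algebraMap_mem _ c)
      (Subalgebra.sum_mem _ fun j _ => Subalgebra.mul_mem _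
        (BT_phiA (A := A) (N := N) false (P j)).mem_regOn (B.bt j).mem_regOn)
  choose Q hQ hreg using key
  set u := phiA A N false (∏ i, Q (v i)) with hu
  have huU : UG A N u := by
    refine ⟨phiA_mem _ _, fun h => aeval_tS_ne_zero C false (Q := ∏ i, Q (v i)) ?_ ?_⟩
    · rw [Polynomial.map_prod]
      exact Finset.prod_ne_zero_iff.mpr fun i _ => hQ _
    · rw [← coe_red C (phiA_mem _ _), ← hu, h]; rfl
  have hu0 := huU.ne_zero C
  have hui := (huU.inv C).1
  have hregu : ∀ y ∈ V, u * y ∈ regOn Qb (tB N false) := by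
    intro y hy
    have hsum : y = ∑ i, v.repr ⟨y, hy⟩ i • (v i : FB N) := by
      have := congrArg V.subtype (v.sum_repr ⟨y, hy⟩)
      rw [map_sum] at this
      exact this.symm
    rw [hsum, Finset.mul_sum]
    refine Subalgebra.sum_mem _ fun i _ => ?_
    rw [mul_smul_comm]
    refine Subalgebra.smul_mem _ ?_ _
    rw [hu, ← Finset.mul_prod_erase _ _ (Finset.mem_univ i), map_mul, mul_right_comm]
    exact Subalgebra.mul_mem _ (hreg _) (BT_phiA (A := A) (N := N) false _).mem_regOn
  set V' := V.map (LinearMap.mulLeft Qb u) with hV'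
  obtain ⟨d, b, hbW, hbG, hbi, hbs⟩ := exists_orth C (fun _ => True) (fun _ _ => trivial)
    (Module.finrank Qb V') V' inferInstance le_rfl
    (by rintro _ ⟨y, hy, rfl⟩ hyG n; exact series_of_regOn C (hregu y hy) hyG n)
    V' (fun _ _ _ => trivial) (fun c _ w hw => V'.smul_mem c hw) (fun v hv w hw => sub_mem hv hw)
    subset_rfl (fun x hx => Submodule.subset_span hx)
  have hb' : ∀ i, u⁻¹ * b i ∈ V := fun i => by
    obtain ⟨y, hy, e⟩ := hbW i
    rw [← e]
    show u⁻¹ * (u * y) ∈ V
    rwa [← mul_assoc, inv_mul_cancel₀ hu0, one_mul]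
  have hG' : ∀ i, u⁻¹ * b i ∈ GR A N := fun i => mul_mem hui.1 (hbG i)
  have hi' : LinearIndependent (kA A) fun i => red A N (u⁻¹ * b i) := by
    rw [show (fun i => red A N (u⁻¹ * b i)) =
      LinearMap.mulLeft (kA A) (red A N u⁻¹) ∘ fun i => red A N (b i) from
        funext fun i => red_mul C hui.1 (hbG i)]
    exact hbi.map' _ (LinearMap.ker_eq_bot.mpr (mul_right_injective₀ hui.2))
  have hs' : V ≤ Submodule.span Qb (Set.range fun i => u⁻¹ * b i) := by
    intro y hy
    have := Submodule.apply_mem_span_image_of_mem_span (LinearMap.mulLeft Qb u⁻¹)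
      (hbs ⟨y, hy, rfl⟩)
    rw [← Set.range_comp] at this
    simp only [LinearMap.mulLeft_apply, ← mul_assoc, inv_mul_cancel₀ hu0, one_mul] at this
    exact this
  obtain rfl := finrank_eq_of_orth C _ hb' hG' hi' hs'
  exact ⟨⟨_, hb', hG', hi', hs'⟩⟩

/-- Galois stable spaces have invariant such bases -/
theorem exists_latBasis_fixed (V : Submodule Qb (FB N)) [FiniteDimensional Qb V]
    (hV : ∀ (σ : AlgebraicClosure ℚ ≃ₐ[ℚ] AlgebraicClosure ℚ), ∀ y ∈ V, gal N σ • y ∈ V)
    (hser : ∀ y ∈ V, y ∈ GR A N → ∀ n : ℤ, ((y : LaurentSeries Qb)).coeff n ∈ A) :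
    ∃ L : LatBasis A N V (Module.finrank Qb V), ∀ σ i, gal N σ • L.b i = L.b i := by
  classical
  obtain ⟨d₀, n, e, he, hd, hexp⟩ := exists_pivots V
  set W : Set (FB N) := {w | w ∈ V ∧ ∀ (σ : AlgebraicClosure ℚ ≃ₐ[ℚ] AlgebraicClosure ℚ) m, σ (cf N m w) = cf N m w} with hW
  have hfix : ∀ k, e k ∈ W := fun k => ⟨he k, fun σ m => by
    rw [← cf_gal]
    congr 1
    rw [hexp _ (hV σ _ (he k))]
    simp only [cf_gal, hd, apply_ite σ, map_one, map_zero, ite_smul, one_smul, zero_smul,
      Finset.sum_ite_eq', Finset.mem_univ, if_true]⟩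
  obtain ⟨d, b, hbW, hbG, hbi, hbs⟩ := exists_orth C (fun c => ∀ σ : AlgebraicClosure ℚ ≃ₐ[ℚ]
      AlgebraicClosure ℚ, σ c = c) (fun c hc σ => by rw [map_inv₀, hc σ])
    (Module.finrank Qb V) V inferInstance le_rfl hser W (fun w hw m σ => hw.2 σ m)
    (fun c hc w hw => ⟨V.smul_mem c hw.1, fun σ m => by
      rw [map_smul, smul_eq_mul, map_mul, hc σ, hw.2 σ m]⟩)
    (fun v hv w hw => ⟨sub_mem hv.1 hw.1, fun σ m => by
      rw [map_sub, map_sub, hv.2 σ m, hw.2 σ m]⟩)
    (fun w hw => hw.1)
    (fun v hv => by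
      rw [hexp v hv]
      exact Submodule.sum_mem _ fun k _ => Submodule.smul_mem _ _ (Submodule.subset_span (hfix k)))
  obtain rfl := finrank_eq_of_orth C b (fun i => (hbW i).1) hbG hbi hbs
  exact ⟨⟨b, fun i => (hbW i).1, hbG, hbi, hbs⟩, fun σ i =>
    ext_cf fun m => by rw [cf_gal]; exact (hbW i).2 σ m⟩

omit C

variable {V : Submodule Qb (FB N)} {d : ℕ}

/-- coordinates of integral elements are integral, and reduce to the coordinates -/
theorem LatBasis.coord_mem (C : Ctx A N ℓ) (L : LatBasis A N V d) (x : Fin d → Qb)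
    (h : ∑ i, x i • L.b i ∈ GR A N) (i : Fin d) : x i ∈ A :=
  comb_int C L.b L.int L.indep x h i

theorem LatBasis.red_sum (C : Ctx A N ℓ) (L : LatBasis A N V d) (x : Fin d → A) :
    red A N (∑ i, (x i : Qb) • L.b i) = ∑ i, residue A (x i) • red A N (L.b i) :=
  (red_comb C L.b L.int x).2

end FLTAgent.Flat
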