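import Mathlib

/-!
Linear algebra over algebras of `A`-valued functions on a finite set.
-/

set_option autoImplicit false

noncomputable section

open IsLocalRing

namespace FLTAgent.Flat

/-- over an infinite field, one matrix makes finitely many left invertible ones invertible -/
theorem exists_matrix_det_ne_zero {k : Type*} [Field k] [Infinite k] {ι κ J : Type*} [Fintype ι]
    [DecidableEq ι] [Fintype κ] [Finite J] (B : J → Matrix κ ι k)
    (hB : ∀ j, ∃ L : Matrix ι κ k, L * B j = 1) :
    ∃ T : Matrix ι κ k, ∀ j, (T * B j).det ≠ 0 := by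
  classical
  have := Fintype.ofFinite J
  set Y : Matrix ι κ (MvPolynomial (ι × κ) k) := Matrix.mvPolynomialX ι κ k with hY
  set q : J → MvPolynomial (ι × κ) k := fun j =>
    Matrix.det (n := ι) (R := MvPolynomial (ι × κ) k)
      (Y * ((B j).map MvPolynomial.C : Matrix κ ι (MvPolynomial (ι × κ) k))) with hq
  have hev : ∀ (L : Matrix ι κ k) j,
      MvPolynomial.eval (fun p : ι × κ => L p.1 p.2) (q j) = (L * B j).det := by
    intro L j
    rw [hq, RingHom.map_det, RingHom.mapMatrix_apply, Matrix.map_mul, hY]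
    congr 2
    · ext a b
      simp [Matrix.mvPolynomialX]
    · ext a b
      simp
  have hne : (∏ j, q j) ≠ 0 := by
    refine Finset.prod_ne_zero_iff.mpr fun j _ h0 => ?_
    obtain ⟨L, hL⟩ := hB j
    have := hev L j
    rw [h0, map_zero, hL, Matrix.det_one] at this
    exact zero_ne_one this
  obtain ⟨x, hx⟩ : ∃ x, MvPolynomial.eval x (∏ j, q j) ≠ 0 := by
    by_contra hcon
    push Not at hcon
    exact hne (MvPolynomial.funext fun x => by rw [hcon x, map_zero])
  refine ⟨fun a b => x (a, b), fun j => ?_⟩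
  rw [map_prod, Finset.prod_ne_zero_iff] at hx
  have h := hx j (Finset.mem_univ j)
  have e : x = fun p : ι × κ => (fun a b => x (a, b)) p.1 p.2 := rfl
  rw [e] at h
  exact hev (fun a b => x (a, b)) j ▸ h

variable {K : Type*} [Field K] {A : ValuationSubring K} {X : Type*} [Finite X]

/-- units of an algebra of integral functions are the elements with unit values -/
theorem exists_inverse_mem (S : Subalgebra A (X → K)) {f : X → K} (hf : f ∈ S)
    (hval : ∀ x, ∃ h : f x ∈ A, IsUnit (⟨f x, h⟩ : A)) : ∃ g ∈ S, ∀ x, f x * g x = 1 := by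
  classical
  have := Fintype.ofFinite X
  choose hA hu using hval
  set P : Polynomial A := ∏ x, (Polynomial.X - Polynomial.C ⟨f x, hA x⟩) with hP
  have h0 : IsUnit (P.coeff 0) := by
    rw [hP, Polynomial.coeff_zero_prod]
    refine IsUnit.prod_univ_iff.mpr fun x => ?_
    simpa using hu x
  obtain ⟨u, hu'⟩ := h0
  have hroot : ∀ x, P.eval ⟨f x, hA x⟩ = 0 := fun x => by
    rw [hP, Polynomial.eval_prod]
    exact Finset.prod_eq_zero (Finset.mem_univ x) (by simp)
  have hpw : ∀ (Q : Polynomial A) (x : X), Polynomial.aeval f Q x = ((Q.eval ⟨f x, hA x⟩ : A) : K) := by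
    intro Q x
    induction Q using Polynomial.induction_on' with
    | add p q hp hq =>
      rw [map_add, Polynomial.eval_add, Pi.add_apply, hp, hq]
      rfl
    | monomial n a =>
      rw [Polynomial.aeval_monomial, Polynomial.eval_monomial, Pi.mul_apply, Pi.pow_apply]
      rfl
  have haev : Polynomial.aeval f P.divX ∈ S :=
    Algebra.adjoin_le (Set.singleton_subset_iff.mpr hf)
      (Polynomial.aeval_mem_adjoin_singleton A f)
  refine ⟨(-(↑u⁻¹ : A)) • Polynomial.aeval f P.divX, S.smul_mem haev _, fun x => ?_⟩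
  rw [Pi.smul_apply, hpw, Algebra.smul_def]
  have e : (⟨f x, hA x⟩ : A) * P.divX.eval ⟨f x, hA x⟩ + P.coeff 0 = 0 := by
    have h := congrArg (Polynomial.eval (⟨f x, hA x⟩ : A)) P.X_mul_divX_add
    simp only [Polynomial.eval_add, Polynomial.eval_mul, Polynomial.eval_X, Polynomial.eval_C] at h
    rw [h, hroot x]
  have e' : (⟨f x, hA x⟩ : A) * (-(↑u⁻¹ : A) * P.divX.eval ⟨f x, hA x⟩) = 1 := by
    rw [mul_left_comm, show (⟨f x, hA x⟩ : A) * P.divX.eval ⟨f x, hA x⟩ = -(u : A) by
      rw [hu']; linear_combination e, neg_mul_neg, Units.inv_mul]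
  simpa [Subtype.ext_iff] using e'

variable [Infinite (ResidueField A)]

/-- solutions of linear systems which are residually injective everywhere lie in the algebra -/
theorem mem_of_residually_injective (S : Subalgebra A (X → K)) (hS : ∀ f ∈ S, ∀ x, f x ∈ A)
    {ι κ : Type*} [Fintype ι] [Fintype κ] (M : κ → ι → (X → K)) (hM : ∀ r i, M r i ∈ S)
    (b : κ → (X → K)) (hb : ∀ r, b r ∈ S)
    (hinj : ∀ (x : X) (v : ι → ResidueField A),
      (∀ r, ∑ i, residue A ⟨M r i x, hS _ (hM r i) x⟩ * v i = 0) → v = 0)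
    (z : ι → X → K) (hz : ∀ r x, ∑ i, M r i x * z i x = b r x) (i : ι) : z i ∈ S := by
  classical
  set MS : Matrix κ ι S := fun r i => ⟨M r i, hM r i⟩ with hMS
  let ev : X → S →+* A := fun x =>
    { toFun := fun f => ⟨(f : X → K) x, hS _ f.2 x⟩
      map_one' := rfl
      map_mul' := fun _ _ => rfl
      map_zero' := rfl
      map_add' := fun _ _ => rfl }
  set B : X → Matrix κ ι (ResidueField A) := fun x => MS.map ((residue A).comp (ev x)) with hB
  have hL : ∀ x, ∃ L : Matrix ι κ (ResidueField A), L * B x = 1 := by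
    intro x
    have hker : LinearMap.ker (Matrix.toLin' (B x)) = ⊥ := by
      rw [LinearMap.ker_eq_bot']
      exact fun v hv => hinj x v fun r => congrFun hv r
    obtain ⟨g, hg⟩ := (Matrix.toLin' (B x)).exists_leftInverse_of_injective hker
    exact ⟨LinearMap.toMatrix' g, Matrix.toLin'.injective (by
      rw [Matrix.toLin'_mul, Matrix.toLin'_toMatrix', Matrix.toLin'_one, hg])⟩
  obtain ⟨T, hT⟩ := exists_matrix_det_ne_zero B hL
  choose T0 hT0 using fun a r => residue_surjective (T a r)
  set TS : Matrix ι κ S := fun a r => algebraMap A S (T0 a r) with hTS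
  set P : Matrix ι ι S := TS * MS with hP
  have hunit : ∀ x, IsUnit (ev x P.det) := by
    intro x
    rw [← notMem_maximalIdeal, ← residue_eq_zero_iff, ← RingHom.comp_apply, RingHom.map_det]
    have e : ((residue A).comp (ev x)).mapMatrix P = T * B x := by
      rw [hP, RingHom.mapMatrix_apply, Matrix.map_mul, hB]
      congr 1
      ext a r
      exact hT0 a r
    rw [e]
    exact hT x
  obtain ⟨g, hgS, hg⟩ := exists_inverse_mem S P.det.2 fun x => ⟨hS _ P.det.2 x, hunit x⟩
  set bS : κ → S := fun r => ⟨b r, hb r⟩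
  set w : ι → S := (⟨g, hgS⟩ : S) • P.adjugate.mulVec (TS.mulVec bS) with hw
  suffices hzw : z i = (w i : X → K) by rw [hzw]; exact (w i).2
  funext x
  let evK : S →+* K := A.subtype.comp (ev x)
  set MK : Matrix κ ι K := MS.map evK
  set TK : Matrix ι κ K := TS.map evK
  have hzx : MK.mulVec (fun j => z j x) = fun r => b r x := funext fun r => hz r x
  have hPK : P.map evK = TK * MK := Matrix.map_mul
  have key : (P.adjugate.map evK).mulVec (TK.mulVec (fun r => b r x)) =
      evK P.det • fun j => z j x := by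
    rw [← hzx, Matrix.mulVec_mulVec, Matrix.mulVec_mulVec, Matrix.mul_assoc, ← hPK, ← Matrix.map_mul,
      Matrix.adjugate_mul, ← RingHom.mapMatrix_apply, Matrix.smul_one_eq_diagonal]
    ext j
    simp [Matrix.mulVec_diagonal]
  have hwx : ∀ j, (w j : X → K) x =
      g x * (P.adjugate.map evK).mulVec (TK.mulVec (fun r => b r x)) j := by
    intro j
    show evK (w j) = _
    rw [hw, Pi.smul_apply, smul_eq_mul, map_mul, RingHom.map_mulVec]
    congr 2
    funext a
    exact RingHom.map_mulVec evK TS bS a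
  rw [hwx, key, Pi.smul_apply, smul_eq_mul, ← mul_assoc, mul_comm (g x)]
  show z i x = (P.det : X → K) x * g x * z i x
  rw [hg x, one_mul]

/-- finitely many subspaces of the same dimension have a common set of coordinates -/
theorem exists_common_coords {k : Type*} [Field k] [Infinite k] {n u : ℕ} {J : Type*} [Finite J]
    (W : J → Submodule k (Fin n → k)) (hW : ∀ j, Module.finrank k (W j) = u) :
    ∃ T : (Fin n → k) →ₗ[k] (Fin u → k), ∀ j, ∀ v ∈ W j, T v = 0 → v = 0 := by
  classical
  let c : ∀ j, W j ≃ₗ[k] (Fin u → k) := fun j =>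
    LinearEquiv.ofFinrankEq _ _ (by rw [hW j, Module.finrank_fin_fun])
  let f : J → (Fin u → k) →ₗ[k] (Fin n → k) := fun j => (W j).subtype.comp (c j).symm.toLinearMap
  obtain ⟨T, hT⟩ := exists_matrix_det_ne_zero (fun j => LinearMap.toMatrix' (f j)) fun j => by
    obtain ⟨g, hg⟩ := (f j).exists_leftInverse_of_injective
      (LinearMap.ker_eq_bot.mpr (Subtype.val_injective.comp (c j).symm.injective))
    exact ⟨LinearMap.toMatrix' g, by rw [← LinearMap.toMatrix'_comp, hg, LinearMap.toMatrix'_id]⟩
  refine ⟨Matrix.toLin' T, fun j v hv h => ?_⟩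
  have hfv : f j (c j ⟨v, hv⟩) = v := by simp [f]
  have h2 : (T * LinearMap.toMatrix' (f j)).mulVec (c j ⟨v, hv⟩) = 0 := by
    rw [← Matrix.mulVec_mulVec, LinearMap.toMatrix'_mulVec, hfv]
    exact h
  have h3 := Matrix.eq_zero_of_mulVec_eq_zero (hT j) h2
  rw [← hfv, h3, map_zero]

end FLTAgent.Flat
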