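import Fermat.Agent.Flat.API

/-!
The torsion of `J₀(N)` is flat at `ℓ ∤ N`.
-/

set_option autoImplicit false

noncomputable section

open ModularCurve AlgebraicCurve

namespace FLTAgent.Flat

theorem exists_model_torsion (p : ℕ) [NeZero p] (ℓ : ℕ) [Fact ℓ.Prime] (hℓp : ¬ ℓ ∣ p) (k : ℕ) :
    ∃ (H : Type) (_ : CommRing H) (_ : HopfAlgebra (GaloisRep.ratLocalizedAt ℓ) H),
      Module.Finite (GaloisRep.ratLocalizedAt ℓ) H ∧ Module.Flat (GaloisRep.ratLocalizedAt ℓ) H ∧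
      Coalgebra.IsCocomm (GaloisRep.ratLocalizedAt ℓ) H ∧
      ∃ e : WithConv (H →ₐ[GaloisRep.ratLocalizedAt ℓ] AlgebraicClosure ℚ) ≃
          ↥(Submodule.torsionBy ℤ (JZero p) ((ℓ : ℤ) ^ k)),
        (∀ f g, e (f * g) = e f + e g) ∧
        ∀ (σ : AlgebraicClosure ℚ ≃ₐ[ℚ] AlgebraicClosure ℚ)
          (f g : WithConv (H →ₐ[GaloisRep.ratLocalizedAt ℓ] AlgebraicClosure ℚ)),
          (∀ h : H, g h = σ (f h)) → ((e g : JZero p)) = σ • (e f : JZero p) := by
  set G := ↥(Submodule.torsionBy ℤ (JZero p) ((ℓ : ℤ) ^ k))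
  have hmem : ∀ (σ : GalQ) (x : G), σ • (x : JZero p) ∈ Submodule.torsionBy ℤ (JZero p) ((ℓ : ℤ) ^ k) :=
    fun σ x => by
      rw [Submodule.mem_torsionBy_iff]
      show ((ℓ : ℤ) ^ k) • σ • (x : JZero p) = 0
      have h := map_zsmul (DistribSMul.toAddMonoidHom (JZero p) σ) ((ℓ : ℤ) ^ k) (x : JZero p)
      simp only [DistribSMul.toAddMonoidHom_apply] at h
      rw [← h, show ((ℓ : ℤ) ^ k) • (x : JZero p) = 0 from (Submodule.mem_torsionBy_iff _ _).mp x.2,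
        smul_zero]
  letI : SMul GalQ G := ⟨fun σ x => ⟨σ • (x : JZero p), hmem σ x⟩⟩
  letI : DistribMulAction GalQ G :=
    { one_smul := fun x => Subtype.ext (one_smul GalQ (x : JZero p))
      mul_smul := fun σ τ x => Subtype.ext (mul_smul σ τ (x : JZero p))
      smul_zero := fun σ => Subtype.ext (smul_zero σ)
      smul_add := fun σ x y => Subtype.ext (smul_add σ (x : JZero p) (y : JZero p)) }
  haveI : Finite G := by
    refine Set.finite_coe_iff.mpr ((finite_torsion (N := p) (ℓ ^ k)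
      (pow_pos (Fact.out : ℓ.Prime).pos k)).subset fun x hx => ?_)
    show (ℓ ^ k : ℕ) • x = 0
    rw [← natCast_zsmul, Nat.cast_pow]
    exact (Submodule.mem_torsionBy_iff _ _).mp hx
  obtain ⟨H, hH1, hH2, h1, h2, h3, e, he, hσ⟩ := hasFlatModel_of_embedding (N := p) (ℓ := ℓ) hℓp G
    (fun _ : Unit => (Submodule.torsionBy ℤ (JZero p) ((ℓ : ℤ) ^ k)).subtype.toAddMonoidHom)
    (fun c d h => Subtype.ext (h ())) (fun _ σ c => rfl)
  exact ⟨H, hH1, hH2, h1, h2, h3, e, he, fun σ f g h => congrArg Subtype.val (hσ σ f g h)⟩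

end FLTAgent.Flat
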